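/-
helper73: finiteness of the `p`-torsion (`p` odd) of a Weierstrass curve of the shape
`Y² = X³ + a₂ X² + a₄ X` (`a₄ ≠ 0`, characteristic `≠ 2`) over a field, WITHOUT division
polynomials.  Method: specialise the generic point `G` of the curve over its function field `K`
along valuation subrings of `K` centred at the points `P` of the curve, using the kernel of
reduction `Fermat.Agent.S05.KernelOfReduction.nearZeroSubgroup`: if `p • P = 0` then
`p • G = p • (G - P)` lies in the kernel of reduction at `P`, i.e. the `x`-coordinate of `p • G`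
has a pole at `P`; a nonzero rational function has finitely many poles.
-/
import Mathlib
import Fermat.Agent.S05.KernelOfReduction
import Fermat.Agent.S51.Torsion

set_option autoImplicit false
set_option linter.unusedSectionVars false

noncomputable section

namespace Fermat.Agent.Lib.EC.TorsionFinite

open WeierstrassCurve WeierstrassCurve.Affine Polynomial
open scoped Polynomial.Bivariate
open Fermat.Agent.S05

/-! ### A valuation subring centred at the kernel of an evaluation -/

/-- A valuation subring of `K` containing the image of `R` in which the kernel of `ev` consists of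
non-units. -/
theorem exists_valuationSubring_of_eval {R K k : Type*} [CommRing R] [Field K] [CommRing k]
    [Nontrivial k] (φ : R →+* K) (hφ : Function.Injective φ) (ev : R →+* k) :
    ∃ B : ValuationSubring K, (∀ r, φ r ∈ B) ∧ ∀ r, ev r = 0 → φ r ∈ B.nonunits := by
  let A : Subring K := φ.range
  let I : Ideal A := (RingHom.ker ev).map φ.rangeRestrict
  have hsurj : Function.Surjective φ.rangeRestrict := φ.rangeRestrict_surjective
  have hI : I ≠ ⊤ := by
    intro h
    have h1 : (1 : A) ∈ I := h ▸ Submodule.mem_top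
    rw [Ideal.mem_map_iff_of_surjective _ hsurj] at h1
    obtain ⟨r, hr, hr1⟩ := h1
    have : φ r = φ 1 := by
      have := congrArg Subtype.val hr1
      simpa using this
    have hr' : r = 1 := hφ this
    rw [hr', RingHom.mem_ker, map_one] at hr
    exact one_ne_zero hr
  obtain ⟨B, hAB, hIB⟩ := Ideal.image_subset_nonunits_valuationSubring I hI
  refine ⟨B, fun r => hAB ⟨r, rfl⟩, fun r hr => hIB ?_⟩
  refine ⟨φ.rangeRestrict r, ?_, rfl⟩
  exact Ideal.mem_map_of_mem _ (RingHom.mem_ker.mpr hr)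

/-! ### The function field and the generic point -/

section Generic

variable {L : Type*} [Field L] (W : WeierstrassCurve L)

/-- The function field of `W`. -/
abbrev KK : Type _ := W.toAffine.FunctionField

/-- `L[W] → L(W)`. -/
abbrev toKK : W.toAffine.CoordinateRing →+* KK W :=
  algebraMap W.toAffine.CoordinateRing (KK W)

theorem toKK_injective : Function.Injective (toKK W) :=
  IsFractionRing.injective _ _

/-- The class of a bivariate polynomial in the function field. -/
abbrev cls (f : L[X][Y]) : KK W := toKK W (CoordinateRing.mk W.toAffine f)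

/-- The `x`-coordinate of the generic point. -/
def xG : KK W := cls W (C X)

/-- The `y`-coordinate of the generic point. -/
def yG : KK W := cls W Y

theorem algebraMap_KK (c : L) :
    algebraMap L (KK W) c = cls W (C (C c)) := by
  rw [IsScalarTower.algebraMap_apply L W.toAffine.CoordinateRing (KK W)]
  rfl

theorem generic_eq :
    yG W ^ 2 + (cls W (C (C W.a₁)) * xG W + cls W (C (C W.a₃))) * yG W =
      xG W ^ 3 + cls W (C (C W.a₂)) * xG W ^ 2 + cls W (C (C W.a₄)) * xG W
        + cls W (C (C W.a₆)) := by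
  have e : CoordinateRing.mk W.toAffine (Y ^ 2 + C (C W.a₁ * X + C W.a₃) * Y
      - C (X ^ 3 + C W.a₂ * X ^ 2 + C W.a₄ * X + C W.a₆)) = 0 :=
    AdjoinRoot.mk_self (f := W.toAffine.polynomial)
  have h := congrArg (toKK W) e
  simp only [map_sub, map_add, map_mul, map_pow, map_zero] at h
  rw [sub_eq_zero] at h
  exact h

theorem equation_generic : (W⁄(KK W)).Equation (xG W) (yG W) := by
  rw [Affine.equation_iff]
  simp only [map_a₁, map_a₂, map_a₃, map_a₄, map_a₆, WeierstrassCurve.baseChange,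
    algebraMap_KK]
  linear_combination generic_eq W

theorem yG_ne_zero : yG W ≠ 0 := by
  intro h
  have h1 : CoordinateRing.mk W.toAffine Y = 0 := toKK_injective W (by rw [map_zero]; exact h)
  have h2 := (CoordinateRing.basis W.toAffine).ne_zero 1
  rw [CoordinateRing.basis_one] at h2
  exact h2 h1

theorem xG_sub_ne_zero (x₀ : L) : xG W - algebraMap L (KK W) x₀ ≠ 0 := by
  intro h
  have h1 : CoordinateRing.XClass W.toAffine x₀ = 0 := by
    apply toKK_injective W
    rw [map_zero, ← h, CoordinateRing.XClass, algebraMap_KK, xG, cls, cls, ← map_sub, ← map_sub,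
      ← C_sub]
  exact CoordinateRing.XClass_ne_zero (W' := W.toAffine) x₀ h1

/-- A valuation subring of the function field centred at the point `(x₀, y₀)` of the curve. -/
theorem exists_place {x₀ y₀ : L} (h : W.toAffine.Equation x₀ y₀) :
    ∃ B : ValuationSubring (KK W),
      (∀ f : L[X][Y], B.valuation (cls W f) ≤ 1) ∧
      (∀ f : L[X][Y], f.evalEval x₀ y₀ = 0 → B.valuation (cls W f) < 1) ∧
      (∀ f : L[X][Y], f.evalEval x₀ y₀ ≠ 0 → B.valuation (cls W f) = 1) := by
  obtain ⟨B, hB1, hB2⟩ := exists_valuationSubring_of_eval (toKK W) (toKK_injective W)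
    (AdjoinRoot.evalEval (p := W.toAffine.polynomial) h)
  have h1 : ∀ f : L[X][Y], B.valuation (cls W f) ≤ 1 := fun f =>
    (B.valuation_le_one_iff _).2 (hB1 _)
  have h2 : ∀ f : L[X][Y], f.evalEval x₀ y₀ = 0 → B.valuation (cls W f) < 1 := fun f hf =>
    B.mem_nonunits_iff.1 (hB2 _ (by rw [AdjoinRoot.evalEval_mk]; exact hf))
  refine ⟨B, h1, h2, fun f hf => ?_⟩
  set c := f.evalEval x₀ y₀ with hc
  -- constants are units
  have hcc : B.valuation (cls W (C (C c))) = 1 := by
    have hmul : cls W (C (C c)) * cls W (C (C c⁻¹)) = 1 := by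
      rw [cls, cls, ← map_mul, ← map_mul, ← C_mul, ← C_mul, mul_inv_cancel₀ hf, C_1, C_1, map_one,
        map_one]
    have hv := congrArg B.valuation hmul
    rw [map_mul, map_one] at hv
    refine le_antisymm (h1 _) ?_
    by_contra hlt
    rw [not_le] at hlt
    have : B.valuation (cls W (C (C c))) * B.valuation (cls W (C (C c⁻¹))) < 1 := by
      calc B.valuation (cls W (C (C c))) * B.valuation (cls W (C (C c⁻¹)))
          ≤ B.valuation (cls W (C (C c))) * 1 := by gcongr; exact h1 _
        _ = B.valuation (cls W (C (C c))) := mul_one _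
        _ < 1 := hlt
    exact absurd hv this.ne
  have hsub : B.valuation (cls W (f - C (C c))) < 1 := by
    apply h2
    rw [evalEval_sub, evalEval_CC, sub_self]
  have hdecomp : cls W f = cls W (f - C (C c)) + cls W (C (C c)) := by
    rw [cls, cls, cls, ← map_add, ← map_add, sub_add_cancel]
  rw [hdecomp, Valuation.map_add_eq_of_lt_right _ (by rw [hcc]; exact hsub), hcc]

end Generic

/-! ### Two computations in the kernel of reduction -/

section Valued

variable {K : Type*} [Field K] [DecidableEq K] (B : ValuationSubring K) {W' : Affine K}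

theorem one_lt_of_mul_eq_one {Γ : Type*} [LinearOrderedCommGroupWithZero Γ] {s t : Γ}
    (h : s * t = 1) (ht : t < 1) : 1 < s := by
  by_contra hs
  rw [not_lt] at hs
  have : s * t < 1 := by
    calc s * t ≤ 1 * t := by gcongr
      _ = t := one_mul t
      _ < 1 := ht
  exact absurd h this.ne

/-- If `(ξ, η)` is congruent to `(x₀, y₀)` (with `2 y₀` a unit) then `(ξ, η) - (x₀, y₀)` lies in
the kernel of reduction. -/
theorem nearZero_sub_of_close (hW : IsTwoModel W') (ha₂ : B.valuation W'.a₂ ≤ 1)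
    {ξ η x₀ y₀ : K} (hG : W'.Nonsingular ξ η) (hQ : W'.Nonsingular x₀ y₀)
    (hx : ξ ≠ x₀) (h1 : B.valuation (ξ - x₀) < 1) (h2 : B.valuation (η - y₀) < 1)
    (hx₀ : B.valuation x₀ ≤ 1) (hy₀ : B.valuation (2 * y₀) = 1) :
    NearZero B (Point.some ξ η hG - Point.some x₀ y₀ hQ) := by
  rw [sub_eq_add_neg, Point.neg_some, Point.add_of_X_ne hx, nearZero_some,
    ← B.valuation_le_one_iff, not_le]
  have hneg : W'.negY x₀ y₀ = -y₀ := by
    rw [Affine.negY, hW.a₁, hW.a₃]; ring
  rw [Affine.slope_of_X_ne hx, hneg, Affine.addX, hW.a₁]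
  set ℓ : K := (η - -y₀) / (ξ - x₀) with hℓ
  have hnum : B.valuation (η - -y₀) = 1 := by
    have : η - -y₀ = (η - y₀) + 2 * y₀ := by ring
    rw [this, Valuation.map_add_eq_of_lt_right _ (by rw [hy₀]; exact h2), hy₀]
  have hden0 : ξ - x₀ ≠ 0 := sub_ne_zero.mpr hx
  have hvℓ : B.valuation ℓ * B.valuation (ξ - x₀) = 1 := by
    rw [← map_mul, hℓ, div_mul_cancel₀ _ hden0, hnum]
  have hℓ1 : 1 < B.valuation ℓ := one_lt_of_mul_eq_one hvℓ h1
  have hℓ2 : 1 < B.valuation (ℓ ^ 2) := by
    rw [map_pow]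
    exact one_lt_pow₀ hℓ1 (by norm_num)
  have hξ : B.valuation ξ ≤ 1 := by
    have : ξ = (ξ - x₀) + x₀ := by ring
    rw [this]
    exact le_trans (B.valuation.map_add _ _) (max_le h1.le hx₀)
  have hrest : B.valuation (-W'.a₂ - ξ - x₀) ≤ 1 := by
    have : -W'.a₂ - ξ - x₀ = -(W'.a₂ + ξ + x₀) := by ring
    rw [this, Valuation.map_neg]
    refine le_trans (B.valuation.map_add _ _) (max_le ?_ hx₀)
    exact le_trans (B.valuation.map_add _ _) (max_le ha₂ hξ)
  have : ℓ ^ 2 + 0 * ℓ - W'.a₂ - ξ - x₀ = ℓ ^ 2 + (-W'.a₂ - ξ - x₀) := by ring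
  rw [this, Valuation.map_add_eq_of_lt_left _ (lt_of_le_of_lt hrest hℓ2)]
  exact hℓ2

/-- If `ξ` is a non-unit then `(ξ, η) + (0, 0)` lies in the kernel of reduction. -/
theorem nearZero_add_zeroZero (hW : IsTwoModel W') (ha₄ : B.valuation W'.a₄ = 1)
    {ξ η : K} (hG : W'.Nonsingular ξ η) (hT : W'.Nonsingular 0 0)
    (hξ0 : ξ ≠ 0) (hξ : B.valuation ξ < 1) :
    NearZero B (Point.some ξ η hG + Point.some 0 0 hT) := by
  rw [Point.add_of_X_ne hξ0, nearZero_some, ← B.valuation_le_one_iff, not_le,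
    Affine.slope_of_X_ne hξ0, Affine.addX, hW.a₁]
  have heq := KernelOfReduction.equation_twoModel hW hG.1
  have hexpr : ((η - 0) / (ξ - 0)) ^ 2 + 0 * ((η - 0) / (ξ - 0)) - W'.a₂ - ξ - 0 = W'.a₄ / ξ := by
    rw [sub_zero, sub_zero, sub_zero]
    field_simp
    linear_combination heq
  rw [hexpr]
  have hmul : B.valuation (W'.a₄ / ξ) * B.valuation ξ = 1 := by
    rw [← map_mul, div_mul_cancel₀ _ hξ0, ha₄]
  exact one_lt_of_mul_eq_one hmul hξ

end Valued

/-! ### The main theorem -/

section Main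

variable {L : Type*} [Field L] [DecidableEq L] (W : WeierstrassCurve L)

theorem isTwoModel_baseChange (hW : IsTwoModel W) (K : Type*) [Field K] [Algebra L K] :
    IsTwoModel (W.baseChange K) where
  a₁ := by rw [WeierstrassCurve.baseChange, map_a₁, hW.a₁, map_zero]
  a₃ := by rw [WeierstrassCurve.baseChange, map_a₃, hW.a₃, map_zero]
  a₆ := by rw [WeierstrassCurve.baseChange, map_a₆, hW.a₆, map_zero]

theorem baseChange_a₂ (K : Type*) [Field K] [Algebra L K] :
    (W.baseChange K).a₂ = algebraMap L K W.a₂ := by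
  rw [WeierstrassCurve.baseChange, map_a₂]

theorem baseChange_a₄ (K : Type*) [Field K] [Algebra L K] :
    (W.baseChange K).a₄ = algebraMap L K W.a₄ := by
  rw [WeierstrassCurve.baseChange, map_a₄]

theorem two_ne_zero_KK (h2 : (2 : L) ≠ 0) : (2 : KK W) ≠ 0 := by
  have : (2 : KK W) = algebraMap L (KK W) 2 := by rw [map_ofNat]
  rw [this]
  exact fun h => h2 ((algebraMap L (KK W)).injective (by rw [h, map_zero]))

/-- The generic point is nonsingular. -/
theorem nonsingular_generic (hW : IsTwoModel W) (h2 : (2 : L) ≠ 0) :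
    (W⁄(KK W)).Nonsingular (xG W) (yG W) := by
  rw [Affine.nonsingular_iff]
  refine ⟨equation_generic W, Or.inr ?_⟩
  have hK := isTwoModel_baseChange W hW (KK W)
  rw [hK.a₁, hK.a₃]
  intro h
  have h3 : (2 : KK W) * yG W = 0 := by linear_combination h
  rcases mul_eq_zero.mp h3 with h4 | h4
  · exact two_ne_zero_KK W h2 h4
  · exact yG_ne_zero W h4

/-- `(0, 0)` is a nonsingular point of the base change. -/
theorem nonsingular_zeroZero (hW : IsTwoModel W) (ha₄ : W.a₄ ≠ 0) (K : Type*) [Field K]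
    [Algebra L K] : (W⁄K).Nonsingular 0 0 := by
  rw [Affine.nonsingular_zero]
  refine ⟨(isTwoModel_baseChange W hW K).a₆, Or.inr ?_⟩
  rw [baseChange_a₄]
  exact fun h => ha₄ ((algebraMap L K).injective (by rw [h, map_zero]))

/-- The generic point. -/
def genericPoint [DecidableEq (KK W)] (hW : IsTwoModel W) (h2 : (2 : L) ≠ 0) :
    (W⁄(KK W)).Point :=
  Point.some (xG W) (yG W) (nonsingular_generic W hW h2)

theorem odd_nsmul_of_two_nsmul {G : Type*} [AddCommGroup G] {T : G} (hT : T + T = 0) {p : ℕ}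
    (hp : Odd p) : p • T = T := by
  obtain ⟨m, rfl⟩ := hp
  rw [add_nsmul, one_nsmul, mul_comm, mul_nsmul', two_nsmul, hT, nsmul_zero, zero_add]

theorem xG_ne_zero : xG W ≠ 0 := by
  have := xG_sub_ne_zero W 0
  rwa [map_zero, sub_zero] at this

/-- The generic point is not killed by an odd integer. -/
theorem nsmul_genericPoint_ne_zero [DecidableEq (KK W)] (hW : IsTwoModel W) (h2 : (2 : L) ≠ 0)
    (ha₄ : W.a₄ ≠ 0) {p : ℕ} (hp : Odd p) : p • genericPoint W hW h2 ≠ 0 := by
  intro hpG
  have hK := isTwoModel_baseChange W hW (KK W)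
  have h00 : W.toAffine.Equation 0 0 := by rw [Affine.equation_zero]; exact hW.a₆
  obtain ⟨B, hB1, hB2, hB3⟩ := exists_place W h00
  have hT := nonsingular_zeroZero W hW ha₄ (KK W)
  have hva₂ : (W.baseChange (KK W)).a₂ ∈ B := by
    rw [baseChange_a₂, algebraMap_KK, ← B.valuation_le_one_iff]; exact hB1 _
  have hva₄ : B.valuation (W.baseChange (KK W)).a₄ = 1 := by
    rw [baseChange_a₄, algebraMap_KK]
    apply hB3
    rw [evalEval_CC]; exact ha₄
  have hva₄' : (W.baseChange (KK W)).a₄ ∈ B := by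
    rw [← B.valuation_le_one_iff, hva₄]
  have hxG : B.valuation (xG W) < 1 := by
    apply hB2
    rw [evalEval_C, eval_X]
  have hnz : NearZero B (genericPoint W hW h2 + Point.some 0 0 hT) :=
    nearZero_add_zeroZero B hK hva₄ _ hT (xG_ne_zero W) hxG
  have hmem : p • (genericPoint W hW h2 + Point.some 0 0 hT) ∈
      KernelOfReduction.nearZeroSubgroup B hK hva₂ hva₄' :=
    AddSubgroup.nsmul_mem _ hnz p
  have hTT : (Point.some 0 0 hT : (W⁄(KK W)).Point) + Point.some 0 0 hT = 0 := by
    have hneg : -(Point.some 0 0 hT : (W⁄(KK W)).Point) = Point.some 0 0 hT := by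
      rw [Point.neg_some]
      congr 1
      rw [Affine.negY, hK.a₁, hK.a₃]; ring
    nth_rewrite 2 [← hneg]
    exact add_neg_cancel _
  rw [nsmul_add, hpG, zero_add, odd_nsmul_of_two_nsmul hTT hp,
    KernelOfReduction.mem_nearZeroSubgroup, nearZero_some] at hmem
  exact hmem B.zero_mem

/-- Evaluation of an element of the coordinate ring written in the basis `{1, Y}`. -/
theorem evalEval_smul_basis {x₀ y₀ : L} (h : W.toAffine.Equation x₀ y₀) (pp qq : L[X]) :
    AdjoinRoot.evalEval (p := W.toAffine.polynomial) h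
      (pp • (1 : W.toAffine.CoordinateRing) + qq • CoordinateRing.mk W.toAffine Y) =
      pp.eval x₀ + qq.eval x₀ * y₀ := by
  rw [CoordinateRing.smul, CoordinateRing.smul, mul_one, map_add, map_mul,
    AdjoinRoot.evalEval_mk, AdjoinRoot.evalEval_mk, AdjoinRoot.evalEval_mk, evalEval_C,
    evalEval_C, evalEval_X]

/-- Key step: a torsion point `(x₀, y₀)` (with `p` odd) is a pole of the `x`-coordinate of
`p • G`. -/
theorem not_mem_of_torsion [DecidableEq (KK W)] (hW : IsTwoModel W) (h2 : (2 : L) ≠ 0)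
    {p : ℕ} {x₀ y₀ : L} (hP : (W⁄L).Nonsingular x₀ y₀) (hy₀ : y₀ ≠ 0)
    (hpP : p • (Point.some x₀ y₀ hP : (W⁄L).Point) = 0)
    (B : ValuationSubring (KK W))
    (hB1 : ∀ f : L[X][Y], B.valuation (cls W f) ≤ 1)
    (hB2 : ∀ f : L[X][Y], f.evalEval x₀ y₀ = 0 → B.valuation (cls W f) < 1)
    (hB3 : ∀ f : L[X][Y], f.evalEval x₀ y₀ ≠ 0 → B.valuation (cls W f) = 1) :
    NearZero B (p • genericPoint W hW h2) := by
  have hK := isTwoModel_baseChange W hW (KK W)
  have hva₂ : (W.baseChange (KK W)).a₂ ∈ B := by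
    rw [baseChange_a₂, algebraMap_KK, ← B.valuation_le_one_iff]; exact hB1 _
  have hva₂' : B.valuation (W.baseChange (KK W)).a₂ ≤ 1 := (B.valuation_le_one_iff _).2 hva₂
  have hva₄ : (W.baseChange (KK W)).a₄ ∈ B := by
    rw [baseChange_a₄, algebraMap_KK, ← B.valuation_le_one_iff]; exact hB1 _
  -- the image of `P` over the function field
  set PK : (W⁄(KK W)).Point := Point.baseChange L (KK W) (Point.some x₀ y₀ hP) with hPK
  obtain ⟨hQ, hPK'⟩ : ∃ hQ, PK = Point.some (algebraMap L (KK W) x₀) (algebraMap L (KK W) y₀) hQ :=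
    ⟨_, rfl⟩
  have hpPK : p • PK = 0 := by
    rw [hPK, ← map_nsmul, hpP, map_zero]
  have hx : xG W ≠ algebraMap L (KK W) x₀ := sub_ne_zero.mp (xG_sub_ne_zero W x₀)
  have h1 : B.valuation (xG W - algebraMap L (KK W) x₀) < 1 := by
    rw [algebraMap_KK, xG, cls, cls, ← map_sub, ← map_sub]
    apply hB2
    rw [evalEval_sub, evalEval_C, evalEval_CC, eval_X, sub_self]
  have h2' : B.valuation (yG W - algebraMap L (KK W) y₀) < 1 := by
    rw [algebraMap_KK, yG, cls, cls, ← map_sub, ← map_sub]
    apply hB2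
    rw [evalEval_sub, evalEval_X, evalEval_CC, sub_self]
  have hx₀ : B.valuation (algebraMap L (KK W) x₀) ≤ 1 := by
    rw [algebraMap_KK]; exact hB1 _
  have hy₀' : B.valuation (2 * algebraMap L (KK W) y₀) = 1 := by
    have : (2 : KK W) * algebraMap L (KK W) y₀ = cls W (C (C (2 * y₀))) := by
      rw [← algebraMap_KK, map_mul, map_ofNat]
    rw [this]
    apply hB3
    rw [evalEval_CC]
    exact mul_ne_zero h2 hy₀
  have hnz : NearZero B (genericPoint W hW h2 - PK) := by
    rw [hPK']
    exact nearZero_sub_of_close B hK hva₂' _ hQ hx h1 h2' hx₀ hy₀'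
  have hmem : p • (genericPoint W hW h2 - PK) ∈
      KernelOfReduction.nearZeroSubgroup B hK hva₂ hva₄ :=
    AddSubgroup.nsmul_mem _ hnz p
  rw [nsmul_sub, hpPK, sub_zero, KernelOfReduction.mem_nearZeroSubgroup] at hmem
  exact hmem

theorem equation_of_baseChange_self {x₀ y₀ : L} (h : (W⁄L).Equation x₀ y₀) :
    W.toAffine.Equation x₀ y₀ := by
  rw [Affine.equation_iff] at h ⊢
  simpa only [WeierstrassCurve.baseChange, map_a₁, map_a₂, map_a₃, map_a₄, map_a₆,
    Algebra.algebraMap_self, RingHom.id_apply] using h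

theorem isTwoModel_baseChange_self (hW : IsTwoModel W) : IsTwoModel (W.baseChange L) :=
  isTwoModel_baseChange W hW L

/-- **Main theorem**, polynomial form: the `x`-coordinates of the nonzero points killed by the odd
integer `p` are roots of one nonzero polynomial. -/
theorem exists_polynomial_of_torsion (hW : IsTwoModel W) (h2 : (2 : L) ≠ 0) (ha₄ : W.a₄ ≠ 0)
    {p : ℕ} (hp : Odd p) :
    ∃ Q : L[X], Q ≠ 0 ∧ ∀ P : (W⁄L).Point, p • P = 0 → P ≠ 0 →
      Q.eval (Fermat.Agent.S51.xc P) = 0 := by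
  classical
  have hG := nsmul_genericPoint_ne_zero W hW h2 ha₄ hp
  rcases hpG : p • genericPoint W hW h2 with _ | ⟨f, g, hfg⟩
  · exact absurd hpG hG
  obtain ⟨a, b, hb, hab⟩ := IsFractionRing.div_surjective (A := W.toAffine.CoordinateRing) f
  have hb0 : b ≠ 0 := nonZeroDivisors.ne_zero hb
  obtain ⟨pp, qq, hpq⟩ := CoordinateRing.exists_smul_basis_eq b
  obtain ⟨a', rfl⟩ := AdjoinRoot.mk_surjective a
  obtain ⟨b', hb'⟩ := AdjoinRoot.mk_surjective b
  refine ⟨Algebra.norm L[X] b, ?_, ?_⟩
  · rw [Ne, Algebra.norm_eq_zero_iff_of_basis (CoordinateRing.basis W.toAffine)]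
    exact hb0
  rintro (_ | ⟨x₀, y₀, hP⟩) hpP hP0
  · exact absurd rfl hP0
  rw [Fermat.Agent.S51.xc_some]
  have hLL := isTwoModel_baseChange_self W hW
  -- `y₀ ≠ 0`
  have hy₀ : y₀ ≠ 0 := by
    intro hy
    have hneg : -(Point.some x₀ y₀ hP : (W⁄L).Point) = Point.some x₀ y₀ hP := by
      rw [Point.neg_some]
      congr 1
      rw [Affine.negY, hLL.a₁, hLL.a₃, hy]; ring
    have hPP : (Point.some x₀ y₀ hP : (W⁄L).Point) + Point.some x₀ y₀ hP = 0 := by
      nth_rewrite 2 [← hneg]
      exact add_neg_cancel _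
    rw [odd_nsmul_of_two_nsmul hPP hp] at hpP
    exact hP0 hpP
  have hEq := equation_of_baseChange_self W hP.1
  obtain ⟨B, hB1, hB2, hB3⟩ := exists_place W hEq
  have hnz := not_mem_of_torsion W hW h2 hP hy₀ hpP B hB1 hB2 hB3
  rw [hpG, nearZero_some, ← B.valuation_le_one_iff, not_le] at hnz
  -- the denominator vanishes at the point
  have hbP : b'.evalEval x₀ y₀ = 0 := by
    by_contra hne
    have hvb : B.valuation (cls W b') = 1 := hB3 _ hne
    have hf : f = cls W a' / cls W b' := by rw [← hab, ← hb']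
    rw [hf, map_div₀, hvb, div_one] at hnz
    exact absurd (hB1 a') (not_le.mpr hnz)
  have hev : pp.eval x₀ + qq.eval x₀ * y₀ = 0 := by
    rw [← evalEval_smul_basis W hEq, hpq, ← hb', AdjoinRoot.evalEval_mk, hbP]
  have hy2 : y₀ ^ 2 = x₀ ^ 3 + W.toAffine.a₂ * x₀ ^ 2 + W.toAffine.a₄ * x₀ :=
    KernelOfReduction.equation_twoModel hW hEq
  rw [← hpq, CoordinateRing.norm_smul_basis]
  simp only [eval_sub, eval_mul, eval_pow, eval_add, eval_C, eval_X]
  have ha₁ : W.toAffine.a₁ = 0 := hW.a₁
  have ha₃ : W.toAffine.a₃ = 0 := hW.a₃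
  have ha₆ : W.toAffine.a₆ = 0 := hW.a₆
  rw [ha₁, ha₃, ha₆]
  linear_combination (pp.eval x₀ - qq.eval x₀ * y₀) * hev + (qq.eval x₀) ^ 2 * hy2

/-- **Main theorem**: finiteness of the `p`-torsion, `p` odd. -/
theorem finite_torsion (hW : IsTwoModel W) (h2 : (2 : L) ≠ 0) (ha₄ : W.a₄ ≠ 0)
    {p : ℕ} (hp : Odd p) : {P : (W⁄L).Point | p • P = 0}.Finite := by
  obtain ⟨Q, hQ, hQP⟩ := exists_polynomial_of_torsion W hW h2 ha₄ hp
  exact (Fermat.Agent.S51.finite_and_ncard_le_of_roots Q hQ _ fun P hP hP0 => hQP P hP hP0).1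

theorem baseChange_self : W.baseChange L = W := by
  ext <;> simp [WeierstrassCurve.baseChange]

/-- **Main theorem** for the points of `W` itself. -/
theorem finite_torsion' (hW : IsTwoModel W) (h2 : (2 : L) ≠ 0) (ha₄ : W.a₄ ≠ 0)
    {p : ℕ} (hp : Odd p) : {P : W.toAffine.Point | p • P = 0}.Finite := by
  have h := finite_torsion W hW h2 ha₄ hp
  have e := baseChange_self W
  exact e ▸ h

end Main

end Fermat.Agent.Lib.EC.TorsionFinite
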