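/-
helper73: the `p`-torsion of the Frey curve over `ℚ̄` is finite, hence its Galois representation
factors through a finite level (Prelude `GaloisFactorsThroughFiniteLevel`); plus the assembly of a
finite Galois number field trivialising two finite-level representations, in the exact shape used by
the Prelude predicate `FreyPackage.EigenformResidualAttachmentAt` (frozen statement S42).
-/
import Mathlib
import Fermat.Agent.Lib.EC.TorsionFinite
import Fermat.Agent.S05.FreyModel
import Fermat.Agent.S05.Transfer
import Fermat.Prelude.Def_GaloisRep_Residual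
import Fermat.Prelude.Def_EllipticCurve_FrobeniusTrace

set_option autoImplicit false
set_option linter.unusedSectionVars false

noncomputable section

namespace Fermat.Agent.Lib.EC.FreyTorsionField

open WeierstrassCurve WeierstrassCurve.Affine WeierstrassCurve.Affine.Point
open Fermat.Agent.S05

/-! ### Finiteness of the torsion of the Frey curve -/

section Finite

variable (P : FreyPackage) {K : Type*} [Field K] [DecidableEq K] [Algebra ℚ K] [CharZero K]

/-- The odd torsion of the two-model of the Frey curve is finite. -/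
theorem finite_torsion_freyModelAB {n : ℕ} (hn : Odd n) :
    {Q : ((freyModelAB P)⁄K).Point | n • Q = 0}.Finite := by
  apply TorsionFinite.finite_torsion' ((freyModelAB P).baseChange K)
    (Fermat.Agent.S05.isTwoModel_baseChange _ _) two_ne_zero _ hn
  rw [freyModelAB_a₄]
  have h : -(P.a ^ P.p * P.b ^ P.p) ≠ 0 :=
    neg_ne_zero.mpr (mul_ne_zero (pow_ne_zero _ P.ha0) (pow_ne_zero _ P.hb0))
  exact_mod_cast h

/-- The odd torsion of the Frey curve is finite. -/
theorem finite_torsion_freyCurve {n : ℕ} (hn : Odd n) :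
    {Q : (P.freyCurve⁄K).Point | n • Q = 0}.Finite := by
  obtain ⟨ψ, hψ, -⟩ := exists_transfer (K := K) P.freyCurve (freyModelAB P) (freyChange 0)
    (freyChange_smul_AB P)
  refine Set.Finite.of_finite_image ((finite_torsion_freyModelAB P (K := K) hn).subset ?_)
    hψ.injOn
  rintro _ ⟨Q, hQ, rfl⟩
  show n • ψ Q = 0
  rw [← map_nsmul, show n • Q = 0 from hQ, _root_.map_zero]

end Finite

/-! ### Finite level -/

section FiniteLevel

local notation "Qbar" => AlgebraicClosure ℚ

theorem isAlgebraic_Qbar :
    @Algebra.IsAlgebraic ℚ (AlgebraicClosure ℚ) _ _ DivisionRing.toRatAlgebra := by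
  have h : (DivisionRing.toRatAlgebra : Algebra ℚ (AlgebraicClosure ℚ)) =
      AlgebraicClosure.instAlgebra ℚ := Subsingleton.elim _ _
  rw [h]
  infer_instance

/-- The coordinates of a point. -/
def coords {W : Affine Qbar} : W.Point → Set Qbar
  | .zero => ∅
  | .some x y _ => {x, y}

theorem coords_finite {W : Affine Qbar} (Q : W.Point) : (coords Q).Finite := by
  cases Q
  · exact Set.finite_empty
  · exact (Set.finite_singleton _).insert _

/-- If the `n`-torsion of `W'` over `ℚ̄` is finite, the Galois action on it factors through a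
finite level. -/
theorem galoisFactorsThroughFiniteLevel_of_finite (W' : WeierstrassCurve ℚ) (n : ℕ)
    (hfin : {Q : (W'⁄Qbar).Point | n • Q = 0}.Finite) :
    GaloisFactorsThroughFiniteLevel
      (galoisRepModuleEnd (K := AlgebraicClosure ℚ) ℚ W' n) := by
  set C : Set Qbar := ⋃ Q ∈ {Q : (W'⁄Qbar).Point | n • Q = 0}, coords Q with hC
  have hCfin : C.Finite := hfin.biUnion fun Q _ => coords_finite Q
  have : Finite C := hCfin.to_subtype
  have hQ := isAlgebraic_Qbar
  refine ⟨IntermediateField.adjoin ℚ C, ?_, fun σ hσ => ?_⟩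
  · exact IntermediateField.finiteDimensional_adjoin fun x _ =>
      (Algebra.IsAlgebraic.isAlgebraic (R := ℚ) x).isIntegral
  · refine LinearMap.ext fun x => Subtype.ext ?_
    rw [galoisRepModuleEnd_apply]
    show σ • (x : (W'⁄Qbar).Point) = x
    have hx : n • (x : (W'⁄Qbar).Point) = 0 := by
      have := (Submodule.mem_torsionBy_iff _ _).1 x.2
      rwa [natCast_zsmul] at this
    rw [algEquiv_smul_def]
    rcases hxP : (x : (W'⁄Qbar).Point) with _ | ⟨a, b, hab⟩
    · rfl
    · rw [Point.map_some]
      have hmem : ∀ c ∈ coords (x : (W'⁄Qbar).Point), σ c = c := fun c hc =>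
        hσ c (IntermediateField.subset_adjoin ℚ C (Set.mem_biUnion hx hc))
      rw [hxP] at hmem
      have ha : σ a = a := hmem a (Set.mem_insert _ _)
      have hb : σ b = b := hmem b (Set.mem_insert_of_mem _ rfl)
      congr 1

/-- The Galois representation on the `p`-torsion of the Frey curve factors through a finite
level. -/
theorem frey_galoisFactorsThroughFiniteLevel (P : FreyPackage) :
    GaloisFactorsThroughFiniteLevel
      (galoisRepModuleEnd (K := AlgebraicClosure ℚ) ℚ P.freyCurve P.p) :=
  galoisFactorsThroughFiniteLevel_of_finite P.freyCurve P.p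
    (finite_torsion_freyCurve P P.hp_odd)

end FiniteLevel

/-! ### A Galois number field trivialising two finite-level representations -/

section NumberField

local notation "Qbar" => AlgebraicClosure ℚ
local notation "Γℚ" => (AlgebraicClosure ℚ ≃ₐ[ℚ] AlgebraicClosure ℚ)

theorem exists_numberField_of_finiteLevel {M₁ M₂ : Type} [MulOneClass M₁] [MulOneClass M₂]
    (ρ₁ : Γℚ →* M₁) (ρ₂ : Γℚ →* M₂)
    (h₁ : GaloisFactorsThroughFiniteLevel ρ₁) (h₂ : GaloisFactorsThroughFiniteLevel ρ₂) :
    ∃ (F : Type) (_ : Field F) (_ : NumberField F) (_ : IsGalois ℚ F)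
      (_ : Algebra F (AlgebraicClosure ℚ)) (_ : IsScalarTower ℚ F (AlgebraicClosure ℚ)),
      (AlgEquiv.restrictNormalHom (F := ℚ) (K₁ := AlgebraicClosure ℚ) F).ker ≤
        ρ₁.ker ⊓ ρ₂.ker := by
  obtain ⟨L₁, hL₁, hρ₁⟩ := h₁
  obtain ⟨L₂, hL₂, hρ₂⟩ := h₂
  have hQ := isAlgebraic_Qbar
  have hcl : IsAlgClosure ℚ Qbar := ⟨inferInstance, hQ⟩
  have hnQ : Normal ℚ Qbar := IsAlgClosure.normal ℚ Qbar
  let E : IntermediateField ℚ Qbar := L₁ ⊔ L₂
  have hE : FiniteDimensional ℚ E := IntermediateField.finiteDimensional_sup L₁ L₂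
  let N : IntermediateField ℚ Qbar := IntermediateField.normalClosure ℚ E Qbar
  refine ⟨↥N, inferInstance, ?_, ?_, inferInstance, ?_, ?_⟩
  · have hfd : FiniteDimensional ℚ N := normalClosure.is_finiteDimensional ℚ E Qbar
    exact { to_charZero := inferInstance, to_finiteDimensional := hfd }
  · have hn : Normal ℚ N := normalClosure.normal ℚ E Qbar
    exact { to_isSeparable := inferInstance, to_normal := hn }
  · exact inferInstance
  · have hn : Normal ℚ N := normalClosure.normal ℚ E Qbar
    intro σ hσ
    rw [MonoidHom.mem_ker] at hσ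
    have hfix : ∀ x ∈ N, σ x = x := by
      intro x hx
      have h1 := AlgEquiv.restrictNormal_commutes σ N ⟨x, hx⟩
      have h2 : AlgEquiv.restrictNormal σ N = 1 := hσ
      rw [h2] at h1
      exact h1.symm
    have hEN : E ≤ N := IntermediateField.le_normalClosure E
    rw [Subgroup.mem_inf, MonoidHom.mem_ker, MonoidHom.mem_ker]
    exact ⟨hρ₁ σ fun x hx => hfix x (hEN (le_sup_left (a := L₁) (b := L₂) hx)),
      hρ₂ σ fun x hx => hfix x (hEN (le_sup_right (a := L₁) (b := L₂) hx))⟩

end NumberField

end Fermat.Agent.Lib.EC.FreyTorsionField
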