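/-
helper10 (P-ELL, WP-EC1).  The add-sub map on `x`-coordinates really sends `sym2x(P, Q)` to a
nonzero multiple of `sym2x(P + Q, P - Q)`, for all pairs of nonsingular points of a Weierstrass
curve over a field (this finishes the TODO of `Mathlib/.../EllipticCurve/Affine/AddSubMap.lean`).
-/
import Mathlib

set_option autoImplicit false

namespace Fermat.Agent.Lib.EC

open WeierstrassCurve

namespace AddSub

variable {F : Type*} [Field F]

/-- values of the add-sub map -/
theorem eval_addSubMap (W : WeierstrassCurve F) (a b c : F) :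
    (fun i => MvPolynomial.eval ![a, b, c] (W.addSubMap i)) =
      ![a ^ 2 - W.b₄ * a * c - W.b₆ * b * c - W.b₈ * c ^ 2,
        2 * b * a + W.b₂ * a * c + W.b₄ * b * c + W.b₆ * c ^ 2,
        b ^ 2 - 4 * a * c] := by
  funext i
  fin_cases i <;> simp [addSubMap]

theorem sum_identity (W : WeierstrassCurve F) {x₁ x₂ y₁ y₂ : F}
    (h₁ : W.toAffine.Equation x₁ y₁) (h₂ : W.toAffine.Equation x₂ y₂) (hx : x₁ ≠ x₂) :
    (W.toAffine.addX x₁ x₂ ((y₁ - y₂) / (x₁ - x₂)) +
        W.toAffine.addX x₁ x₂ ((y₁ - W.toAffine.negY x₂ y₂) / (x₁ - x₂))) * (x₁ - x₂) ^ 2 =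
      2 * (x₁ + x₂) * (x₁ * x₂) + W.b₂ * (x₁ * x₂) + W.b₄ * (x₁ + x₂) + W.b₆ := by
  have hd : x₁ - x₂ ≠ 0 := sub_ne_zero.mpr hx
  rw [Affine.equation_iff] at h₁ h₂
  simp only [Affine.addX, Affine.negY, b₂, b₄, b₆]
  field_simp
  linear_combination 2 * h₁ + 2 * h₂

theorem prod_identity (W : WeierstrassCurve F) {x₁ x₂ y₁ y₂ : F}
    (h₁ : W.toAffine.Equation x₁ y₁) (h₂ : W.toAffine.Equation x₂ y₂) (hx : x₁ ≠ x₂) :
    (W.toAffine.addX x₁ x₂ ((y₁ - y₂) / (x₁ - x₂)) *
        W.toAffine.addX x₁ x₂ ((y₁ - W.toAffine.negY x₂ y₂) / (x₁ - x₂))) * (x₁ - x₂) ^ 2 =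
      (x₁ * x₂) ^ 2 - W.b₄ * (x₁ * x₂) - W.b₆ * (x₁ + x₂) - W.b₈ := by
  have hd : x₁ - x₂ ≠ 0 := sub_ne_zero.mpr hx
  rw [Affine.equation_iff] at h₁ h₂
  simp only [Affine.addX, Affine.negY, b₄, b₆, b₈]
  field_simp
  grind

/-- `ψ₂² = 4x³ + b₂x² + 2b₄x + b₆` on the curve. -/
theorem psi_sq_identity (W : WeierstrassCurve F) {x y : F} (h : W.toAffine.Equation x y) :
    (y - W.toAffine.negY x y) ^ 2 = 4 * x ^ 3 + W.b₂ * x ^ 2 + 2 * W.b₄ * x + W.b₆ := by
  rw [Affine.equation_iff] at h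
  simp only [Affine.negY, b₂, b₄, b₆]
  linear_combination 4 * h

/-- duplication formula for the `x`-coordinate. -/
theorem dup_identity (W : WeierstrassCurve F) {x y : F} (h : W.toAffine.Equation x y)
    (hy : y ≠ W.toAffine.negY x y) :
    W.toAffine.addX x x ((3 * x ^ 2 + 2 * W.a₂ * x + W.a₄ - W.a₁ * y) / (y - W.toAffine.negY x y)) *
        (y - W.toAffine.negY x y) ^ 2 =
      x ^ 4 - W.b₄ * x ^ 2 - 2 * W.b₆ * x - W.b₈ := by
  have hd : y - W.toAffine.negY x y ≠ 0 := sub_ne_zero.mpr hy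
  have hdef : y - W.toAffine.negY x y = 2 * y + W.a₁ * x + W.a₃ := by
    simp only [Affine.negY]; ring
  generalize y - W.toAffine.negY x y = d at hd hdef
  rw [Affine.equation_iff] at h
  have key : (3 * x ^ 2 + 2 * W.a₂ * x + W.a₄ - W.a₁ * y) ^ 2 +
      W.a₁ * (3 * x ^ 2 + 2 * W.a₂ * x + W.a₄ - W.a₁ * y) * d - (W.a₂ + x + x) * d ^ 2 =
      x ^ 4 - W.b₄ * x ^ 2 - 2 * W.b₆ * x - W.b₈ := by
    subst hdef
    simp only [b₄, b₆, b₈]
    grind
  rw [← key]
  simp only [Affine.addX]
  field_simp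
  ring

/-- at a nonsingular `2`-torsion point the numerator of the duplication formula is a nonzero
square. -/
theorem dupNum_ne_zero (W : WeierstrassCurve F) {x y : F} (h : W.toAffine.Nonsingular x y)
    (hy : y = W.toAffine.negY x y) :
    x ^ 4 - W.b₄ * x ^ 2 - 2 * W.b₆ * x - W.b₈ ≠ 0 := by
  rw [Affine.nonsingular_iff] at h
  obtain ⟨heq, hns⟩ := h
  have hN : W.a₁ * y - (3 * x ^ 2 + 2 * W.a₂ * x + W.a₄) ≠ 0 := by
    rcases hns with h1 | h1
    · exact sub_ne_zero.mpr h1
    · exact absurd hy h1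
  have key : x ^ 4 - W.b₄ * x ^ 2 - 2 * W.b₆ * x - W.b₈ =
      (W.a₁ * y - (3 * x ^ 2 + 2 * W.a₂ * x + W.a₄)) ^ 2 := by
    rw [Affine.equation_iff] at heq
    simp only [Affine.negY] at hy
    simp only [b₄, b₆, b₈]
    grind
  rw [key]
  exact pow_ne_zero 2 hN

variable [DecidableEq F]

open WeierstrassCurve.Affine in
/-- the doubling case `Q = P`. -/
theorem addSubMap_sym2x_self (W : WeierstrassCurve F) (P : W.toAffine.Point) :
    ∃ c : F, c ≠ 0 ∧
      (fun i => MvPolynomial.eval (P.sym2x P) (W.addSubMap i)) = c • (P + P).sym2x 0 := by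
  rcases P with _ | ⟨x, y, h⟩
  · refine ⟨1, one_ne_zero, ?_⟩
    rw [← Point.zero_def, add_zero, Point.sym2x_zero_zero, eval_addSubMap, one_smul]
    funext i
    fin_cases i <;> simp
  · rw [Point.sym2x_some_some, eval_addSubMap]
    have heq : W.toAffine.Equation x y := h.1
    by_cases hy : y = W.toAffine.negY x y
    · refine ⟨x ^ 4 - W.b₄ * x ^ 2 - 2 * W.b₆ * x - W.b₈, dupNum_ne_zero W h hy, ?_⟩
      rw [Point.add_self_of_Y_eq hy, Point.sym2x_zero_zero]
      have hpsi := psi_sq_identity W heq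
      rw [← hy, sub_self] at hpsi
      funext i
      fin_cases i
      · simp; ring
      · simp; linear_combination -hpsi
      · simp; ring
    · refine ⟨(y - W.toAffine.negY x y) ^ 2, pow_ne_zero 2 (sub_ne_zero.mpr hy), ?_⟩
      rw [Point.add_self_of_Y_ne hy, Point.sym2x_some_zero, slope_of_Y_ne rfl hy]
      have hpsi := psi_sq_identity W heq
      have hdup := dup_identity W heq hy
      generalize W.toAffine.addX x x _ = X at hdup ⊢
      generalize y - W.toAffine.negY x y = d at hpsi hdup ⊢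
      funext i
      fin_cases i
      · simp; linear_combination -hdup
      · simp; linear_combination -hpsi
      · simp; ring

end AddSub

open AddSub WeierstrassCurve.Affine in
/-- **WP-EC1**: the add-sub map sends `sym2x(P, Q)` to a nonzero multiple of
`sym2x(P + Q, P - Q)`. -/
theorem addSubMap_sym2x {F : Type*} [Field F] [DecidableEq F] (W : WeierstrassCurve F)
    (P Q : W.toAffine.Point) :
    ∃ c : F, c ≠ 0 ∧
      (fun i => MvPolynomial.eval (P.sym2x Q) (W.addSubMap i)) = c • (P + Q).sym2x (P - Q) := by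
  rcases P with _ | ⟨x₁, y₁, h₁⟩
  · rcases Q with _ | ⟨x₂, y₂, h₂⟩
    · have := addSubMap_sym2x_self W (0 : W.toAffine.Point)
      simpa [← Point.zero_def] using this
    · refine ⟨1, one_ne_zero, ?_⟩
      rw [← Point.zero_def, zero_add, zero_sub, Point.sym2x_neg_right, Point.sym2x_zero_some,
        Point.sym2x_some_some, eval_addSubMap, one_smul]
      funext i
      fin_cases i <;> simp <;> ring
  · rcases Q with _ | ⟨x₂, y₂, h₂⟩
    · refine ⟨1, one_ne_zero, ?_⟩
      rw [← Point.zero_def, add_zero, sub_zero, Point.sym2x_some_zero,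
        Point.sym2x_some_some, eval_addSubMap, one_smul]
      funext i
      fin_cases i <;> simp <;> ring
    · by_cases hx : x₁ = x₂
      · have hrep : (Point.some x₁ y₁ h₁).xRep = (Point.some x₂ y₂ h₂).xRep := by
          rw [Point.xRep_some, Point.xRep_some, hx]
        rcases Point.xRep_eq_xRep_iff.mp hrep with hPQ | hPQ
        · rw [← hPQ, sub_self]
          exact addSubMap_sym2x_self W _
        · rw [hPQ, Point.sym2x_neg_left, neg_add_cancel, ← neg_add', Point.sym2x_neg_right,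
            Point.sym2x_comm (0 : W.toAffine.Point)]
          exact addSubMap_sym2x_self W _
      · refine ⟨(x₁ - x₂) ^ 2, pow_ne_zero 2 (sub_ne_zero.mpr hx), ?_⟩
        rw [sub_eq_add_neg (Point.some x₁ y₁ h₁), Point.neg_some, Point.add_of_X_ne hx,
          Point.add_of_X_ne hx,
          Point.sym2x_some_some, Point.sym2x_some_some, eval_addSubMap,
          slope_of_X_ne hx, slope_of_X_ne hx]
        have hs := sum_identity W h₁.1 h₂.1 hx
        have hp := prod_identity W h₁.1 h₂.1 hx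
        generalize W.toAffine.addX x₁ x₂ ((y₁ - y₂) / (x₁ - x₂)) = X₃ at hs hp ⊢
        generalize W.toAffine.addX x₁ x₂ ((y₁ - W.toAffine.negY x₂ y₂) / (x₁ - x₂)) = X₄ at hs hp ⊢
        funext i
        fin_cases i
        · simp; linear_combination -hp
        · simp; linear_combination -hs
        · simp; ring

end Fermat.Agent.Lib.EC
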