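import Mathlib

/-!
# P-ELL WP-EC8 (core): the exact parallelogram law for the function-field height, abstractly

`k` a field, `W` an elliptic Weierstrass curve over `k`, `K ⊇ k` a field with a `k`-embedding
`ι : RatFunc k →ₐ[k] K`.  For points `P Q` of `W` over `K` whose `x`-coordinate vectors
(`Point.xRep`) come from `RatFunc k`, the projective height `H` of these vectors satisfies
`H(P+Q) + H(P-Q) = 2 H(P) + 2 H(Q)`.

The three properties of the height that are used (invariance under scaling, Gauss' lemma for the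
symmetric square, exact doubling under the add-sub morphism) and the fact that the add-sub map
maps `sym2x P Q` to a multiple of `sym2x (P+Q) (P-Q)` are HYPOTHESES of the core theorem
(they are WP-EC2 and WP-EC1).  This file imports Mathlib only.
-/

set_option autoImplicit false

open MvPolynomial

noncomputable section

namespace Fermat.Agent.Lib.EC.Parallelogram

/-! ### the symmetric square on coordinate pairs -/

/-- `(a₀ : a₁), (b₀ : b₁) ↦ (a₀ b₀ : a₀ b₁ + a₁ b₀ : a₁ b₁)`. -/
def sym2 {R : Type*} [CommRing R] (a b : Fin 2 → R) : Fin 3 → R :=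
  ![a 0 * b 0, a 0 * b 1 + a 1 * b 0, a 1 * b 1]

theorem sym2_eq {R : Type*} [CommRing R] (a b c d : R) :
    sym2 ![a, b] ![c, d] = ![a * c, a * d + b * c, b * d] := by
  simp [sym2]

theorem sym2_eta {R : Type*} [CommRing R] (a b : Fin 2 → R) :
    sym2 a b = ![a 0 * b 0, a 0 * b 1 + a 1 * b 0, a 1 * b 1] := rfl

theorem map_sym2 {R S : Type*} [CommRing R] [CommRing S] (f : R →+* S) (a b : Fin 2 → R) :
    f ∘ sym2 a b = sym2 (f ∘ a) (f ∘ b) := by
  funext i
  fin_cases i <;> simp [sym2]

theorem pair_eta {R : Type*} (a : Fin 2 → R) : a = ![a 0, a 1] := by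
  funext i
  fin_cases i <;> rfl

theorem sym2x_eq_sym2 {R : Type*} [CommRing R] {W' : WeierstrassCurve.Affine R}
    (P Q : W'.Point) : P.sym2x Q = sym2 P.xRep Q.xRep := rfl

/-! ### base change of the add-sub map -/

section BaseChange

variable {k : Type*} [Field k] (W : WeierstrassCurve k)

theorem addSubMap_map {A : Type*} [CommRing A] (f : k →+* A) (i : Fin 3) :
    (W.map f).addSubMap i = MvPolynomial.map f (W.addSubMap i) := by
  fin_cases i <;>
    simp [WeierstrassCurve.addSubMap, WeierstrassCurve.map_b₂, WeierstrassCurve.map_b₄,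
      WeierstrassCurve.map_b₆, WeierstrassCurve.map_b₈, map_ofNat]

theorem addSubMapCoeff_map {A : Type*} [CommRing A] (f : k →+* A) (ij : Fin 3 × Fin 3) :
    (W.map f).addSubMapCoeff ij = MvPolynomial.map f (W.addSubMapCoeff ij) := by
  obtain ⟨i, j⟩ := ij
  fin_cases i <;> fin_cases j <;>
    simp [WeierstrassCurve.addSubMapCoeff, WeierstrassCurve.map_b₂, WeierstrassCurve.map_b₄,
      WeierstrassCurve.map_b₆, WeierstrassCurve.map_b₈, map_ofNat]

/-- evaluating the add-sub map of the base change at the image of a `RatFunc k`-vector. -/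
theorem eval_addSubMap_baseChange {K : Type*} [Field K] [Algebra k K] (ι : RatFunc k →ₐ[k] K)
    (z : Fin 3 → RatFunc k) (i : Fin 3) :
    MvPolynomial.eval (ι ∘ z) ((W.baseChange K).addSubMap i) =
      ι (MvPolynomial.aeval z (W.addSubMap i)) := by
  rw [WeierstrassCurve.baseChange, addSubMap_map, MvPolynomial.eval_map,
    MvPolynomial.comp_aeval_apply, MvPolynomial.aeval_def]
  rfl

variable [W.IsElliptic]

/-- the Nullstellensatz certificate of Mathlib, over `RatFunc k`, with polynomials over `k`:
this is the hypothesis of the exact-height-doubling theorem (WP-EC2 MORPHISM) for `addSubMap`. -/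
theorem addSubMap_certificate (x : Fin 3 → RatFunc k) (i : Fin 3) :
    ∑ j : Fin 3, MvPolynomial.aeval x (C (↑W.Δ'⁻¹ : k) * W.addSubMapCoeff (i, j)) *
      MvPolynomial.aeval x (W.addSubMap j) = x i ^ (2 + 2) := by
  have h := WeierstrassCurve.addSubMapCoeff_condition (W.map (algebraMap k (RatFunc k))) x i
  rw [← h]
  refine Finset.sum_congr rfl fun j _ => ?_
  rw [addSubMap_map, addSubMapCoeff_map, MvPolynomial.eval_map, MvPolynomial.eval_mul,
    MvPolynomial.eval_C, MvPolynomial.eval_map, map_mul, MvPolynomial.aeval_C,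
    MvPolynomial.aeval_def, MvPolynomial.aeval_def]
  congr 2
  rw [WeierstrassCurve.coe_inv_map_Δ']

end BaseChange

/-! ### descending a proportionality along a field embedding -/

theorem exists_smul_of_map_eq_smul {F K : Type*} [Field F] [Field K] (ι : F →+* K) {n : ℕ}
    {u v : Fin n → F} (hv : v ≠ 0) {c : K} (hc : c ≠ 0) (h : ι ∘ u = c • (ι ∘ v)) :
    ∃ c' : F, c' ≠ 0 ∧ u = c' • v := by
  obtain ⟨i, hi⟩ : ∃ i, v i ≠ 0 := by
    by_contra hcon
    apply hv
    funext i
    by_contra h0
    exact hcon ⟨i, h0⟩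
  have hιi : ι (v i) ≠ 0 := (map_ne_zero ι).mpr hi
  have hci : ι (u i) = c * ι (v i) := by
    have := congrFun h i
    simpa using this
  have hc' : c = ι (u i / v i) := by
    rw [map_div₀, hci, mul_div_assoc, div_self hιi, mul_one]
  refine ⟨u i / v i, ?_, ?_⟩
  · intro h0
    rw [h0, map_zero] at hc'
    exact hc hc'
  · funext j
    apply ι.injective
    have := congrFun h j
    simp only [Function.comp_apply, Pi.smul_apply, smul_eq_mul] at this
    rw [this, hc', Pi.smul_apply, smul_eq_mul, map_mul]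

/-! ### the core theorem -/

section Core

variable {R k K : Type*} [CommRing R] [Field k] [Field K] [Algebra R k] [Algebra R K] [Algebra k K]
  [IsScalarTower R k K] [DecidableEq K]
variable (W : WeierstrassCurve R)

omit [DecidableEq K] in
theorem baseChange_eq_baseChange_baseChange :
    W.baseChange K = (W.baseChange k).baseChange K := by
  rw [← WeierstrassCurve.map_baseChange W (IsScalarTower.toAlgHom R k K)]
  rfl

omit [DecidableEq K] in
/-- evaluating the add-sub map of `W⁄K` (`W` over a base ring `R`) at the image of a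
`RatFunc k`-vector. -/
theorem eval_addSubMap_baseChange_tower (ι : RatFunc k →ₐ[k] K)
    (z : Fin 3 → RatFunc k) (i : Fin 3) :
    MvPolynomial.eval (ι ∘ z) ((W.baseChange K).addSubMap i) =
      ι (MvPolynomial.aeval z ((W.baseChange k).addSubMap i)) := by
  rw [baseChange_eq_baseChange_baseChange (k := k) W]
  exact eval_addSubMap_baseChange (W.baseChange k) ι z i

/-- **Exact parallelogram law (abstract core).**  `W` is a Weierstrass curve over a base ring `R`,
`k` and `K ⊇ k` are fields over `R`, `ι : k(X) → K` is a `k`-embedding; `H2`, `H3` are height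
functions on pairs and triples of rational functions with the three listed properties. -/
theorem parallelogram_core
    (H2 : (Fin 2 → RatFunc k) → ℕ) (H3 : (Fin 3 → RatFunc k) → ℕ)
    (H3_smul : ∀ (c : RatFunc k) (z : Fin 3 → RatFunc k), c ≠ 0 → H3 (c • z) = H3 z)
    (H_gauss : ∀ a b : Fin 2 → RatFunc k, a ≠ 0 → b ≠ 0 → H3 (sym2 a b) = H2 a + H2 b)
    (H_morph : ∀ z : Fin 3 → RatFunc k,
      H3 (fun j => MvPolynomial.aeval z ((W.baseChange k).addSubMap j)) = 2 * H3 z)
    (ι : RatFunc k →ₐ[k] K) (P Q : (W.baseChange K).toAffine.Point)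
    (hAS : ∃ c : K, c ≠ 0 ∧
      (fun i => MvPolynomial.eval (P.sym2x Q) ((W.baseChange K).addSubMap i)) =
        c • (P + Q).sym2x (P - Q))
    (zP zQ zS zD : Fin 2 → RatFunc k)
    (hP : P.xRep = ι ∘ zP) (hQ : Q.xRep = ι ∘ zQ)
    (hS : (P + Q).xRep = ι ∘ zS) (hD : (P - Q).xRep = ι ∘ zD) :
    H2 zS + H2 zD = 2 * H2 zP + 2 * H2 zQ := by
  have hne : ∀ {R' : WeierstrassCurve.Affine.Point (W.baseChange K).toAffine}
      {z : Fin 2 → RatFunc k}, R'.xRep = ι ∘ z → z ≠ 0 := by
    intro R' z hz h0
    apply WeierstrassCurve.Affine.Point.xRep_ne_zero R'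
    rw [hz, h0]
    funext i
    simp
  have hzP := hne hP
  have hzQ := hne hQ
  have hzS := hne hS
  have hzD := hne hD
  obtain ⟨c, hc, hAS⟩ := hAS
  -- both sides come from `RatFunc k`
  have h1 : (P + Q).sym2x (P - Q) = (ι : RatFunc k →+* K) ∘ sym2 zS zD := by
    rw [sym2x_eq_sym2, hS, hD, map_sym2]
    rfl
  have h2 : (fun i => MvPolynomial.eval (P.sym2x Q) ((W.baseChange K).addSubMap i)) =
      (ι : RatFunc k →+* K) ∘
        fun j => MvPolynomial.aeval (sym2 zP zQ) ((W.baseChange k).addSubMap j) := by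
    funext i
    have : P.sym2x Q = ι ∘ sym2 zP zQ := by
      rw [sym2x_eq_sym2, hP, hQ]
      exact (map_sym2 (ι : RatFunc k →+* K) zP zQ).symm
    rw [this, eval_addSubMap_baseChange_tower]
    rfl
  rw [h1, h2] at hAS
  have hSD : sym2 zS zD ≠ 0 := by
    intro h0
    have := WeierstrassCurve.Affine.Point.sym2x_ne_zero (P + Q) (P - Q)
    apply this
    rw [h1, h0]
    funext i
    simp
  obtain ⟨c', hc', hprop⟩ := exists_smul_of_map_eq_smul (ι : RatFunc k →+* K) hSD hc hAS
  calc H2 zS + H2 zD = H3 (sym2 zS zD) := (H_gauss zS zD hzS hzD).symm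
    _ = H3 (c' • sym2 zS zD) := (H3_smul c' _ hc').symm
    _ = H3 (fun j => MvPolynomial.aeval (sym2 zP zQ) ((W.baseChange k).addSubMap j)) := by
        rw [hprop]
    _ = 2 * H3 (sym2 zP zQ) := H_morph _
    _ = 2 * (H2 zP + H2 zQ) := by rw [H_gauss zP zQ hzP hzQ]
    _ = 2 * H2 zP + 2 * H2 zQ := by ring

end Core

end Fermat.Agent.Lib.EC.Parallelogram
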