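import Mathlib
import Fermat.Agent.Lib.EC.ParallelogramCore
import Fermat.Agent.Lib.EC.AddSub

/-!
# P-ELL WP-EC8 (odd points): points of `W(K)` whose `x`-coordinate is a rational function

Abstract setting: `W` a Weierstrass curve over a base ring `R`; `k ⊆ K` fields over `R`;
`ι : RatFunc k →ₐ[k] K` a `k`-embedding and `σ : K →ₐ[k] K` a `k`-endomorphism whose fixed
elements lie in the range of `ι` (in the application `K` is the function field of `W⁄k`, `σ` the
hyperelliptic involution and `ι` the inclusion of `k(x)`).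

* `oddPoints W σ : AddSubgroup (W⁄K).Point` : the points `Q` with `σ Q = -Q`.
* `xRepT ι hfix Q : Fin 2 → RatFunc k` : the coordinate vector of `x(Q)` (`![f, 1]` or `![1, 0]`),
  characterised by `(Q : (W⁄K).Point).xRep = ι ∘ xRepT ι hfix Q`.
* `xT ι hfix Q : RatFunc k` : the `x`-coordinate (junk `0` at `O`).
* `parallelogram_odd` : the exact parallelogram law on `oddPoints` for any height pair `H2`, `H3`
  with the three properties of `parallelogram_core` (WP-EC2), using WP-EC1 `addSubMap_sym2x`.
* behaviour under endomorphisms of `K` compatible with `ι` (Frobenius).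
-/

set_option autoImplicit false

open WeierstrassCurve WeierstrassCurve.Affine

noncomputable section

namespace Fermat.Agent.Lib.EC.Parallelogram

section Odd

variable {R k K : Type*} [CommRing R] [Field k] [Field K] [Algebra R k] [Algebra R K] [Algebra k K]
  [IsScalarTower R k K] [DecidableEq K]
variable (W : WeierstrassCurve R) (ι : RatFunc k →ₐ[k] K) (σ : K →ₐ[k] K)

/-- the odd points of `W(K)` with respect to a `k`-endomorphism `σ` of `K` (in the application:
the hyperelliptic involution of the function field): `σ Q = -Q`. -/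
def oddPoints : AddSubgroup (W.baseChange K).toAffine.Point :=
  (Point.map (W' := W.toAffine) σ + AddMonoidHom.id _).ker

variable {W σ}

theorem mem_oddPoints {Q : (W.baseChange K).toAffine.Point} :
    Q ∈ oddPoints W σ ↔ Point.map (W' := W.toAffine) σ Q = -Q := by
  rw [oddPoints, AddMonoidHom.mem_ker, AddMonoidHom.add_apply, AddMonoidHom.id_apply,
    add_eq_zero_iff_eq_neg]

theorem x_fixed_of_mem_oddPoints {x y : K} {h : (W.baseChange K).toAffine.Nonsingular x y}
    (hQ : Point.some x y h ∈ oddPoints W σ) : σ x = x := by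
  rw [mem_oddPoints, Point.map_some, Point.neg_some] at hQ
  exact (Point.some.inj hQ).1

/-- an affine point with `σ x = x` and `σ y = -y - a₁ x - a₃` is odd. -/
theorem some_mem_oddPoints {x y : K} {h : (W.baseChange K).toAffine.Nonsingular x y}
    (hx : σ x = x) (hy : σ y = (W.baseChange K).toAffine.negY x y) :
    Point.some x y h ∈ oddPoints W σ := by
  rw [mem_oddPoints, Point.map_some, Point.neg_some]
  congr 1

variable (hfix : ∀ a : K, σ a = a → a ∈ ι.range)
include hfix

theorem exists_xRep_eq (Q : oddPoints W σ) :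
    ∃ z : Fin 2 → RatFunc k, (Q : (W.baseChange K).toAffine.Point).xRep = ι ∘ z := by
  obtain ⟨Q, hQ⟩ := Q
  rcases Q with _ | ⟨x, y, h⟩
  · refine ⟨![1, 0], ?_⟩
    funext i
    fin_cases i <;> simp [Point.xRep]
  · obtain ⟨f, hf⟩ := hfix x (x_fixed_of_mem_oddPoints hQ)
    refine ⟨![f, 1], ?_⟩
    funext i
    fin_cases i
    · simpa [Point.xRep] using hf.symm
    · simp [Point.xRep]

/-- the coordinate vector in `RatFunc k` of the `x`-coordinate of an odd point. -/
def xRepT (Q : oddPoints W σ) : Fin 2 → RatFunc k := Classical.choose (exists_xRep_eq ι hfix Q)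

theorem xRepT_spec (Q : oddPoints W σ) :
    (Q : (W.baseChange K).toAffine.Point).xRep = ι ∘ xRepT ι hfix Q :=
  Classical.choose_spec (exists_xRep_eq ι hfix Q)

theorem xRepT_unique (Q : oddPoints W σ) {z : Fin 2 → RatFunc k}
    (hz : (Q : (W.baseChange K).toAffine.Point).xRep = ι ∘ z) : xRepT ι hfix Q = z := by
  funext i
  apply (ι : RatFunc k →+* K).injective
  have := congrFun ((xRepT_spec ι hfix Q).symm.trans hz) i
  simpa using this

theorem xRepT_ne_zero (Q : oddPoints W σ) : xRepT ι hfix Q ≠ 0 := by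
  intro h0
  apply Point.xRep_ne_zero (Q : (W.baseChange K).toAffine.Point)
  rw [xRepT_spec ι hfix Q, h0]
  funext i
  simp

theorem xRepT_zero : xRepT ι hfix (0 : oddPoints W σ) = ![1, 0] := by
  apply xRepT_unique
  funext i
  fin_cases i <;> simp [Point.xRep]

theorem xRepT_neg (Q : oddPoints W σ) : xRepT ι hfix (-Q) = xRepT ι hfix Q := by
  apply xRepT_unique
  rw [AddSubgroup.coe_neg, Point.xRep_neg]
  exact xRepT_spec ι hfix Q

/-- the `x`-coordinate of an odd point as a rational function (junk value `0` at `O`). -/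
def xT (Q : oddPoints W σ) : RatFunc k := xRepT ι hfix Q 0 / xRepT ι hfix Q 1

theorem xT_zero : xT ι hfix (0 : oddPoints W σ) = 0 := by
  rw [xT, xRepT_zero]
  simp

theorem xRepT_of_some {Q : oddPoints W σ} {x y : K}
    {h : (W.baseChange K).toAffine.Nonsingular x y}
    (hQ : (Q : (W.baseChange K).toAffine.Point) = Point.some x y h) {f : RatFunc k}
    (hf : ι f = x) : xRepT ι hfix Q = ![f, 1] := by
  apply xRepT_unique
  rw [hQ]
  funext i
  fin_cases i
  · simpa [Point.xRep] using hf.symm
  · simp [Point.xRep]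

theorem xRepT_eq_of_ne_zero {Q : oddPoints W σ} (hQ : Q ≠ 0) :
    xRepT ι hfix Q = ![xT ι hfix Q, 1] := by
  obtain ⟨Q', hQ'⟩ := Q
  rcases Q' with _ | ⟨x, y, h⟩
  · exact absurd (Subtype.ext rfl) hQ
  · obtain ⟨f, hf⟩ := hfix x (x_fixed_of_mem_oddPoints hQ')
    have h1 := xRepT_of_some ι hfix (Q := ⟨_, hQ'⟩) rfl hf
    rw [xT, h1]
    simp

theorem xRepT_eq_zero_iff {Q : oddPoints W σ} : xRepT ι hfix Q = ![1, 0] ↔ Q = 0 := by
  constructor
  · intro h
    by_contra hQ
    have h1 := xRepT_eq_of_ne_zero ι hfix hQ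
    rw [h] at h1
    have := congrFun h1 1
    simp at this
  · rintro rfl
    exact xRepT_zero ι hfix

theorem map_xT {Q : oddPoints W σ} {x y : K} {h : (W.baseChange K).toAffine.Nonsingular x y}
    (hQ : (Q : (W.baseChange K).toAffine.Point) = Point.some x y h) : ι (xT ι hfix Q) = x := by
  obtain ⟨f, hf⟩ := hfix x (x_fixed_of_mem_oddPoints (by rw [← hQ]; exact Q.2))
  rw [xT, xRepT_of_some ι hfix hQ hf]
  simpa using hf

theorem xT_eq_of_some {Q : oddPoints W σ} {x y : K} {h : (W.baseChange K).toAffine.Nonsingular x y}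
    (hQ : (Q : (W.baseChange K).toAffine.Point) = Point.some x y h) {f : RatFunc k}
    (hf : ι f = x) : xT ι hfix Q = f := by
  apply (ι : RatFunc k →+* K).injective
  rw [RingHom.coe_coe, map_xT ι hfix hQ, hf]

/-! ### the parallelogram law on the odd points -/

/-- **Exact parallelogram law on the odd points**, for any height functions `H2`, `H3` with the
three properties of `parallelogram_core`. -/
theorem parallelogram_odd
    (H2 : (Fin 2 → RatFunc k) → ℕ) (H3 : (Fin 3 → RatFunc k) → ℕ)
    (H3_smul : ∀ (c : RatFunc k) (z : Fin 3 → RatFunc k), c ≠ 0 → H3 (c • z) = H3 z)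
    (H_gauss : ∀ a b : Fin 2 → RatFunc k, a ≠ 0 → b ≠ 0 → H3 (sym2 a b) = H2 a + H2 b)
    (H_morph : ∀ z : Fin 3 → RatFunc k,
      H3 (fun j => MvPolynomial.aeval z ((W.baseChange k).addSubMap j)) = 2 * H3 z)
    (P Q : oddPoints W σ) :
    H2 (xRepT ι hfix (P + Q)) + H2 (xRepT ι hfix (P - Q)) =
      2 * H2 (xRepT ι hfix P) + 2 * H2 (xRepT ι hfix Q) := by
  refine parallelogram_core W H2 H3 H3_smul H_gauss H_morph ι
    (P : (W.baseChange K).toAffine.Point) (Q : (W.baseChange K).toAffine.Point)
    (addSubMap_sym2x (W.baseChange K) _ _) _ _ _ _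
    (xRepT_spec ι hfix P) (xRepT_spec ι hfix Q) ?_ ?_
  · rw [← AddSubgroup.coe_add]
    exact xRepT_spec ι hfix (P + Q)
  · rw [← AddSubgroup.coe_sub]
    exact xRepT_spec ι hfix (P - Q)

end Odd

/-! ### endomorphisms of `K` compatible with `ι` (e.g. Frobenius) -/

section Endo

variable {R S k K : Type*} [CommRing R] [CommRing S] [Field k] [Field K] [Algebra R k]
  [Algebra R K] [Algebra k K] [IsScalarTower R k K] [Algebra R S] [Algebra S K]
  [IsScalarTower R S K] [DecidableEq K]
variable {W : WeierstrassCurve R} {σ : K →ₐ[k] K}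

/-- an `S`-endomorphism `φ` of `K` commuting with `σ` preserves the odd points. -/
theorem map_mem_oddPoints (φ : K →ₐ[S] K) (hφσ : ∀ a, φ (σ a) = σ (φ a))
    {Q : (W.baseChange K).toAffine.Point} (hQ : Q ∈ oddPoints W σ) :
    Point.map (W' := W.toAffine) φ Q ∈ oddPoints W σ := by
  rw [mem_oddPoints] at hQ ⊢
  rcases Q with _ | ⟨x, y, h⟩
  · rfl
  · rw [Point.map_some, Point.neg_some] at hQ
    have hx := (Point.some.inj hQ).1
    have hy := (Point.some.inj hQ).2
    rw [Point.map_some, Point.map_some, Point.neg_some]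
    congr 1
    · rw [← hφσ, hx]
    · rw [← hφσ, hy, WeierstrassCurve.Affine.negY, WeierstrassCurve.Affine.negY]
      simp only [map_sub, map_neg, map_mul]
      congr 2
      · congr 1
        change φ (algebraMap R K W.a₁) = algebraMap R K W.a₁
        rw [IsScalarTower.algebraMap_apply R S K, AlgHom.commutes]
      · change φ (algebraMap R K W.a₃) = algebraMap R K W.a₃
        rw [IsScalarTower.algebraMap_apply R S K, AlgHom.commutes]

variable (ι : RatFunc k →ₐ[k] K) (hfix : ∀ a : K, σ a = a → a ∈ ι.range)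

/-- the coordinate vector of `φ Q`, when `φ ∘ ι = ι ∘ ψ`. -/
theorem xRepT_map (φ : K →ₐ[S] K) (hφσ : ∀ a, φ (σ a) = σ (φ a))
    (ψ : RatFunc k →+* RatFunc k) (hψ : ∀ f, φ (ι f) = ι (ψ f)) (Q : oddPoints W σ) :
    xRepT ι hfix ⟨Point.map (W' := W.toAffine) φ Q, map_mem_oddPoints φ hφσ Q.2⟩ =
      ψ ∘ xRepT ι hfix Q := by
  apply xRepT_unique
  obtain ⟨Q', hQ'⟩ := Q
  rcases Q' with _ | ⟨x, y, h⟩
  · have h0 : xRepT ι hfix (⟨Point.zero, hQ'⟩ : oddPoints W σ) = ![1, 0] := xRepT_zero ι hfix
    simp only [h0]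
    funext i
    fin_cases i <;> simp [Point.xRep, Point.map]
  · obtain ⟨f, hf⟩ := hfix x (x_fixed_of_mem_oddPoints hQ')
    have h1 := xRepT_of_some ι hfix (Q := ⟨_, hQ'⟩) rfl hf
    simp only [h1, Point.map_some]
    funext i
    fin_cases i
    · have hf' : ι f = x := hf
      simp [Point.xRep, ← hψ, hf']
    · simp [Point.xRep]

end Endo

end Fermat.Agent.Lib.EC.Parallelogram
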