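import Mathlib

/-!
helper51 (P-ELL library, WP-EC4).  Pure algebra.

* `Quadratic.bil h P Q = h (P + Q) - h P - h Q` and `quad_of_parallelogram`: a function
  `h : G → ℤ` on an abelian group satisfying the parallelogram law is a quadratic form.
* `three_term` : expansion of `h (u + v + w)`.
* `trace_det_of_quadratic` : the linear algebra of the trace theorem on a two-dimensional
  `ZMod n`-vector space.
-/

set_option autoImplicit false

namespace Fermat.Agent.Lib.EC.Quadratic

section parallelogram

variable {G : Type*} [AddCommGroup G]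

/-- The "bilinear form" attached to `h`. -/
def bil (h : G → ℤ) (P Q : G) : ℤ := h (P + Q) - h P - h Q

theorem bil_def (h : G → ℤ) (P Q : G) : bil h P Q = h (P + Q) - h P - h Q := rfl

theorem bil_comm (h : G → ℤ) (P Q : G) : bil h P Q = bil h Q P := by
  rw [bil, bil, add_comm P Q]
  ring

variable {h : G → ℤ}

theorem zero_of_parallelogram (hpar : ∀ P Q, h (P + Q) + h (P - Q) = 2 * h P + 2 * h Q) :
    h 0 = 0 := by
  have := hpar 0 0
  simp only [add_zero, sub_zero] at this
  omega

theorem neg_of_parallelogram (hpar : ∀ P Q, h (P + Q) + h (P - Q) = 2 * h P + 2 * h Q)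
    (P : G) : h (-P) = h P := by
  have h0 := zero_of_parallelogram hpar
  have := hpar 0 P
  simp only [zero_add, zero_sub] at this
  omega

/-- The three-term expansion. -/
theorem three_term (hpar : ∀ P Q, h (P + Q) + h (P - Q) = 2 * h P + 2 * h Q) (P Q R : G) :
    h (P + Q + R) = h (P + Q) + h (P + R) + h (Q + R) - h P - h Q - h R := by
  have e1 := hpar (P + Q) R
  have e2 := hpar (P + R) Q
  have e4 := hpar P (Q - R)
  have e5 := hpar Q R
  have a1 : P + R + Q = P + Q + R := by abel
  have a2 : P + R - Q = P - (Q - R) := by abel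
  have a3 : P + (Q - R) = P + Q - R := by abel
  rw [a1, a2] at e2
  rw [a3] at e4
  omega

theorem three_term' (hpar : ∀ P Q, h (P + Q) + h (P - Q) = 2 * h P + 2 * h Q) (u v w : G) :
    h (u + v + w) = h u + h v + h w + bil h u v + bil h u w + bil h v w := by
  rw [three_term hpar, bil, bil, bil]
  ring

theorem bil_add_left (hpar : ∀ P Q, h (P + Q) + h (P - Q) = 2 * h P + 2 * h Q) (P Q R : G) :
    bil h (P + Q) R = bil h P R + bil h Q R := by
  rw [bil, bil, bil, three_term hpar]
  ring

theorem bil_add_right (hpar : ∀ P Q, h (P + Q) + h (P - Q) = 2 * h P + 2 * h Q) (P Q R : G) :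
    bil h P (Q + R) = bil h P Q + bil h P R := by
  rw [bil_comm h P (Q + R), bil_add_left hpar, bil_comm h Q P, bil_comm h R P]

theorem bil_zero_left (hpar : ∀ P Q, h (P + Q) + h (P - Q) = 2 * h P + 2 * h Q) (R : G) :
    bil h 0 R = 0 := by
  rw [bil, zero_add, zero_of_parallelogram hpar]
  ring

/-- `bil h · R` as an additive homomorphism. -/
def bilHom (hpar : ∀ P Q, h (P + Q) + h (P - Q) = 2 * h P + 2 * h Q) (R : G) : G →+ ℤ where
  toFun P := bil h P R
  map_zero' := bil_zero_left hpar R
  map_add' P Q := bil_add_left hpar P Q R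

theorem bil_zsmul_left (hpar : ∀ P Q, h (P + Q) + h (P - Q) = 2 * h P + 2 * h Q) (m : ℤ)
    (P R : G) : bil h (m • P) R = m * bil h P R := by
  have := map_zsmul (bilHom hpar R) m P
  simpa [bilHom] using this

theorem bil_zsmul_right (hpar : ∀ P Q, h (P + Q) + h (P - Q) = 2 * h P + 2 * h Q) (m : ℤ)
    (P R : G) : bil h P (m • R) = m * bil h P R := by
  rw [bil_comm, bil_zsmul_left hpar, bil_comm]

theorem bil_neg_left (hpar : ∀ P Q, h (P + Q) + h (P - Q) = 2 * h P + 2 * h Q) (P R : G) :
    bil h (-P) R = -bil h P R := by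
  have := bil_zsmul_left hpar (-1) P R
  simpa using this

theorem bil_self (hpar : ∀ P Q, h (P + Q) + h (P - Q) = 2 * h P + 2 * h Q) (P : G) :
    bil h P P = 2 * h P := by
  have := hpar P P
  rw [sub_self, zero_of_parallelogram hpar] at this
  rw [bil]
  omega

theorem add_eq (h : G → ℤ) (P Q : G) : h (P + Q) = h P + h Q + bil h P Q := by
  rw [bil]
  ring

theorem zsmul_of_parallelogram (hpar : ∀ P Q, h (P + Q) + h (P - Q) = 2 * h P + 2 * h Q)
    (m : ℤ) (P : G) : h (m • P) = m ^ 2 * h P := by
  -- `2 h(mP) = B(mP, mP) = m² B(P,P) = 2 m² h(P)`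
  have h1 := bil_self hpar (m • P)
  rw [bil_zsmul_left hpar, bil_zsmul_right hpar, bil_self hpar] at h1
  have h2 : 2 * h (m • P) = 2 * (m ^ 2 * h P) := by rw [← h1]; ring
  omega

theorem zsmul_add_zsmul (hpar : ∀ P Q, h (P + Q) + h (P - Q) = 2 * h P + 2 * h Q)
    (m s : ℤ) (P Q : G) :
    h (m • P + s • Q) = m ^ 2 * h P + m * s * bil h P Q + s ^ 2 * h Q := by
  rw [add_eq h, zsmul_of_parallelogram hpar, zsmul_of_parallelogram hpar, bil_zsmul_left hpar,
    bil_zsmul_right hpar]
  ring

/-- **Parallelogram law ⇒ quadratic form.** -/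
theorem quad_of_parallelogram (h : G → ℤ) (_h0 : h 0 = 0)
    (hpar : ∀ P Q, h (P + Q) + h (P - Q) = 2 * h P + 2 * h Q) :
    (∀ P, h (-P) = h P) ∧ (∀ P Q R, bil h (P + Q) R = bil h P R + bil h Q R) ∧
      (∀ P Q, bil h P Q = bil h Q P) ∧
      (∀ (m s : ℤ) P Q, h (m • P + s • Q) = m ^ 2 * h P + m * s * bil h P Q + s ^ 2 * h Q) :=
  ⟨neg_of_parallelogram hpar, bil_add_left hpar, bil_comm h, zsmul_add_zsmul hpar⟩

/-- Three-term version with integer coefficients. -/
theorem zsmul_three (hpar : ∀ P Q, h (P + Q) + h (P - Q) = 2 * h P + 2 * h Q)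
    (a b c : ℤ) (u v w : G) :
    h (a • u + b • v + c • w) = a ^ 2 * h u + b ^ 2 * h v + c ^ 2 * h w
      + a * b * bil h u v + a * c * bil h u w + b * c * bil h v w := by
  rw [three_term' hpar, zsmul_of_parallelogram hpar, zsmul_of_parallelogram hpar,
    zsmul_of_parallelogram hpar, bil_zsmul_left hpar, bil_zsmul_right hpar,
    bil_zsmul_left hpar, bil_zsmul_right hpar, bil_zsmul_left hpar, bil_zsmul_right hpar]
  ring

end parallelogram


/-! ### The linear algebra of the trace theorem -/

section trace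

open Module Polynomial

variable {n : ℕ} [Fact n.Prime] {V : Type*} [AddCommGroup V] [Module (ZMod n) V]

omit [AddCommGroup V] [Module (ZMod n) V] in
theorem finite_of_card (hV : Nat.card V = n ^ 2) : Finite V := by
  apply Nat.finite_of_card_ne_zero
  rw [hV]
  exact pow_ne_zero 2 (Fact.out : n.Prime).ne_zero

theorem finrank_eq_two_of_card (hV : Nat.card V = n ^ 2) : finrank (ZMod n) V = 2 := by
  have := finite_of_card hV
  have : Module.Finite (ZMod n) V := Module.Finite.of_finite
  have h := Module.natCard_eq_pow_finrank (K := ZMod n) (V := V)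
  rw [hV, Nat.card_zmod] at h
  exact (Nat.pow_right_injective (Fact.out : n.Prime).two_le h).symm

omit [AddCommGroup V] [Module (ZMod n) V] in
theorem nontrivial_of_card (hV : Nat.card V = n ^ 2) : Nontrivial V := by
  have := finite_of_card hV
  apply (Finite.one_lt_card_iff_nontrivial).mp
  rw [hV]
  exact Nat.one_lt_pow two_ne_zero (Fact.out : n.Prime).one_lt

/-- Cayley–Hamilton in dimension two. -/
theorem cayley_hamilton_two (hfr : finrank (ZMod n) V = 2) (F : V →ₗ[ZMod n] V) (v : V) :
    F (F v) - LinearMap.trace (ZMod n) V F • F v + LinearMap.det F • v = 0 := by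
  have : Module.Finite (ZMod n) V := Module.finite_of_finrank_eq_succ hfr
  let b : Basis (Fin 2) (ZMod n) V := Module.finBasisOfFinrankEq (ZMod n) V hfr
  have hch : F.charpoly = X ^ 2 - C (LinearMap.trace (ZMod n) V F) * X + C (LinearMap.det F) := by
    rw [← LinearMap.charpoly_toMatrix F b, Matrix.charpoly_fin_two,
      ← LinearMap.trace_eq_matrix_trace (ZMod n) b F, LinearMap.det_toMatrix b F]
  have h := LinearMap.aeval_self_charpoly F
  rw [hch] at h
  have h2 := LinearMap.congr_fun h v
  simpa [pow_two, Algebra.smul_def] using h2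

/-- Trace and determinant of an endomorphism `F` of a two-dimensional `ZMod n`-vector space
satisfying `F² - a F + q = 0`, given the congruence `n² ∣ m² - a m + q` whenever `F` is the
scalar `m`. -/
theorem trace_det_of_quadratic (hV : Nat.card V = n ^ 2) (F : V →ₗ[ZMod n] V) (a q : ℤ)
    (hQ : ∀ v, F (F v) - (a : ZMod n) • F v + (q : ZMod n) • v = 0)
    (hM : ∀ m : ℤ, (∀ v, F v = (m : ZMod n) • v) → (n : ℤ) ^ 2 ∣ m ^ 2 - a * m + q) :
    LinearMap.trace (ZMod n) V F = (a : ZMod n) ∧ LinearMap.det F = (q : ZMod n) := by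
  have hfr := finrank_eq_two_of_card hV
  have := nontrivial_of_card hV
  have : Module.Finite (ZMod n) V := Module.finite_of_finrank_eq_succ hfr
  have hnpos : (0 : ℤ) < n := by exact_mod_cast (Fact.out : n.Prime).pos
  by_cases hs : ∃ c : ZMod n, ∀ v, F v = c • v
  · -- scalar case
    obtain ⟨c, hc⟩ := hs
    have hF : F = c • LinearMap.id := by
      ext v
      simp [hc v]
    set m : ℤ := (c.val : ℤ) with hm
    have hmc : ((m : ℤ) : ZMod n) = c := by
      rw [hm]
      simp
    have hmc' : (((m + n : ℤ)) : ZMod n) = c := by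
      push_cast
      rw [hmc]
      simp
    have d1 := hM m (fun v => by rw [hmc]; exact hc v)
    have d2 := hM (m + n) (fun v => by rw [hmc']; exact hc v)
    have d3 : (n : ℤ) ^ 2 ∣ (n : ℤ) * (2 * m + n - a) := by
      have := dvd_sub d2 d1
      have e : (m + n) ^ 2 - a * (m + n) + q - (m ^ 2 - a * m + q) = (n : ℤ) * (2 * m + n - a) := by
        ring
      rwa [e] at this
    have d4 : (n : ℤ) ∣ 2 * m + n - a := by
      rw [pow_two] at d3
      exact Int.dvd_of_mul_dvd_mul_left hnpos.ne' d3
    have ha : (a : ZMod n) = 2 * c := by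
      have h0 : ((2 * m + n - a : ℤ) : ZMod n) = 0 :=
        (ZMod.intCast_zmod_eq_zero_iff_dvd _ n).mpr d4
      push_cast at h0
      rw [hmc] at h0
      have h1 : (2 : ZMod n) * c + 0 - (a : ZMod n) = 0 := by simpa using h0
      rw [add_zero] at h1
      exact (sub_eq_zero.mp h1).symm
    have hq : (q : ZMod n) = c ^ 2 := by
      have d5 : (n : ℤ) ∣ m ^ 2 - a * m + q := dvd_trans (dvd_pow_self _ two_ne_zero) d1
      have h0 : ((m ^ 2 - a * m + q : ℤ) : ZMod n) = 0 :=
        (ZMod.intCast_zmod_eq_zero_iff_dvd _ n).mpr d5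
      push_cast at h0
      rw [hmc, ha] at h0
      linear_combination h0
    constructor
    · rw [hF, map_smul, LinearMap.trace_id, hfr, ha]
      simp [mul_comm]
    · rw [hF, LinearMap.det_smul, LinearMap.det_id, hfr, hq]
      simp
  · -- non-scalar case: Cayley–Hamilton
    have hCH := cayley_hamilton_two hfr F
    set t := LinearMap.trace (ZMod n) V F with ht
    set d := LinearMap.det F with hd
    have hdiff : ∀ v, ((a : ZMod n) - t) • F v = ((q : ZMod n) - d) • v := by
      intro v
      have h1 := hCH v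
      have h2 := hQ v
      have : ((a : ZMod n) - t) • F v - ((q : ZMod n) - d) • v = 0 := by
        rw [sub_smul, sub_smul]
        have h3 : F (F v) - t • F v + d • v - (F (F v) - (a : ZMod n) • F v + (q : ZMod n) • v) = 0 := by
          rw [h1, h2, sub_zero]
        rw [← h3]
        abel
      exact sub_eq_zero.mp this
    have hat : (a : ZMod n) = t := by
      by_contra hne
      have hne' : (a : ZMod n) - t ≠ 0 := sub_ne_zero.mpr hne
      apply hs
      refine ⟨((a : ZMod n) - t)⁻¹ * ((q : ZMod n) - d), fun v => ?_⟩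
      rw [mul_smul, ← hdiff v, smul_smul, inv_mul_cancel₀ hne', one_smul]
    refine ⟨hat.symm, ?_⟩
    obtain ⟨v, hv⟩ := exists_ne (0 : V)
    have h1 := hdiff v
    rw [hat, sub_self, zero_smul] at h1
    have h2 : (q : ZMod n) - d = 0 := by
      by_contra hne
      exact hv ((smul_eq_zero.mp h1.symm).resolve_left hne)
    exact (sub_eq_zero.mp h2).symm

/-- Variant with the quadratic relation stated with integer scalars. -/
theorem trace_det_of_quadratic' (hV : Nat.card V = n ^ 2) (F : V →ₗ[ZMod n] V) (a q : ℤ)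
    (hQ : ∀ v, F (F v) - a • F v + q • v = 0)
    (hM : ∀ m : ℤ, (∀ v, F v = m • v) → (n : ℤ) ^ 2 ∣ m ^ 2 - a * m + q) :
    LinearMap.trace (ZMod n) V F = (a : ZMod n) ∧ LinearMap.det F = (q : ZMod n) := by
  refine trace_det_of_quadratic hV F a q (fun v => ?_) (fun m hm => hM m fun v => ?_)
  · rw [Int.cast_smul_eq_zsmul, Int.cast_smul_eq_zsmul]
    exact hQ v
  · rw [hm v, Int.cast_smul_eq_zsmul]

end trace

end Fermat.Agent.Lib.EC.Quadratic
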