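import Mathlib
import Fermat.Agent.Lib.EC.Quadratic

/-!
helper74 (P-ELL library, WP-EC10, abstract form).  Pure algebra, no elliptic curves.

Setting: `G` an abelian group (think `E(k)`), `φ : G →+ G` (think Frobenius); `T` another abelian
group (think: the odd points of `E` over its own function field) carrying a function `h : T → ℤ`
satisfying the parallelogram law, an endomorphism `Φ` scaling `h` by `q`, and a point `Q` of
height one.  The geometric input (WP-EC9) is the *kernel count*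
`#ker (m + s φ) = h (m • Q + s • Φ Q)` for "good" `m`.

* `card_ker_comp` : `#ker (f ∘ g) = #ker f * #ker g` for `g` surjective (`Nat.card`, no finiteness).
* `bil_eq_trace` : `bil h Q (Φ Q) = q + 1 - #ker (1 - φ)`.
* `card_ker_eq_quadratic` (M) : `#ker (m + s φ) = m² + a m s + q s²`, `a := q + 1 - #ker (1 - φ)`.
* `bil_sq_eq` : if moreover `#ker (1 - φ²) = h (Q - Φ² Q)` and `1 + φ` is onto, then
  `bil h Q (Φ (Φ Q)) = a² - 2 q`.
* `height_charEq_eq_zero` : `h (Φ² Q - a Φ Q + q Q) = 0`.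
-/

set_option autoImplicit false

namespace Fermat.Agent.Lib.EC.FrobeniusAbstract

open Fermat.Agent.Lib.EC.Quadratic

section kernels

variable {G : Type*} [AddCommGroup G]

/-- `#ker (f ∘ g) = #ker f * #ker g` when `g` is onto.  Stated with `Nat.card`, so that no
finiteness hypothesis is needed (both sides are `0` in the infinite case). -/
theorem card_ker_comp (f g : G →+ G) (hg : Function.Surjective g) :
    Nat.card (f.comp g).ker = Nat.card f.ker * Nat.card g.ker := by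
  -- restrict `g` to `ker (f ∘ g) → ker f`
  have hmem : ∀ x : (f.comp g).ker, g x ∈ f.ker := fun x => by
    have hx := x.2
    rw [AddMonoidHom.mem_ker, AddMonoidHom.comp_apply] at hx
    rwa [AddMonoidHom.mem_ker]
  let r : (f.comp g).ker →+ f.ker :=
    (g.comp (f.comp g).ker.subtype).codRestrict f.ker hmem
  have hr_coe : ∀ x : (f.comp g).ker, (r x : G) = g x := fun x => rfl
  have hr : Function.Surjective r := by
    rintro ⟨y, hy⟩
    obtain ⟨x, rfl⟩ := hg y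
    have hx : x ∈ (f.comp g).ker := by
      rw [AddMonoidHom.mem_ker, AddMonoidHom.comp_apply]
      rwa [AddMonoidHom.mem_ker] at hy
    exact ⟨⟨x, hx⟩, Subtype.ext (hr_coe _)⟩
  have hker : Nat.card r.ker = Nat.card g.ker := by
    have key : ∀ x : (f.comp g).ker, x ∈ r.ker ↔ (x : G) ∈ g.ker := fun x => by
      rw [AddMonoidHom.mem_ker, AddMonoidHom.mem_ker, ← hr_coe]
      constructor
      · intro hx; rw [hx]; rfl
      · intro hx; exact Subtype.ext hx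
    have hsub : ∀ y : G, y ∈ g.ker → y ∈ (f.comp g).ker := fun y hy => by
      rw [AddMonoidHom.mem_ker] at hy
      rw [AddMonoidHom.mem_ker, AddMonoidHom.comp_apply, hy, map_zero]
    refine Nat.card_congr ⟨fun x => ⟨x.1.1, (key x.1).1 x.2⟩,
      fun y => ⟨⟨y.1, hsub y.1 y.2⟩, (key _).2 y.2⟩, ?_, ?_⟩
    · intro x; rfl
    · intro y; rfl
  have h1 := AddSubgroup.card_eq_card_quotient_mul_card_addSubgroup r.ker
  have h2 : Nat.card ((f.comp g).ker ⧸ r.ker) = Nat.card f.ker :=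
    Nat.card_congr (QuotientAddGroup.quotientKerEquivOfSurjective r hr).toEquiv
  rw [h1, h2, hker]

/-- The kernel of `x ↦ m • x + s • φ x`, as a subtype. -/
abbrev KerSet (φ : G →+ G) (m s : ℤ) : Type _ := {x : G // m • x + s • φ x = 0}

/-- The endomorphism `x ↦ m • x + s • φ x`. -/
def lin (φ : G →+ G) (m s : ℤ) : G →+ G :=
  m • AddMonoidHom.id G + s • φ

@[simp] theorem lin_apply (φ : G →+ G) (m s : ℤ) (x : G) : lin φ m s x = m • x + s • φ x := by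
  simp [lin]

theorem card_kerSet_eq (φ : G →+ G) (m s : ℤ) :
    Nat.card (KerSet φ m s) = Nat.card (lin φ m s).ker := by
  refine Nat.card_congr (Equiv.subtypeEquivRight fun x => ?_)
  rw [AddMonoidHom.mem_ker, lin_apply]

theorem lin_comp_lin (φ : G →+ G) :
    (lin φ 1 (-1)).comp (lin φ 1 1) = lin (φ.comp φ) 1 (-1) := by
  ext x
  simp only [AddMonoidHom.comp_apply, lin_apply, one_zsmul, neg_smul, map_add]
  abel

end kernels

section main

variable {G : Type*} [AddCommGroup G] (φ : G →+ G)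
variable {T : Type*} [AddCommGroup T] {h : T → ℤ}

/-- `bil h Q (Φ Q)` is determined by the number of fixed points of `φ`. -/
theorem bil_eq_trace (hpar : ∀ P Q, h (P + Q) + h (P - Q) = 2 * h P + 2 * h Q)
    (Φ : T →+ T) (q : ℤ) (hΦ : ∀ P, h (Φ P) = q * h P) (Q : T) (hQ : h Q = 1)
    (hK : (Nat.card (KerSet φ 1 (-1)) : ℤ) = h ((1 : ℤ) • Q + (-1 : ℤ) • Φ Q)) :
    bil h Q (Φ Q) = q + 1 - (Nat.card (KerSet φ 1 (-1)) : ℤ) := by
  have hΦQ : h (Φ Q) = q := by rw [hΦ, hQ, mul_one]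
  rw [hK, zsmul_add_zsmul hpar, hQ, hΦQ]
  ring

/-- **(M)** The kernel counts are the values of the quadratic form `m² + a m s + q s²`. -/
theorem card_ker_eq_quadratic (hpar : ∀ P Q, h (P + Q) + h (P - Q) = 2 * h P + 2 * h Q)
    (Φ : T →+ T) (q : ℤ) (hΦ : ∀ P, h (Φ P) = q * h P) (Q : T) (hQ : h Q = 1)
    (good : ℤ → Prop) (h1 : good 1)
    (hK : ∀ m s : ℤ, good m →
      (Nat.card (KerSet φ m s) : ℤ) = h (m • Q + s • Φ Q))
    (m s : ℤ) (hm : good m) :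
    (Nat.card (KerSet φ m s) : ℤ) =
      m ^ 2 + (q + 1 - (Nat.card (KerSet φ 1 (-1)) : ℤ)) * m * s + q * s ^ 2 := by
  have hΦQ : h (Φ Q) = q := by rw [hΦ, hQ, mul_one]
  have hB := bil_eq_trace φ hpar Φ q hΦ Q hQ (hK 1 (-1) h1)
  rw [hK m s hm, zsmul_add_zsmul hpar, hQ, hΦQ, hB]
  ring

/-- The second Gram entry `bil h Q (Φ² Q) = a² - 2q`, from `#ker (1 - φ²) = #ker (1 - φ) #ker (1 + φ)`. -/
theorem bil_sq_eq (hpar : ∀ P Q, h (P + Q) + h (P - Q) = 2 * h P + 2 * h Q)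
    (Φ : T →+ T) (q : ℤ) (hΦ : ∀ P, h (Φ P) = q * h P) (Q : T) (hQ : h Q = 1)
    (hKm : (Nat.card (KerSet φ 1 (-1)) : ℤ) = h ((1 : ℤ) • Q + (-1 : ℤ) • Φ Q))
    (hKp : (Nat.card (KerSet φ 1 1) : ℤ) = h ((1 : ℤ) • Q + (1 : ℤ) • Φ Q))
    (hK2 : (Nat.card (KerSet (φ.comp φ) 1 (-1)) : ℤ) = h ((1 : ℤ) • Q + (-1 : ℤ) • Φ (Φ Q)))
    (hsurj : Function.Surjective fun x : G => x + φ x) :
    bil h Q (Φ (Φ Q)) =
      (q + 1 - (Nat.card (KerSet φ 1 (-1)) : ℤ)) ^ 2 - 2 * q := by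
  have hΦQ : h (Φ Q) = q := by rw [hΦ, hQ, mul_one]
  have hΦΦQ : h (Φ (Φ Q)) = q * q := by rw [hΦ, hΦQ]
  have hB := bil_eq_trace φ hpar Φ q hΦ Q hQ hKm
  set a : ℤ := q + 1 - (Nat.card (KerSet φ 1 (-1)) : ℤ) with ha
  -- the product formula for kernels
  have hsurj' : Function.Surjective (lin φ 1 1) := by
    intro y
    obtain ⟨x, hx⟩ := hsurj y
    exact ⟨x, by simpa using hx⟩
  have hprod := card_ker_comp (lin φ 1 (-1)) (lin φ 1 1) hsurj'
  rw [lin_comp_lin, ← card_kerSet_eq, ← card_kerSet_eq, ← card_kerSet_eq] at hprod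
  have hprodZ : (Nat.card (KerSet (φ.comp φ) 1 (-1)) : ℤ) =
      (Nat.card (KerSet φ 1 (-1)) : ℤ) * (Nat.card (KerSet φ 1 1) : ℤ) := by
    exact_mod_cast hprod
  -- evaluate the three heights
  have e2 : h ((1 : ℤ) • Q + (-1 : ℤ) • Φ (Φ Q)) = 1 - bil h Q (Φ (Φ Q)) + q * q := by
    rw [zsmul_add_zsmul hpar, hQ, hΦΦQ]; ring
  have ep : h ((1 : ℤ) • Q + (1 : ℤ) • Φ Q) = 1 + a + q := by
    rw [zsmul_add_zsmul hpar, hQ, hΦQ, hB]; ring
  have hN : (Nat.card (KerSet φ 1 (-1)) : ℤ) = q + 1 - a := by rw [ha]; ring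
  rw [hK2, e2, hKp, ep, hN] at hprodZ
  linear_combination (-1 : ℤ) * hprodZ

/-- **Abstract characteristic equation** (kernel-count version). -/
theorem height_charEq_eq_zero (hpar : ∀ P Q, h (P + Q) + h (P - Q) = 2 * h P + 2 * h Q)
    (Φ : T →+ T) (q : ℤ) (hΦ : ∀ P, h (Φ P) = q * h P) (Q : T) (hQ : h Q = 1)
    (hKm : (Nat.card (KerSet φ 1 (-1)) : ℤ) = h ((1 : ℤ) • Q + (-1 : ℤ) • Φ Q))
    (hKp : (Nat.card (KerSet φ 1 1) : ℤ) = h ((1 : ℤ) • Q + (1 : ℤ) • Φ Q))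
    (hK2 : (Nat.card (KerSet (φ.comp φ) 1 (-1)) : ℤ) = h ((1 : ℤ) • Q + (-1 : ℤ) • Φ (Φ Q)))
    (hsurj : Function.Surjective fun x : G => x + φ x) :
    h (Φ (Φ Q) - (q + 1 - (Nat.card (KerSet φ 1 (-1)) : ℤ)) • Φ Q + q • Q) = 0 := by
  have hΦQ : h (Φ Q) = q := by rw [hΦ, hQ, mul_one]
  have hΦΦQ : h (Φ (Φ Q)) = q * q := by rw [hΦ, hΦQ]
  have hB1 := bil_eq_trace φ hpar Φ q hΦ Q hQ hKm
  have hB3 := bil_sq_eq φ hpar Φ q hΦ Q hQ hKm hKp hK2 hsurj
  set a : ℤ := q + 1 - (Nat.card (KerSet φ 1 (-1)) : ℤ) with ha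
  have hB2 : bil h (Φ Q) (Φ (Φ Q)) = q * a := by
    rw [bil, ← map_add, hΦ, hΦ, hΦ, ← hB1, bil]
    ring
  have hfin : Φ (Φ Q) - a • Φ Q + q • Q = q • Q + (-a) • Φ Q + (1 : ℤ) • Φ (Φ Q) := by
    rw [one_zsmul, neg_smul]; abel
  rw [hfin, zsmul_three hpar, hQ, hΦQ, hΦΦQ, hB1, hB2, hB3]
  ring

end main

end Fermat.Agent.Lib.EC.FrobeniusAbstract
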