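import Mathlib
import Fermat.Agent.Lib.EC.KernelCount.Abstract
import Fermat.Agent.Lib.EC.FunctionField.Concrete
import Fermat.Agent.Lib.EC.Height.Poly

/-!
# P-ELL WP-EC9: the kernel of `m + s φ` is counted by the height of the generic point

`F` a field, `W` a Weierstrass curve over `F`, `k` an algebraically closed extension of `F` with
`W⁄k` elliptic, `FF W k` the function field of `W⁄k` (helper97's `FunctionField/*`), `Pgen` the
generic point.  This file instantiates the abstract counting theorem of `KernelCount/Abstract.lean`: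

* `card_ker_zsmul_eq_ratHeight` : `#E[m](k) = ratHeight (x (m • Pgen))` for `(m : k) ≠ 0`
  (any characteristic);
* `card_ker_eq_ratHeight` : for `F` finite with `q` elements and `φ` the `q`-Frobenius,
  `#ker (m + s φ) = ratHeight (x (m • Pgen + s • φ Pgen))`;
* `card_ker_iterate_eq_ratHeight` : the same for `m + s φ^r`, `r ≥ 1`;
* the specialisation API at places of `FF W k`: `specFF`, `exists_place_specFF_genericPoint`
  (every `k`-point is the specialisation of the generic point at some place),
  `specFF_constPt`, `specFF_frobPt`, `exists_place_specFF_eq_zero` (pole lemma).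
-/

set_option autoImplicit false

open WeierstrassCurve Polynomial

namespace Fermat.Agent.Lib.EC.KernelCount

open Fermat.Agent.Lib.EC Fermat.Agent.Lib.EC.FunctionField

variable {F : Type*} [Field F] (W : WeierstrassCurve F) (k : Type*) [Field k] [Algebra F k]

theorem some_ratEmb_X_eq :
    Affine.Point.some (ratEmb W k RatFunc.X) (yF W k) (nonsingular_ratEmb_X W k) =
      genericPoint W k :=
  some_congr _ (ratEmb_X W k) rfl _

theorem localOrder_xCoord_eq (Q : PtL W k) :
    LocalOrder.xCoord (W⁄(FF W k)).toAffine Q = FunctionField.xCoord W k Q := by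
  rcases Q with _ | ⟨x, y, h⟩ <;> rfl

theorem exists_centre (x₀ y₀ : k) (h₀ : (W⁄k).toAffine.Nonsingular x₀ y₀) :
    ∃ A : ValuationSubring (FF W k), (∀ c : k, algebraMap k (FF W k) c ∈ A) ∧
      ratEmb W k RatFunc.X - algebraMap k (FF W k) x₀ ∈ A.nonunits ∧
      yF W k - algebraMap k (FF W k) y₀ ∈ A.nonunits := by
  obtain ⟨A, hk, -, -, -, hx, hy⟩ := exists_place_center W k h₀.1
  exact ⟨A, hk, by rw [ratEmb_X]; exact hx, hy⟩

section Final

variable [IsAlgClosed k] [DecidableEq k] [DecidableEq (FF W k)] [(W⁄k).IsElliptic]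

/-- **WP-EC9, multiplication by `m`** (any characteristic): for `(m : k) ≠ 0`,
`#E[m](k) = ratHeight (x (m • Pgen))`. -/
theorem card_ker_zsmul_eq_ratHeight {m : ℤ} (hm : (m : k) ≠ 0) :
    Nat.card {P₀ : (W⁄k).toAffine.Point // m • P₀ = 0} =
      ratHeight (xT W k (m • genericPoint W k)) := by
  have hW := not_two_a₁_a₃_of_Δ_ne_zero W k (W⁄k).isUnit_Δ.ne_zero
  have hQ : m • genericPoint W k ∈ oddPoints W k :=
    (oddPoints W k).zsmul_mem (genericPoint_mem_oddPoints W k) m
  refine card_ker_zsmul (R := F) (W := W) (isOneVar W k) hm (ratEmb W k)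
    (nonsingular_ratEmb_X W k) (exists_centre W k) ?_
  rw [some_ratEmb_X_eq, localOrder_xCoord_eq]
  exact ratEmb_xT W k hW hQ

variable [Fintype F]

/-- **WP-EC9, `m + s φ`**: for `(m : k) ≠ 0`,
`#ker (m + s φ on E(k)) = ratHeight (x (m • Pgen + s • φ Pgen))`. -/
theorem card_ker_eq_ratHeight {m : ℤ} (hm : (m : k) ≠ 0) (s : ℤ) :
    Nat.card {P₀ : (W⁄k).toAffine.Point // m • P₀ + s • frobPtk W k P₀ = 0} =
      ratHeight (xT W k (m • genericPoint W k + s • frobPt W k (genericPoint W k))) := by
  have hW := not_two_a₁_a₃_of_Δ_ne_zero W k (W⁄k).isUnit_Δ.ne_zero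
  have hQ : m • genericPoint W k + s • frobPt W k (genericPoint W k) ∈ oddPoints W k :=
    (oddPoints W k).add_mem ((oddPoints W k).zsmul_mem (genericPoint_mem_oddPoints W k) m)
      ((oddPoints W k).zsmul_mem (frobPt_mem_oddPoints W k (genericPoint_mem_oddPoints W k)) s)
  refine card_ker_zsmul_add_zsmul_frob (R := F) (W := W) (isOneVar W k) hm (ratEmb W k)
    (nonsingular_ratEmb_X W k) (exists_centre W k) (frobF W k) (frobk (F := F) k)
    (Fintype.one_lt_card) (frobF_apply W k) (frobk_apply k) s ?_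
  rw [some_ratEmb_X_eq, localOrder_xCoord_eq]
  exact ratEmb_xT W k hW hQ

/-! ### Iterated Frobenius -/

omit [IsAlgClosed k] [DecidableEq k] [DecidableEq (FF W k)] [(W⁄k).IsElliptic] in
theorem frobF_pow_apply (r : ℕ) (z : FF W k) :
    ((frobF W k) ^ r) z = z ^ (Fintype.card F ^ r) := by
  induction r generalizing z with
  | zero => simp
  | succ r ih =>
    rw [pow_succ, AlgHom.mul_apply, ih, frobF_apply, ← pow_mul, pow_succ, mul_comm]

omit [IsAlgClosed k] [DecidableEq k] [DecidableEq (FF W k)] [(W⁄k).IsElliptic] in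
theorem frobk_pow_apply (r : ℕ) (c : k) :
    ((frobk (F := F) k) ^ r) c = c ^ (Fintype.card F ^ r) := by
  induction r generalizing c with
  | zero => simp
  | succ r ih =>
    rw [pow_succ, AlgHom.mul_apply, ih, frobk_apply, ← pow_mul, pow_succ, mul_comm]

omit [IsAlgClosed k] [DecidableEq k] [(W⁄k).IsElliptic] in
theorem map_frobF_pow (r : ℕ) (P : PtL W k) :
    Affine.Point.map (W' := W) ((frobF W k) ^ r) P = (frobPt W k)^[r] P := by
  induction r generalizing P with
  | zero =>
    rw [pow_zero, Function.iterate_zero, id_eq]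
    rcases P with _ | ⟨x, y, h⟩ <;> rfl
  | succ r ih =>
    rw [Function.iterate_succ_apply, ← ih, frobPt, Affine.Point.map_map, pow_succ]
    rfl

omit [IsAlgClosed k] [DecidableEq (FF W k)] [(W⁄k).IsElliptic] in
theorem map_frobk_pow (r : ℕ) (P : (W⁄k).toAffine.Point) :
    Affine.Point.map (W' := W) ((frobk (F := F) k) ^ r) P = (frobPtk W k)^[r] P := by
  induction r generalizing P with
  | zero =>
    rw [pow_zero, Function.iterate_zero, id_eq]
    rcases P with _ | ⟨x, y, h⟩ <;> rfl
  | succ r ih =>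
    rw [Function.iterate_succ_apply, ← ih, frobPtk, Affine.Point.map_map, pow_succ]
    rfl

omit [IsAlgClosed k] [DecidableEq k] [(W⁄k).IsElliptic] in
theorem iterate_frobPt_mem_oddPoints (r : ℕ) {Q : PtL W k} (hQ : Q ∈ oddPoints W k) :
    (frobPt W k)^[r] Q ∈ oddPoints W k := by
  induction r generalizing Q with
  | zero => exact hQ
  | succ r ih =>
    rw [Function.iterate_succ_apply]
    exact ih (frobPt_mem_oddPoints W k hQ)

/-- **WP-EC9, `m + s φ^r`** (`r ≥ 1`): for `(m : k) ≠ 0`,
`#ker (m + s φ^r on E(k)) = ratHeight (x (m • Pgen + s • φ^r Pgen))`. -/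
theorem card_ker_iterate_eq_ratHeight {m : ℤ} (hm : (m : k) ≠ 0) (s : ℤ) {r : ℕ} (hr : r ≠ 0) :
    Nat.card {P₀ : (W⁄k).toAffine.Point // m • P₀ + s • (frobPtk W k)^[r] P₀ = 0} =
      ratHeight (xT W k (m • genericPoint W k + s • (frobPt W k)^[r] (genericPoint W k))) := by
  have hW := not_two_a₁_a₃_of_Δ_ne_zero W k (W⁄k).isUnit_Δ.ne_zero
  have hQ : m • genericPoint W k + s • (frobPt W k)^[r] (genericPoint W k) ∈ oddPoints W k :=
    (oddPoints W k).add_mem ((oddPoints W k).zsmul_mem (genericPoint_mem_oddPoints W k) m)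
      ((oddPoints W k).zsmul_mem
        (iterate_frobPt_mem_oddPoints W k r (genericPoint_mem_oddPoints W k)) s)
  have h := card_ker_zsmul_add_zsmul_frob (R := F) (W := W) (isOneVar W k) hm (ratEmb W k)
    (nonsingular_ratEmb_X W k) (exists_centre W k) ((frobF W k) ^ r) ((frobk (F := F) k) ^ r)
    (q := Fintype.card F ^ r) (Nat.one_lt_pow hr Fintype.one_lt_card) (frobF_pow_apply W k r)
    (frobk_pow_apply k r) s
    (f := xT W k (m • genericPoint W k + s • (frobPt W k)^[r] (genericPoint W k))) (by
      rw [some_ratEmb_X_eq, localOrder_xCoord_eq, map_frobF_pow]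
      exact ratEmb_xT W k hW hQ)
  simp only [map_frobk_pow] at h
  exact h

/-! ### Specialisation at the places of `FF W k` -/

/-- Specialisation of points at a place `A` of the function field. -/
noncomputable abbrev specFF (A : ValuationSubring (FF W k))
    (hk : ∀ c : k, algebraMap k (FF W k) c ∈ A) (hA : A ≠ ⊤) :
    PtL W k →+ (W⁄k).toAffine.Point :=
  spec (R := F) W (isOneVar W k) A hk hA

omit [Fintype F] in
theorem specFF_eq_zero_iff (A : ValuationSubring (FF W k))
    (hk : ∀ c : k, algebraMap k (FF W k) c ∈ A) (hA : A ≠ ⊤) (Q : PtL W k) :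
    specFF W k A hk hA Q = 0 ↔ KerRed A Q :=
  spec_eq_zero_iff (R := F) W (isOneVar W k) A hk hA Q

omit [Fintype F] in
/-- **Every `k`-point is the specialisation of the generic point at some place.** -/
theorem exists_place_specFF_genericPoint (P₀ : (W⁄k).toAffine.Point) :
    ∃ (A : ValuationSubring (FF W k)) (hk : ∀ c : k, algebraMap k (FF W k) c ∈ A) (hA : A ≠ ⊤),
      specFF W k A hk hA (genericPoint W k) = P₀ := by
  rcases P₀ with _ | ⟨x₀, y₀, h₀⟩
  · obtain ⟨A, hk, hxA⟩ := Places.exists_valuationSubring_notMem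
      (Places.notMem_range_of_transcendental (transcendental_xF W k))
    have hA : A ≠ ⊤ := fun h => hxA (h ▸ ValuationSubring.mem_top _)
    refine ⟨A, hk, hA, ?_⟩
    change specFF W k A hk hA (genericPoint W k) = 0
    rw [specFF_eq_zero_iff, FunctionField.genericPoint, kerRed_some]
    exact hxA
  · obtain ⟨A, hk, hA, -, -, hx, hy⟩ := exists_place_center W k h₀.1
    refine ⟨A, hk, hA, ?_⟩
    obtain ⟨hns, e⟩ := spec_some_of_sub_mem_nonunits (R := F) W (isOneVar W k) A hk hA
      (nonsingular_generic W k) hx hy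
    exact e

omit [Fintype F] [IsAlgClosed k] [(W⁄k).IsElliptic] in
theorem constPt_eq_map (P : (W⁄k).toAffine.Point) :
    constPt W k P = Affine.Point.map (W' := W) (IsScalarTower.toAlgHom F k (FF W k)) P := by
  rcases P with _ | ⟨x, y, h⟩ <;> rfl

omit [Fintype F] in
/-- Constant points specialise to themselves. -/
theorem specFF_constPt (A : ValuationSubring (FF W k))
    (hk : ∀ c : k, algebraMap k (FF W k) c ∈ A) (hA : A ≠ ⊤) (P : (W⁄k).toAffine.Point) :
    specFF W k A hk hA (constPt W k P) = P := by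
  rw [constPt_eq_map]
  exact spec_map_const (R := F) W (isOneVar W k) A hk hA P

/-- Specialisation commutes with Frobenius. -/
theorem specFF_frobPt (A : ValuationSubring (FF W k))
    (hk : ∀ c : k, algebraMap k (FF W k) c ∈ A) (hA : A ≠ ⊤) (Q : PtL W k) :
    specFF W k A hk hA (frobPt W k Q) = frobPtk W k (specFF W k A hk hA Q) :=
  spec_map_pow (R := F) W (isOneVar W k) A hk hA (frobF W k) (frobk (F := F) k)
    Fintype.card_ne_zero (frobF_apply W k) (frobk_apply k) Q

omit [Fintype F] in
/-- **Pole lemma for points**: a point with nonconstant `x`-coordinate specialises to `0` at some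
place. -/
theorem exists_place_specFF_eq_zero {Q : PtL W k}
    (hQ : FunctionField.xCoord W k Q ∉ (algebraMap k (FF W k)).range) :
    ∃ (A : ValuationSubring (FF W k)) (hk : ∀ c : k, algebraMap k (FF W k) c ∈ A) (hA : A ≠ ⊤),
      specFF W k A hk hA Q = 0 := by
  obtain ⟨A, hk, hxA⟩ := Places.exists_valuationSubring_notMem hQ
  have hA : A ≠ ⊤ := fun h => hxA (h ▸ ValuationSubring.mem_top _)
  refine ⟨A, hk, hA, ?_⟩
  rw [specFF_eq_zero_iff]
  rcases Q with _ | ⟨x, y, h⟩
  · exact kerRed_zero A
  · exact (kerRed_some A h).mpr hxA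

end Final

end Fermat.Agent.Lib.EC.KernelCount
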