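import Mathlib
import Fermat.Agent.Lib.EC.ParallelogramOdd
import Fermat.Agent.Lib.EC.Quadratic
import Fermat.Agent.Lib.EC.Height.Poly

/-!
# P-ELL WP-EC8: the height on the odd points is a quadratic form

Setting of `ParallelogramOdd`: `W` over `R`, fields `k ⊆ K` over `R`, `ι : RatFunc k →ₐ[k] K`,
`σ : K →ₐ[k] K` with fixed elements in the range of `ι`, `W⁄k` elliptic.

* `hT ι hfix Q : ℤ` : the height of an odd point, `ratHeight (xT Q)` (`0` at `O`).
* `hT_parallelogram` : `hT (P + Q) + hT (P - Q) = 2 hT P + 2 hT Q`.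
* quadratic-form corollaries (via `Quadratic`): `hT_neg`, `hT_zsmul`, `hT_zsmul_add_zsmul`.
* `hT_eq_one_of_x_eq_X`, `hT_map` (Frobenius scaling), `hT_eq_zero_iff`.
-/

set_option autoImplicit false

open WeierstrassCurve WeierstrassCurve.Affine

noncomputable section

namespace Fermat.Agent.Lib.EC.Parallelogram

section Height

variable {R k K : Type*} [CommRing R] [Field k] [Field K] [Algebra R k] [Algebra R K] [Algebra k K]
  [IsScalarTower R k K] [DecidableEq K]
variable {W : WeierstrassCurve R} (ι : RatFunc k →ₐ[k] K) {σ : K →ₐ[k] K}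
  (hfix : ∀ a : K, σ a = a → a ∈ ι.range)

/-- the height of an odd point: the degree of its `x`-coordinate as a rational function. -/
def hT (Q : oddPoints W σ) : ℤ := (projHeight (xRepT ι hfix Q) : ℕ)

theorem hT_nonneg (Q : oddPoints W σ) : 0 ≤ hT ι hfix Q := Int.natCast_nonneg _

theorem hT_zero : hT ι hfix (0 : oddPoints W σ) = 0 := by
  rw [hT, xRepT_zero, projHeight_one_zero]
  rfl

theorem hT_eq_ratHeight_of_ne_zero {Q : oddPoints W σ} (hQ : Q ≠ 0) :
    hT ι hfix Q = (ratHeight (xT ι hfix Q) : ℕ) := by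
  rw [hT, xRepT_eq_of_ne_zero ι hfix hQ, projHeight_pair]

theorem hT_eq_ratHeight (Q : oddPoints W σ) :
    hT ι hfix Q = (ratHeight (xT ι hfix Q) : ℕ) := by
  by_cases hQ : Q = 0
  · subst hQ
    rw [hT_zero, xT_zero, ratHeight_zero]
    rfl
  · exact hT_eq_ratHeight_of_ne_zero ι hfix hQ

theorem hT_eq_one_of_x_eq_X {Q : oddPoints W σ} {x y : K}
    {h : (W.baseChange K).toAffine.Nonsingular x y}
    (hQ : (Q : (W.baseChange K).toAffine.Point) = Point.some x y h) (hx : ι RatFunc.X = x) :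
    hT ι hfix Q = 1 := by
  rw [hT, xRepT_of_some ι hfix hQ hx, projHeight_pair, ratHeight_X]
  rfl

/-- `hT Q = 0` iff the `x`-coordinate is constant (or `Q = O`, where `xT Q = 0`). -/
theorem hT_eq_zero_iff (Q : oddPoints W σ) :
    hT ι hfix Q = 0 ↔ ∃ c : k, xT ι hfix Q = RatFunc.C c := by
  rw [hT_eq_ratHeight, ← ratHeight_eq_zero_iff]
  exact_mod_cast Iff.rfl

theorem x_eq_algebraMap_of_hT_eq_zero {Q : oddPoints W σ} (h0 : hT ι hfix Q = 0) {x y : K}
    {h : (W.baseChange K).toAffine.Nonsingular x y}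
    (hQ : (Q : (W.baseChange K).toAffine.Point) = Point.some x y h) :
    ∃ c : k, x = algebraMap k K c := by
  obtain ⟨c, hc⟩ := (hT_eq_zero_iff ι hfix Q).mp h0
  refine ⟨c, ?_⟩
  rw [← map_xT ι hfix hQ, hc, ← RatFunc.algebraMap_eq_C, AlgHom.commutes]

/-- scaling of the height under an endomorphism `φ` of `K` with `φ ∘ ι = ι ∘ ψ`, where `ψ`
multiplies heights by `q` (Frobenius: `ψ f = f ^ q`). -/
theorem hT_map {S : Type*} [CommRing S] [Algebra R S] [Algebra S K] [IsScalarTower R S K]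
    (φ : K →ₐ[S] K) (hφσ : ∀ a, φ (σ a) = σ (φ a))
    (ψ : RatFunc k →+* RatFunc k) (hψ : ∀ f, φ (ι f) = ι (ψ f)) (q : ℕ)
    (hq : ∀ f, ratHeight (ψ f) = q * ratHeight f) (Q : oddPoints W σ) :
    hT ι hfix ⟨Point.map (W' := W.toAffine) φ Q, map_mem_oddPoints φ hφσ Q.2⟩ =
      q * hT ι hfix Q := by
  have hx : xT ι hfix ⟨Point.map (W' := W.toAffine) φ Q, map_mem_oddPoints φ hφσ Q.2⟩ =
      ψ (xT ι hfix Q) := by
    rw [xT, xT, xRepT_map ι hfix φ hφσ ψ hψ Q, map_div₀]
    rfl
  rw [hT_eq_ratHeight, hT_eq_ratHeight, hx, hq]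
  push_cast
  ring

theorem ratHeight_pow_frobenius (q : ℕ) (f : RatFunc k) : ratHeight (f ^ q) = q * ratHeight f :=
  ratHeight_pow f q

variable [(W.baseChange k).IsElliptic]

/-- **WP-EC8: the exact parallelogram law.** -/
theorem hT_parallelogram (P Q : oddPoints W σ) :
    hT ι hfix (P + Q) + hT ι hfix (P - Q) = 2 * hT ι hfix P + 2 * hT ι hfix Q := by
  have h := parallelogram_odd ι hfix (fun z => projHeight z) (fun z => projHeight z)
    (fun c z hc => projHeight_smul hc z)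
    (fun a b ha hb => projHeight_sym2' a b ha hb)
    (fun z => projHeight_eval_eq_of_forall_aeval (N := 2) (e := 2 + 2)
      (fun j => (W.baseChange k).addSubMap j)
      (fun j => WeierstrassCurve.isHomogeneous_addSubMap _ j)
      (fun ij => MvPolynomial.C (↑(W.baseChange k).Δ'⁻¹ : k) * (W.baseChange k).addSubMapCoeff ij)
      (fun x i => addSubMap_certificate (W.baseChange k) x i) z)
    P Q
  simp only [hT]
  exact_mod_cast h

/-! ### quadratic-form corollaries -/

theorem hT_neg (Q : oddPoints W σ) : hT ι hfix (-Q) = hT ι hfix Q :=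
  Quadratic.neg_of_parallelogram (hT_parallelogram ι hfix) Q

theorem hT_zsmul (m : ℤ) (Q : oddPoints W σ) : hT ι hfix (m • Q) = m ^ 2 * hT ι hfix Q :=
  Quadratic.zsmul_of_parallelogram (hT_parallelogram ι hfix) m Q

theorem hT_zsmul_add_zsmul (m s : ℤ) (P Q : oddPoints W σ) :
    hT ι hfix (m • P + s • Q) =
      m ^ 2 * hT ι hfix P + m * s * Quadratic.bil (hT ι hfix) P Q + s ^ 2 * hT ι hfix Q :=
  Quadratic.zsmul_add_zsmul (hT_parallelogram ι hfix) m s P Q

end Height

end Fermat.Agent.Lib.EC.Parallelogram
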