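import Mathlib
import Fermat.Agent.Lib.EC.Quadratic

/-!
helper51 (P-ELL library, WP-EC11, abstract form).  The trace theorem for an endomorphism `φ` of
an abelian group `G` with a quadratic relation and known kernel sizes.

* `trace_det_of_quadratic_lifts` : version of `Quadratic.trace_det_of_quadratic` where the
  congruence in the scalar case is only required for lifts in a set `S` of "good" integers.
* `exists_good_lifts` : for primes `p ≠ n` every residue mod `n` has two lifts prime to `p` whose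
  difference is not divisible by `n²`.
* `trace_det_torsion` : if `φ² - a φ + q = 0` on `G` and `#ker (m + s φ) = m² + a m s + q s²` for
  `p ∤ m`, then `G[n]` has `n²` elements and `φ` has trace `a` and determinant `q` on it.
-/

set_option autoImplicit false

namespace Fermat.Agent.Lib.EC.TraceAbstract

open Module

section linalg

variable {n : ℕ} [Fact n.Prime] {V : Type*} [AddCommGroup V] [Module (ZMod n) V]

/-- Trace and determinant from a quadratic relation; in the scalar case the congruence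
`n² ∣ m² - a m + q` is only required for the lifts `m ∈ S`, and `S` contains two lifts of every
residue whose difference is not divisible by `n²`. -/
theorem trace_det_of_quadratic_lifts (hV : Nat.card V = n ^ 2) (F : V →ₗ[ZMod n] V) (a q : ℤ)
    (hQ : ∀ v, F (F v) - (a : ZMod n) • F v + (q : ZMod n) • v = 0)
    (S : Set ℤ)
    (hS : ∀ c : ZMod n, ∃ m m' : ℤ, m ∈ S ∧ m' ∈ S ∧ (m : ZMod n) = c ∧ (m' : ZMod n) = c ∧
      ¬ (n : ℤ) ^ 2 ∣ m' - m)
    (hM : ∀ m ∈ S, (∀ v, F v = (m : ZMod n) • v) → (n : ℤ) ^ 2 ∣ m ^ 2 - a * m + q) :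
    LinearMap.trace (ZMod n) V F = (a : ZMod n) ∧ LinearMap.det F = (q : ZMod n) := by
  by_cases hs : ∃ c : ZMod n, ∀ v, F v = c • v
  · obtain ⟨c, hc⟩ := hs
    have hfr := Quadratic.finrank_eq_two_of_card hV
    have : Module.Finite (ZMod n) V := Module.finite_of_finrank_eq_succ hfr
    have hnprime : Prime (n : ℤ) := Nat.prime_iff_prime_int.mp (Fact.out : n.Prime)
    have hF : F = c • LinearMap.id := by
      ext v
      simp [hc v]
    obtain ⟨m, m', hmS, hm'S, hmc, hm'c, hndvd⟩ := hS c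
    have d1 := hM m hmS (fun v => by rw [hmc]; exact hc v)
    have d2 := hM m' hm'S (fun v => by rw [hm'c]; exact hc v)
    have hdiff : (n : ℤ) ∣ m' - m := by
      apply (ZMod.intCast_zmod_eq_zero_iff_dvd _ n).mp
      push_cast
      rw [hmc, hm'c, sub_self]
    obtain ⟨j, hj⟩ := hdiff
    have hnj : ¬ (n : ℤ) ∣ j := by
      intro h
      apply hndvd
      rw [hj, pow_two]
      exact mul_dvd_mul_left _ h
    have d3 : (n : ℤ) ^ 2 ∣ (n : ℤ) * (j * (m' + m - a)) := by
      have := dvd_sub d2 d1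
      have e : m' ^ 2 - a * m' + q - (m ^ 2 - a * m + q) = (m' - m) * (m' + m - a) := by ring
      rw [e, hj] at this
      rwa [mul_assoc] at this
    have hn0 : (n : ℤ) ≠ 0 := by exact_mod_cast (Fact.out : n.Prime).ne_zero
    have d4 : (n : ℤ) ∣ j * (m' + m - a) := by
      rw [pow_two] at d3
      exact Int.dvd_of_mul_dvd_mul_left hn0 d3
    have d5 : (n : ℤ) ∣ m' + m - a := (hnprime.dvd_or_dvd d4).resolve_left hnj
    have ha : (a : ZMod n) = 2 * c := by
      have h0 : ((m' + m - a : ℤ) : ZMod n) = 0 := (ZMod.intCast_zmod_eq_zero_iff_dvd _ n).mpr d5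
      push_cast at h0
      rw [hmc, hm'c] at h0
      linear_combination -h0
    have hq : (q : ZMod n) = c ^ 2 := by
      have d6 : (n : ℤ) ∣ m ^ 2 - a * m + q := dvd_trans (dvd_pow_self _ two_ne_zero) d1
      have h0 : ((m ^ 2 - a * m + q : ℤ) : ZMod n) = 0 :=
        (ZMod.intCast_zmod_eq_zero_iff_dvd _ n).mpr d6
      push_cast at h0
      rw [hmc, ha] at h0
      linear_combination h0
    constructor
    · rw [hF, map_smul, LinearMap.trace_id, hfr, ha]
      simp [mul_comm]
    · rw [hF, LinearMap.det_smul, LinearMap.det_id, hfr, hq]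
      simp
  · exact Quadratic.trace_det_of_quadratic hV F a q hQ (fun m hm => absurd ⟨_, hm⟩ hs)

end linalg

/-- For primes `p ≠ n`, every residue class mod `n` has two lifts prime to `p` whose difference
`n p` is not divisible by `n²`. -/
theorem exists_good_lifts {n p : ℕ} (hn : n.Prime) (hp : p.Prime) (hpn : p ≠ n) (c : ZMod n) :
    ∃ m m' : ℤ, ¬ (p : ℤ) ∣ m ∧ ¬ (p : ℤ) ∣ m' ∧ (m : ZMod n) = c ∧ (m' : ZMod n) = c ∧
      ¬ (n : ℤ) ^ 2 ∣ m' - m := by
  have : NeZero n := ⟨hn.ne_zero⟩
  have hcop : IsCoprime (n : ℤ) (p : ℤ) :=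
    Nat.isCoprime_iff_coprime.mpr ((Nat.coprime_primes hn hp).mpr (Ne.symm hpn))
  obtain ⟨u, v, huv⟩ := hcop
  set c0 : ℤ := (c.val : ℤ) with hc0
  have hc0c : ((c0 : ℤ) : ZMod n) = c := by
    rw [hc0]
    simp
  have hp1 : ¬ (p : ℤ) ∣ 1 := by
    intro h
    have h1 : p ∣ 1 := by exact_mod_cast h
    exact hp.one_lt.ne' (Nat.dvd_one.mp h1)
  set m : ℤ := c0 * (v * p) + u * n with hm
  have hpm : ¬ (p : ℤ) ∣ m := by
    intro h
    apply hp1
    have h2 : (p : ℤ) ∣ m - ((c0 - 1) * v) * p := dvd_sub h (dvd_mul_left _ _)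
    have e : m - ((c0 - 1) * v) * p = 1 := by
      rw [hm]
      linear_combination huv
    rwa [e] at h2
  have hmc : ((m : ℤ) : ZMod n) = c := by
    have e : m = c0 + (u - c0 * u) * n := by
      rw [hm]
      linear_combination c0 * huv
    rw [e]
    push_cast
    rw [hc0c]
    simp
  refine ⟨m, m + n * p, hpm, ?_, hmc, ?_, ?_⟩
  · intro h
    exact hpm ((dvd_add_left (dvd_mul_left _ _)).mp h)
  · push_cast
    rw [hmc]
    simp
  · intro h
    rw [add_sub_cancel_left, pow_two] at h
    have hn0 : (n : ℤ) ≠ 0 := by exact_mod_cast hn.ne_zero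
    have h1 : (n : ℤ) ∣ (p : ℤ) := Int.dvd_of_mul_dvd_mul_left hn0 h
    have h2 : n ∣ p := by exact_mod_cast h1
    exact hpn ((Nat.prime_dvd_prime_iff_eq hn hp).mp h2).symm


section group

variable {G : Type*} [AddCommGroup G] (φ : G →+ G)

/-- The endomorphism `m + s φ`. -/
def comb (m s : ℤ) : G →+ G :=
  AddMonoidHom.mk' (fun P => m • P + s • φ P) (by
    intro P Q
    simp only [map_add, smul_add]
    abel)

@[simp] theorem comb_apply (m s : ℤ) (P : G) : comb φ m s P = m • P + s • φ P := rfl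

theorem card_ker_comb (m s : ℤ) :
    Nat.card (comb φ m s).ker = Nat.card {P : G // m • P + s • φ P = 0} :=
  Nat.card_congr (Equiv.subtypeEquivRight fun _ => AddMonoidHom.mem_ker)

/-- The `n`-torsion of `G`. -/
abbrev tors (G : Type*) [AddCommGroup G] (n : ℕ) : Submodule ℤ G :=
  Submodule.torsionBy ℤ G (n : ℤ)

theorem mem_tors {n : ℕ} {P : G} : P ∈ tors G n ↔ (n : ℤ) • P = 0 :=
  Submodule.mem_torsionBy_iff _ _

variable {φ} in
theorem map_mem_tors {n : ℕ} {P : G} (hP : P ∈ tors G n) : φ P ∈ tors G n := by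
  rw [mem_tors] at hP ⊢
  rw [← map_zsmul, hP, map_zero]

/-- `φ` restricted to the `n`-torsion. -/
def restr (n : ℕ) : tors G n →+ tors G n :=
  (φ.toIntLinearMap.restrict (fun _ hP => map_mem_tors hP)).toAddMonoidHom

@[simp] theorem restr_apply (n : ℕ) (v : tors G n) : ((restr φ n v : tors G n) : G) = φ v := rfl

theorem card_tors_eq (n : ℕ) :
    Nat.card (tors G n) = Nat.card {P : G // (n : ℤ) • P + (0 : ℤ) • φ P = 0} :=
  Nat.card_congr (Equiv.subtypeEquivRight fun P => by
    rw [mem_tors, zero_smul, add_zero])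

/-- **The trace theorem, abstract form.** If `φ² - a φ + q = 0` on `G` and
`#ker (m + s φ) = m² + a m s + q s²` whenever `p ∤ m`, then for a prime `n ≠ p` the group `G[n]`
has `n²` elements and `φ` has trace `a` and determinant `q` on it. -/
theorem trace_det_torsion {n p : ℕ} [Fact n.Prime] (hp : p.Prime) (hpn : p ≠ n) (a q : ℤ)
    (hQ : ∀ P : G, φ (φ P) - a • φ P + q • P = 0)
    (hker : ∀ m s : ℤ, ¬ (p : ℤ) ∣ m →
      (Nat.card {P : G // m • P + s • φ P = 0} : ℤ) = m ^ 2 + a * m * s + q * s ^ 2)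
    [Module (ZMod n) (tors G n)] :
    Nat.card (tors G n) = n ^ 2 ∧
      LinearMap.trace (ZMod n) (tors G n) ((restr φ n).toZModLinearMap n) = (a : ZMod n) ∧
      LinearMap.det ((restr φ n).toZModLinearMap n) = (q : ZMod n) := by
  have hn : n.Prime := Fact.out
  have hpn' : ¬ (p : ℤ) ∣ (n : ℤ) := by
    intro h
    have h1 : p ∣ n := by exact_mod_cast h
    exact hpn ((Nat.prime_dvd_prime_iff_eq hp hn).mp h1)
  have hcard : Nat.card (tors G n) = n ^ 2 := by
    have h1 := hker n 0 hpn'
    rw [← card_tors_eq] at h1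
    have h2 : (Nat.card (tors G n) : ℤ) = ((n ^ 2 : ℕ) : ℤ) := by
      rw [h1]
      push_cast
      ring
    exact_mod_cast h2
  refine ⟨hcard, ?_⟩
  refine trace_det_of_quadratic_lifts hcard _ a q (fun v => ?_) {m | ¬ (p : ℤ) ∣ m}
    (fun c => exists_good_lifts hn hp hpn c) (fun m hm hsc => ?_)
  · rw [Int.cast_smul_eq_zsmul, Int.cast_smul_eq_zsmul]
    apply Subtype.ext
    have := hQ (v : G)
    simpa using this
  · have hm' : ¬ (p : ℤ) ∣ -m := fun h => hm ((dvd_neg).mp h)
    have hle : (tors G n).toAddSubgroup ≤ (comb φ (-m) 1).ker := by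
      intro x hx
      have h1 := hsc ⟨x, hx⟩
      rw [Int.cast_smul_eq_zsmul] at h1
      have h2 : φ x = m • x := by
        have := congrArg Subtype.val h1
        simpa using this
      rw [AddMonoidHom.mem_ker, comb_apply, h2, one_smul, neg_smul, neg_add_cancel]
    have hdvd := AddSubgroup.card_dvd_of_le hle
    have e1 : Nat.card (tors G n).toAddSubgroup = n ^ 2 := by
      rw [← hcard]
      exact Nat.card_congr (Equiv.subtypeEquivRight fun _ => Iff.rfl)
    have e2 : (Nat.card (comb φ (-m) 1).ker : ℤ) = m ^ 2 - a * m + q := by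
      rw [card_ker_comb, hker (-m) 1 hm']
      ring
    rw [e1] at hdvd
    have h3 : ((n ^ 2 : ℕ) : ℤ) ∣ (Nat.card (comb φ (-m) 1).ker : ℤ) :=
      Int.natCast_dvd_natCast.mpr hdvd
    rw [e2] at h3
    exact_mod_cast h3

/-- Variant without a characteristic: kernel sizes known for all `m ≠ 0`. -/
theorem trace_det_torsion_of_ne_zero {n : ℕ} [Fact n.Prime] (a q : ℤ)
    (hQ : ∀ P : G, φ (φ P) - a • φ P + q • P = 0)
    (hker : ∀ m s : ℤ, m ≠ 0 →
      (Nat.card {P : G // m • P + s • φ P = 0} : ℤ) = m ^ 2 + a * m * s + q * s ^ 2)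
    [Module (ZMod n) (tors G n)] :
    Nat.card (tors G n) = n ^ 2 ∧
      LinearMap.trace (ZMod n) (tors G n) ((restr φ n).toZModLinearMap n) = (a : ZMod n) ∧
      LinearMap.det ((restr φ n).toZModLinearMap n) = (q : ZMod n) := by
  have hn : n.Prime := Fact.out
  -- pick any prime `p ≠ n`
  obtain ⟨p, hp, hpn⟩ : ∃ p : ℕ, p.Prime ∧ p ≠ n := by
    by_cases h2 : n = 2
    · exact ⟨3, Nat.prime_three, by omega⟩
    · exact ⟨2, Nat.prime_two, fun h => h2 h.symm⟩
  refine trace_det_torsion φ hp hpn a q hQ (fun m s hm => hker m s ?_)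
  rintro rfl
  exact hm (dvd_zero _)

end group

end Fermat.Agent.Lib.EC.TraceAbstract
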