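import Mathlib
import Fermat.Prelude.Def_EllipticCurve_FrobeniusTrace
import Fermat.Prelude.Def_FLTPrelim_Modularity
import Fermat.Agent.Lib.EC.Reduction.ReductionMap
import Fermat.Agent.Lib.EC.TraceAbstract
import Fermat.Agent.Lib.FrobeniusExists

/-!
helper51 (P-ELL library, WP-EC12).  Reduction of torsion points modulo a valuation subring of
`ℚ̄` lying over `ℓ` and Frobenius lifts: the trace of a Frobenius lift on `E[n](ℚ̄)` is
`a_ℓ mod n`.
-/

set_option autoImplicit false

open WeierstrassCurve WeierstrassCurve.Affine IsLocalRing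

namespace Fermat.Agent.Lib.EC.ReductionTorsion

/-! ### The residue field of a valuation subring of an algebraically closed field -/

section residue

variable {L : Type*} [Field L] (A : ValuationSubring L)

theorem natCast_residue_eq_zero {ℓ : ℕ} (hA : A.LiesOverPrime ℓ) :
    ((ℓ : ℕ) : ResidueField A) = 0 := by
  have hmem : (ℓ : L) ∈ A := A.nonunits_le hA
  have h1 : (⟨(ℓ : L), hmem⟩ : A) ∈ maximalIdeal A := by
    rw [mem_maximalIdeal, mem_nonunits_iff]
    intro hu
    have : (ℓ : L) ∉ A.nonunits := by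
      rw [ValuationSubring.mem_nonunits_iff_exists_mem_maximalIdeal]
      rintro ⟨ha, hm⟩
      exact (mem_maximalIdeal _).mp hm hu
    exact this hA
  have h2 : residue A ⟨(ℓ : L), hmem⟩ = 0 := (residue_eq_zero_iff _).mpr h1
  have h3 : (⟨(ℓ : L), hmem⟩ : A) = ((ℓ : ℕ) : A) := by
    apply Subtype.ext
    simp
  rw [h3, map_natCast] at h2
  exact h2

theorem charP_residueField {ℓ : ℕ} (hℓ : ℓ.Prime) (hA : A.LiesOverPrime ℓ) :
    CharP (ResidueField A) ℓ := by
  have h0 := natCast_residue_eq_zero A hA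
  have h1 : ringChar (ResidueField A) ∣ ℓ := ringChar.dvd h0
  have h2 : ringChar (ResidueField A) ≠ 1 := CharP.ringChar_ne_one
  have h3 : ringChar (ResidueField A) = ℓ := by
    rcases (Nat.dvd_prime hℓ).mp h1 with h | h
    · exact absurd h h2
    · exact h
  rw [← h3]
  exact ringChar.charP _

theorem mem_of_isIntegral {x : L} (hx : IsIntegral A x) : x ∈ A := by
  obtain ⟨y, hy⟩ := IsIntegrallyClosed.algebraMap_eq_of_integral (R := A) (K := L) hx
  rw [← hy]
  exact y.2

theorem isAlgClosed_residueField [IsAlgClosed L] : IsAlgClosed (ResidueField A) := by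
  apply IsAlgClosed.of_exists_root
  intro p hp hirr
  -- lift `p` to a monic polynomial over `A`
  have hsurj : Function.Surjective (residue A) := residue_surjective
  have hlift : p ∈ Polynomial.lifts (residue A) := by
    rw [Polynomial.lifts_iff_coeff_lifts]
    intro n
    exact hsurj _
  obtain ⟨P, hPmap, hPdeg, hPmonic⟩ := Polynomial.lifts_and_degree_eq_and_monic hlift hp
  -- a root in `L`
  have hdeg : (P.map A.subtype).degree ≠ 0 := by
    rw [Polynomial.degree_map_eq_of_injective A.subtype_injective, hPdeg]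
    exact (Polynomial.degree_pos_of_irreducible hirr).ne'
  obtain ⟨x, hx⟩ := IsAlgClosed.exists_root (P.map A.subtype) hdeg
  have hxint : IsIntegral A x := by
    refine ⟨P, hPmonic, ?_⟩
    rw [Polynomial.IsRoot, Polynomial.eval_map] at hx
    exact hx
  have hxA : x ∈ A := mem_of_isIntegral A hxint
  refine ⟨residue A ⟨x, hxA⟩, ?_⟩
  rw [← hPmap, Polynomial.eval_map, Polynomial.eval₂_at_apply]
  have h1 : P.eval (⟨x, hxA⟩ : A) = 0 := by
    apply A.subtype_injective
    rw [map_zero, ← Polynomial.eval₂_at_apply]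
    rw [Polynomial.IsRoot, Polynomial.eval_map] at hx
    exact hx
  rw [h1, map_zero]

end residue


/-! ### Frobenius lifts act as the `ℓ`-power map on residues -/

section frob

open scoped Pointwise

variable {K L : Type*} [Field K] [Field L] [Algebra K L] (A : ValuationSubring L)
  {σ : L ≃ₐ[K] L} {ℓ : ℕ}

theorem map_mem_of_mem_decomposition (hσ : σ ∈ A.decompositionSubgroup K) {x : L}
    (hx : x ∈ A) : σ x ∈ A := by
  have h : σ • A = A := hσ
  have : σ • x ∈ σ • A := ValuationSubring.smul_mem_pointwise_smul _ _ _ hx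
  rw [h] at this
  exact this

theorem map_mem_iff_of_mem_decomposition (hσ : σ ∈ A.decompositionSubgroup K) {x : L} :
    σ x ∈ A ↔ x ∈ A := by
  constructor
  · intro h
    have := map_mem_of_mem_decomposition A (inv_mem hσ) h
    simpa using this
  · exact map_mem_of_mem_decomposition A hσ

theorem frob_mem_iff (h : A.IsFrobeniusAt σ ℓ) {x : L} : σ x ∈ A ↔ x ∈ A :=
  map_mem_iff_of_mem_decomposition A h.mem_decompositionSubgroup

theorem residue_frob (h : A.IsFrobeniusAt σ ℓ) {x : L} (hx : x ∈ A) (hσx : σ x ∈ A) :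
    residue A ⟨σ x, hσx⟩ = (residue A ⟨x, hx⟩) ^ ℓ := by
  have h2 := h.smul_residue_eq (residue A ⟨x, hx⟩)
  rw [← IsLocalRing.ResidueField.residue_smul] at h2
  rw [← h2]
  rfl

theorem res_frob (h : A.IsFrobeniusAt σ ℓ) (hℓ : ℓ ≠ 0) (x : L) :
    res (residue A) (σ x) = (res (residue A) x) ^ ℓ := by
  by_cases hx : x ∈ A
  · have hσx : σ x ∈ A := (frob_mem_iff A h).mpr hx
    rw [res_of_mem _ hσx, res_of_mem _ hx, residue_frob A h hx hσx]
  · have hσx : σ x ∉ A := fun h' => hx ((frob_mem_iff A h).mp h')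
    rw [res_of_not_mem _ hσx, res_of_not_mem _ hx, zero_pow hℓ]

end frob


/-! ### The reduction pair attached to an integral model, and equivariance -/

section equivariance

local notation "Qbar" => AlgebraicClosure ℚ

variable (W : WeierstrassCurve ℤ) {ℓ : ℕ} {A : ValuationSubring Qbar}
  {k : Type*} [Field k] [Algebra (ZMod ℓ) k] (π : A →+* k)

/-- The curve over `ℚ̄`, in the Prelude's form. -/
noncomputable abbrev curveQbar : Affine Qbar := ((W.map (Int.castRingHom ℚ)).toAffine⁄Qbar)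

/-- The reduced curve over `k`, in the form `(W mod ℓ)⁄k`. -/
noncomputable abbrev curveRes (ℓ : ℕ) (k : Type*) [Field k] [Algebra (ZMod ℓ) k] : Affine k :=
  ((W.reductionMod ℓ).toAffine⁄k)

theorem curveQbar_eq : curveQbar W = W.map (A.subtype.comp (Int.castRingHom A)) := by
  show (W.map (Int.castRingHom ℚ)).map (algebraMap ℚ Qbar) = _
  rw [WeierstrassCurve.map_map]
  exact congrArg W.map (RingHom.ext_int _ _)

theorem curveRes_eq : curveRes W ℓ k = W.map (π.comp (Int.castRingHom A)) := by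
  show (W.map (Int.castRingHom (ZMod ℓ))).map (algebraMap (ZMod ℓ) k) = _
  rw [WeierstrassCurve.map_map]
  exact congrArg W.map (RingHom.ext_int _ _)

theorem isReduction_model : IsReduction π (curveQbar W) (curveRes W ℓ k) := by
  rw [curveQbar_eq W (A := A), curveRes_eq W π]
  exact isReduction_comp π (Int.castRingHom A) W

theorem curveRes_Δ : (curveRes W ℓ k).Δ = ((W.Δ : ℤ) : k) := by
  show ((W.map (Int.castRingHom (ZMod ℓ))).map (algebraMap (ZMod ℓ) k)).Δ = _
  rw [WeierstrassCurve.map_map, WeierstrassCurve.map_Δ]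
  simp

theorem curveRes_Δ_ne_zero [CharP k ℓ] (hgood : W.IsGoodPrimeFor ℓ) : (curveRes W ℓ k).Δ ≠ 0 := by
  rw [curveRes_Δ]
  intro h
  exact hgood ((CharP.intCast_eq_zero_iff k ℓ _).mp h)

variable [DecidableEq k] {σ : Qbar ≃ₐ[ℚ] Qbar}

/-- Reduction intertwines a Frobenius lift with the Frobenius of the residue field. -/
theorem red_smul (Fr : k →ₐ[ZMod ℓ] k) (hFr : ∀ x, Fr x = x ^ ℓ)
    (hσ : ∀ x : Qbar, res π (σ x) = (res π x) ^ ℓ) (hσA : ∀ x : Qbar, σ x ∈ A ↔ x ∈ A)
    (P : (curveQbar W).Point) :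
    red π (curveQbar W) (curveRes W ℓ k) (σ • P) =
      Point.map Fr (red π (curveQbar W) (curveRes W ℓ k) P) := by
  rcases P with _ | ⟨x, y, h⟩
  · rfl
  · have hsm : σ • (Point.some x y h : (curveQbar W).Point) =
        Point.some (σ x) (σ y)
          ((baseChange_nonsingular (W.map (Int.castRingHom ℚ)).toAffine
            σ.toAlgHom.injective x y).mpr h) := rfl
    rw [hsm]
    have hresx : res π (σ x) = Fr (res π x) := by rw [hσ, hFr]
    have hresy : res π (σ y) = Fr (res π y) := by rw [hσ, hFr]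
    by_cases hc : (curveRes W ℓ k).Nonsingular (res π x) (res π y) ∧ x ∈ A ∧ y ∈ A
    · obtain ⟨hns, hx, hy⟩ := hc
      have hns' : (curveRes W ℓ k).Nonsingular (res π (σ x)) (res π (σ y)) := by
        rw [hresx, hresy]
        exact (baseChange_nonsingular (W.reductionMod ℓ).toAffine Fr.injective _ _).mpr hns
      rw [red_some_of_mem π _ ((hσA x).mpr hx) ((hσA y).mpr hy) hns',
        red_some_of_mem π h hx hy hns, Point.map_some]
      exact some_congr _ hresx hresy _
    · have hc' : ¬ ((curveRes W ℓ k).Nonsingular (res π (σ x)) (res π (σ y)) ∧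
          σ x ∈ A ∧ σ y ∈ A) := by
        rintro ⟨hns', hx', hy'⟩
        apply hc
        refine ⟨?_, (hσA x).mp hx', (hσA y).mp hy'⟩
        rw [hresx, hresy] at hns'
        exact (baseChange_nonsingular (W.reductionMod ℓ).toAffine Fr.injective _ _).mp hns'
      have e1 : red π (curveQbar W) (curveRes W ℓ k) (Point.some x y h) = 0 := dif_neg hc
      have e2 : red π (curveQbar W) (curveRes W ℓ k) (Point.some (σ x) (σ y)
          ((baseChange_nonsingular (W.map (Int.castRingHom ℚ)).toAffine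
            σ.toAlgHom.injective x y).mpr h)) = 0 := dif_neg hc'
      rw [e1, e2, map_zero]

end equivariance


/-! ### Transfer of trace and determinant along an intertwining bijection -/

section transfer

variable {n : ℕ} {V₁ V₂ : Type*} [AddCommGroup V₁] [AddCommGroup V₂] [Module (ZMod n) V₁]
  [Module (ZMod n) V₂]

theorem trace_det_eq_of_intertwine (r : V₁ →+ V₂) (hr : Function.Bijective r)
    (f₁ : V₁ →ₗ[ZMod n] V₁) (f₂ : V₂ →ₗ[ZMod n] V₂) (h : ∀ v, r (f₁ v) = f₂ (r v)) :
    LinearMap.trace (ZMod n) V₁ f₁ = LinearMap.trace (ZMod n) V₂ f₂ ∧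
      LinearMap.det f₁ = LinearMap.det f₂ := by
  let e : V₁ ≃ₗ[ZMod n] V₂ := LinearEquiv.ofBijective (r.toZModLinearMap n) hr
  have he : ∀ v, e v = r v := fun _ => rfl
  have hconj : e.conj f₁ = f₂ := by
    ext w
    rw [LinearEquiv.conj_apply_apply, he, h, ← he, LinearEquiv.apply_symm_apply]
  constructor
  · rw [← hconj, LinearMap.trace_conj']
  · rw [← hconj]
    exact (LinearMap.det_conj f₁ e).symm

end transfer

/-! ### The trace of a Frobenius lift -/

section main

open TraceAbstract WeierstrassCurve.Affine.Point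

local notation "Qbar" => AlgebraicClosure ℚ

variable (W : WeierstrassCurve ℤ)

/-- The output of EC10 for the reduction of `W` modulo `ℓ` over the field `k`: the quadratic
relation of the Frobenius and the sizes of the kernels of `m + s φ`. -/
def FrobeniusRelations (ℓ : ℕ) (k : Type*) [Field k] [Algebra (ZMod ℓ) k] [DecidableEq k]
    (Fr : k →ₐ[ZMod ℓ] k) : Prop :=
  (∀ P : (curveRes W ℓ k).Point,
      Point.map Fr (Point.map Fr P) - (W.apOfModel ℓ) • Point.map Fr P + (ℓ : ℤ) • P = 0) ∧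
    (∀ m s : ℤ, ¬ (ℓ : ℤ) ∣ m →
      (Nat.card {P : (curveRes W ℓ k).Point // m • P + s • Point.map Fr P = 0} : ℤ) =
        m ^ 2 + (W.apOfModel ℓ) * m * s + (ℓ : ℤ) * s ^ 2)

/-- Core statement, for a general residue map `π : A → k`. -/
theorem trace_frobenius_lift_aux {ℓ n : ℕ} [Fact ℓ.Prime] [Fact n.Prime] (hnℓ : n ≠ ℓ)
    (hgood : W.IsGoodPrimeFor ℓ) {A : ValuationSubring Qbar}
    {k : Type*} [Field k] [Algebra (ZMod ℓ) k] [CharP k ℓ] [DecidableEq k]
    (π : A →+* k) [IsLocalHom π] {σ : Qbar ≃ₐ[ℚ] Qbar}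
    (Fr : k →ₐ[ZMod ℓ] k) (hFr : ∀ x, Fr x = x ^ ℓ)
    (hσ : ∀ x : Qbar, res π (σ x) = (res π x) ^ ℓ) (hσA : ∀ x : Qbar, σ x ∈ A ↔ x ∈ A)
    (hT : Nat.card (tors (curveQbar W).Point n) = n ^ 2)
    (hF : FrobeniusRelations W ℓ k Fr) :
    LinearMap.trace (ZMod n) _
        (galoisRepModuleEnd ℚ (W.map (Int.castRingHom ℚ)).toAffine n σ) = (W.apOfModel ℓ : ZMod n) ∧
      LinearMap.det (galoisRepModuleEnd ℚ (W.map (Int.castRingHom ℚ)).toAffine n σ)
        = ((ℓ : ℤ) : ZMod n) := by
  have hℓ : ℓ.Prime := Fact.out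
  have hn : n.Prime := Fact.out
  have hΔ : (curveRes W ℓ k).Δ ≠ 0 := curveRes_Δ_ne_zero W hgood
  have hR : IsReduction π (curveQbar W) (curveRes W ℓ k) := isReduction_model W π
  -- the trace theorem on the reduction
  obtain ⟨hcard2, htr2, hdet2⟩ := trace_det_torsion (Point.map Fr) hℓ (Ne.symm hnℓ)
    (W.apOfModel ℓ) (ℓ : ℤ) hF.1 hF.2
  -- `n` is a unit of `A`
  have hnA : A.valuation ((n : ℕ) : Qbar) = 1 := by
    have h1 : π ((n : ℕ) : A) ≠ 0 := by
      rw [map_natCast]
      intro h0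
      have := (CharP.cast_eq_zero_iff k ℓ n).mp h0
      exact hnℓ ((Nat.prime_dvd_prime_iff_eq hℓ hn).mp this).symm
    have := (pi_ne_zero_iff π _).mp h1
    simpa using this
  -- the reduction map on `n`-torsion
  have hmem : ∀ v : tors (curveQbar W).Point n,
      hR.redHom hΔ (v : (curveQbar W).Point) ∈ tors (curveRes W ℓ k).Point n := by
    intro v
    rw [mem_tors, ← map_zsmul, mem_tors.mp v.2, _root_.map_zero]
  let r : tors (curveQbar W).Point n →+ tors (curveRes W ℓ k).Point n :=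
    { toFun := fun v => ⟨hR.redHom hΔ (v : (curveQbar W).Point), hmem v⟩
      map_zero' := Subtype.ext (_root_.map_zero _)
      map_add' := fun v w => Subtype.ext (_root_.map_add _ _ _) }
  have hrinj : Function.Injective r := by
    intro v w hvw
    apply Subtype.ext
    have h1 : hR.redHom hΔ (v : (curveQbar W).Point) = hR.redHom hΔ (w : (curveQbar W).Point) :=
      congrArg Subtype.val hvw
    have hv : n • (v : (curveQbar W).Point) = 0 := by
      have := mem_tors.mp v.2
      rwa [natCast_zsmul] at this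
    have hw : n • (w : (curveQbar W).Point) = 0 := by
      have := mem_tors.mp w.2
      rwa [natCast_zsmul] at this
    exact hR.redHom_injOn_torsion hΔ hnA hv hw h1
  have hfin : Finite (tors (curveRes W ℓ k).Point n) := by
    apply Nat.finite_of_card_ne_zero
    rw [hcard2]
    exact pow_ne_zero 2 hn.ne_zero
  have hrbij : Function.Bijective r :=
    hrinj.bijective_of_nat_card_le (by rw [hcard2, hT])
  -- intertwining
  have hint : ∀ v, r (galoisRepModuleEnd ℚ (W.map (Int.castRingHom ℚ)).toAffine n σ v) =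
      ((restr (Point.map Fr) n).toZModLinearMap n) (r v) := by
    intro v
    apply Subtype.ext
    exact red_smul W π Fr hFr hσ hσA (v : (curveQbar W).Point)
  obtain ⟨h1, h2⟩ := trace_det_eq_of_intertwine r hrbij _ _ hint
  exact ⟨h1.trans htr2, h2.trans hdet2⟩

/-- The EC10 output for all algebraically closed fields of characteristic `ℓ` (in `Type`). -/
def FrobeniusHyp (ℓ : ℕ) : Prop :=
  ∀ (k : Type) [Field k] [IsAlgClosed k] [Algebra (ZMod ℓ) k] [DecidableEq k]
    (Fr : k →ₐ[ZMod ℓ] k), (∀ x, Fr x = x ^ ℓ) → FrobeniusRelations W ℓ k Fr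

/-- The EC9 corollary in characteristic zero: `E[n](ℚ̄)` has `n²` elements. -/
def TorsionCardHyp (n : ℕ) : Prop := Nat.card (tors (curveQbar W).Point n) = n ^ 2

/-- **Trace of a Frobenius lift.** For a prime `ℓ` of good reduction, a prime `n ≠ ℓ` and a
Frobenius lift `σ` at `ℓ`, the trace of `σ` on `E[n](ℚ̄)` is `a_ℓ mod n` and its determinant is
`ℓ mod n`. -/
theorem trace_frobenius_lift {ℓ n : ℕ} [Fact ℓ.Prime] [Fact n.Prime] (hnℓ : n ≠ ℓ)
    (hgood : W.IsGoodPrimeFor ℓ) (A : ValuationSubring Qbar) (hA : A.LiesOverPrime ℓ)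
    (σ : Qbar ≃ₐ[ℚ] Qbar) (hσ : A.IsFrobeniusAt σ ℓ)
    (hT : TorsionCardHyp W n) (hF : FrobeniusHyp W ℓ) :
    galoisTrace ℚ (W.map (Int.castRingHom ℚ)).toAffine n σ = (W.apOfModel ℓ : ZMod n) ∧
      LinearMap.det (galoisRepModuleEnd ℚ (W.map (Int.castRingHom ℚ)).toAffine n σ)
        = ((ℓ : ℤ) : ZMod n) := by
  have hℓ : ℓ.Prime := Fact.out
  have : CharP (ResidueField A) ℓ := charP_residueField A hℓ hA
  let _ : Algebra (ZMod ℓ) (ResidueField A) := ZMod.algebra _ ℓ
  have : IsAlgClosed (ResidueField A) := isAlgClosed_residueField A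
  let _ : DecidableEq (ResidueField A) := Classical.decEq _
  let Fr : ResidueField A →ₐ[ZMod ℓ] ResidueField A :=
    FiniteField.frobeniusAlgHom (ZMod ℓ) (ResidueField A)
  have hFr : ∀ x, Fr x = x ^ ℓ := by
    intro x
    show x ^ Fintype.card (ZMod ℓ) = x ^ ℓ
    rw [ZMod.card]
  exact trace_frobenius_lift_aux W hnℓ hgood (residue A) Fr hFr (res_frob A hσ hℓ.ne_zero)
    (fun _ => frob_mem_iff A hσ) hT (hF _ Fr hFr)

/-- **Congruence of the `a_ℓ`.** If `E[n]` and `E'[n]` are isomorphic as Galois modules, then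
`a_ℓ(E) ≡ a_ℓ(E') mod n` for every prime `ℓ ≠ n` of good reduction for both curves. -/
theorem apOfModel_congr_of_torsion_iso (W' : WeierstrassCurve ℤ) {n : ℕ} [Fact n.Prime]
    (e : tors (curveQbar W).Point n ≃ₗ[ZMod n] tors (curveQbar W').Point n)
    (he : ∀ (σ : Qbar ≃ₐ[ℚ] Qbar) (P : tors (curveQbar W).Point n), e (σ • P) = σ • e P)
    {ℓ : ℕ} [Fact ℓ.Prime] (hnℓ : n ≠ ℓ) (hgood : W.IsGoodPrimeFor ℓ)
    (hgood' : W'.IsGoodPrimeFor ℓ)
    (hT : TorsionCardHyp W n) (hT' : TorsionCardHyp W' n)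
    (hF : FrobeniusHyp W ℓ) (hF' : FrobeniusHyp W' ℓ) :
    (n : ℤ) ∣ W'.apOfModel ℓ - W.apOfModel ℓ := by
  have hℓ : ℓ.Prime := Fact.out
  obtain ⟨A, σ, hA, hσ⟩ := Fermat.Agent.Lib.exists_isFrobeniusAt ℓ hℓ
  obtain ⟨h1, -⟩ := trace_frobenius_lift W hnℓ hgood A hA σ hσ hT hF
  obtain ⟨h2, -⟩ := trace_frobenius_lift W' hnℓ hgood' A hA σ hσ hT' hF'
  rw [galoisTrace_def] at h1 h2
  obtain ⟨h3, -⟩ := trace_det_eq_of_intertwine (e : _ →+ _) e.bijective
    (galoisRepModuleEnd ℚ (W.map (Int.castRingHom ℚ)).toAffine n σ)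
    (galoisRepModuleEnd ℚ (W'.map (Int.castRingHom ℚ)).toAffine n σ) (fun v => he σ v)
  rw [h1, h2] at h3
  exact (ZMod.intCast_eq_intCast_iff_dvd_sub _ _ n).mp h3

end main

end Fermat.Agent.Lib.EC.ReductionTorsion
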