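import Mathlib
import Fermat.Agent.Lib.EC.FrobeniusAbstract
import Fermat.Agent.Lib.EC.KernelCount.HeightForm
import Fermat.Agent.Lib.EC.FrobCharEq.FrobFixed
import Fermat.Agent.Lib.EC.FrobCharEq.Main
import Fermat.Agent.Lib.EC.ReductionTorsion

/-!
helper74 (P-ELL library, WP-EC10).  **Kernel counts for `m + s φ`** on an elliptic curve over a
finite field `F` (with values in an algebraically closed `F`-algebra `k`, any characteristic
including `2` and `3`), and the discharge of helper51's hypothesis `FrobeniusHyp` (WP-EC12).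

* `card_ker_frob` **(M)** : `#ker (m + s φ) = m² + a m s + q s²` for `(m : k) ≠ 0`,
  `q = #F`, `a = q + 1 - #W(F)`.
* `frobeniusRelations_zmod`, `frobeniusHyp` : the statement `ReductionTorsion.FrobeniusHyp W ℓ`
  for an integral Weierstrass model `W` with good reduction at `ℓ`
  ((Q) is helper2's `FrobCharEq.frob_charEq`, (M) is `card_ker_frob`).
-/

set_option autoImplicit false

open WeierstrassCurve WeierstrassCurve.Affine

namespace Fermat.Agent.Lib.EC.Frobenius

open Fermat.Agent.Lib.EC Fermat.Agent.Lib.EC.FunctionField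

section general

variable {F : Type*} [Field F] [Fintype F] (W : WeierstrassCurve F)
  (k : Type*) [Field k] [Algebra F k] [DecidableEq k]

/-- The `q`-Frobenius of `W(k)` used by helper97 (`frobPtk`) is the one used by helper4
(`FrobCharEq.frobPoint`). -/
theorem frobPtk_eq_frobPoint : frobPtk W k = FrobCharEq.frobPoint W k := rfl

/-- The fixed points of Frobenius, in the `KerSet` form. -/
theorem card_kerSet_one_neg_one :
    Nat.card (FrobeniusAbstract.KerSet (frobPtk W k) 1 (-1)) = Nat.card W.toAffine.Point := by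
  classical
  rw [← FrobCharEq.card_fixed_frobPoint W k]
  refine Nat.card_congr (Equiv.subtypeEquivRight fun P => ?_)
  rw [one_zsmul, neg_one_zsmul, ← sub_eq_add_neg, sub_eq_zero, frobPtk_eq_frobPoint]
  exact eq_comm

variable [IsAlgClosed k] [(W⁄k).IsElliptic]

/-- **(M)** For an elliptic curve `W` over a finite field `F` with `q` elements, `k` an
algebraically closed `F`-algebra, `φ` the `q`-Frobenius of `W(k)` and `(m : k) ≠ 0`:
`#ker (m + s φ) = m² + a m s + q s²` with `a = q + 1 - #W(F)`. -/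
theorem card_ker_frob {m : ℤ} (hm : (m : k) ≠ 0) (s : ℤ) :
    (Nat.card {P₀ : (W⁄k).toAffine.Point // m • P₀ + s • frobPtk W k P₀ = 0} : ℤ) =
      m ^ 2 + ((Fintype.card F : ℤ) + 1 - (Nat.card W.toAffine.Point : ℤ)) * m * s
        + (Fintype.card F : ℤ) * s ^ 2 := by
  classical
  have hW := not_two_a₁_a₃_of_Δ_ne_zero W k (W⁄k).isUnit_Δ.ne_zero
  -- the group of odd points, its height, the generic point and the Frobenius
  let T := Parallelogram.oddPoints W (involA W k)
  let h : T → ℤ := Parallelogram.hT (ratEmb W k) (hfix W k hW)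
  let Pg : T := ⟨genericPoint W k, genericPoint_mem W k⟩
  have hmemΦ : ∀ Q : T, frobPt W k Q.1 ∈ Parallelogram.oddPoints W (involA W k) := fun Q =>
    (mem_oddPoints_iff W k _).mp (frobPt_mem_oddPoints W k ((mem_oddPoints_iff W k _).mpr Q.2))
  let Φ : T →+ T :=
    { toFun := fun Q => ⟨frobPt W k Q.1, hmemΦ Q⟩
      map_zero' := Subtype.ext (map_zero (frobPt W k))
      map_add' := fun P Q => Subtype.ext (map_add (frobPt W k) P.1 Q.1) }
  have hpar : ∀ P Q : T, h (P + Q) + h (P - Q) = 2 * h P + 2 * h Q :=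
    Parallelogram.hT_parallelogram (ratEmb W k) (hfix W k hW)
  have hΦ : ∀ P : T, h (Φ P) = (Fintype.card F : ℤ) * h P := by
    intro P
    show Parallelogram.hT (ratEmb W k) (hfix W k hW) (Φ P) =
      (Fintype.card F : ℤ) * Parallelogram.hT (ratEmb W k) (hfix W k hW) P
    rw [KernelCount.hT_eq_ratHeight_xT W k hW, KernelCount.hT_eq_ratHeight_xT W k hW]
    have hx : FunctionField.xT W k (Φ P).1 = FunctionField.xT W k P.1 ^ Fintype.card F :=
      xT_frobPt W k hW ((mem_oddPoints_iff W k _).mpr P.2)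
    rw [hx, ratHeight_pow]
    push_cast
    ring
  have hPg : h Pg = 1 :=
    Parallelogram.hT_eq_one_of_x_eq_X (ratEmb W k) (hfix W k hW) (Q := Pg) rfl (ratEmb_X W k)
  have hK : ∀ m s : ℤ, (m : k) ≠ 0 →
      (Nat.card (FrobeniusAbstract.KerSet (frobPtk W k) m s) : ℤ) = h (m • Pg + s • Φ Pg) := by
    intro m s hm
    have hmem : m • genericPoint W k + s • frobPt W k (genericPoint W k) ∈
        Parallelogram.oddPoints W (involA W k) := (m • Pg + s • Φ Pg).2
    exact KernelCount.card_ker_eq_hT W k hW hm s hmem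
  have h1 : ((1 : ℤ) : k) ≠ 0 := by simp
  have key := FrobeniusAbstract.card_ker_eq_quadratic (frobPtk W k) hpar Φ (Fintype.card F : ℤ) hΦ
    Pg hPg (fun m : ℤ => (m : k) ≠ 0) h1 hK m s hm
  rw [card_kerSet_one_neg_one] at key
  exact key

end general

section zmod

variable (W : WeierstrassCurve ℤ) (ℓ : ℕ) [Fact ℓ.Prime]

/-- An algebra over `ZMod ℓ` has characteristic `ℓ`. -/
theorem charP_of_algebra_zmod (k : Type*) [Field k] [Algebra (ZMod ℓ) k] : CharP k ℓ :=
  charP_of_injective_algebraMap (algebraMap (ZMod ℓ) k).injective ℓ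

/-- Any `ℓ`-power endomorphism of a `ZMod ℓ`-algebra is the Frobenius. -/
theorem eq_frobeniusAlgHom {k : Type*} [Field k] [Algebra (ZMod ℓ) k] (Fr : k →ₐ[ZMod ℓ] k)
    (hFr : ∀ x, Fr x = x ^ ℓ) : Fr = FiniteField.frobeniusAlgHom (ZMod ℓ) k := by
  ext x
  rw [hFr, FiniteField.coe_frobeniusAlgHom, ZMod.card]

/-- **WP-EC10 → WP-EC12.** The Frobenius relations (characteristic equation and kernel counts) for
the reduction modulo a prime `ℓ` of good reduction of an integral Weierstrass model. -/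
theorem frobeniusRelations_zmod (hgood : W.IsGoodPrimeFor ℓ)
    (k : Type*) [Field k] [IsAlgClosed k] [Algebra (ZMod ℓ) k] [DecidableEq k]
    (Fr : k →ₐ[ZMod ℓ] k) (hFr : ∀ x, Fr x = x ^ ℓ) :
    ReductionTorsion.FrobeniusRelations W ℓ k Fr := by
  have hchar : CharP k ℓ := charP_of_algebra_zmod ℓ k
  have hΔk : (ReductionTorsion.curveRes W ℓ k).Δ ≠ 0 :=
    ReductionTorsion.curveRes_Δ_ne_zero W hgood
  have hΔ : (W.reductionMod ℓ).Δ ≠ 0 := by
    intro h0
    apply hΔk
    show ((W.reductionMod ℓ).map (algebraMap (ZMod ℓ) k)).Δ = 0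
    rw [WeierstrassCurve.map_Δ, h0, map_zero]
  have : (W.reductionMod ℓ).IsElliptic := ⟨Ne.isUnit hΔ⟩
  have : ((W.reductionMod ℓ)⁄k).IsElliptic := ⟨Ne.isUnit hΔk⟩
  rw [eq_frobeniusAlgHom ℓ Fr hFr]
  refine ⟨fun P => ?_, fun m s hm => ?_⟩
  · exact FrobCharEq.frob_charEq (W.reductionMod ℓ) k P
  · have hmk : (m : k) ≠ 0 := by
      rw [Ne, CharP.intCast_eq_zero_iff k ℓ]
      exact hm
    have key := card_ker_frob (W.reductionMod ℓ) k hmk s
    rw [ZMod.card] at key
    have ha : W.apOfModel ℓ = (ℓ : ℤ) + 1 - (Nat.card (W.reductionMod ℓ).toAffine.Point : ℤ) := by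
      rw [WeierstrassCurve.apOfModel, WeierstrassCurve.traceOfFrobenius, WeierstrassCurve.card,
        Nat.card_eq_fintype_card, ZMod.card]
    rw [ha]
    exact key

/-- **helper51's hypothesis `FrobeniusHyp`** holds at every prime of good reduction. -/
theorem frobeniusHyp (hgood : W.IsGoodPrimeFor ℓ) : ReductionTorsion.FrobeniusHyp W ℓ :=
  fun k _ _ _ _ Fr hFr => frobeniusRelations_zmod W ℓ hgood k Fr hFr

end zmod

end Fermat.Agent.Lib.EC.Frobenius
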