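import Mathlib
import Fermat.Agent.Lib.EC.KernelCount.Abstract

/-!
helper74 (P-ELL library, WP-EC10, geometric part).  Same abstract setting as helper10's
`KernelCount/Abstract.lean`: `K/k` a function field in one variable over an algebraically closed
field, `W` a Weierstrass curve over `R → k → K` with `W⁄k` elliptic, `(e X, y)` a `K`-point of `W`
("generic point") such that every affine `k`-point is its centre at some place.

* `exists_const_of_x_const` : a `K`-point with constant `x`-coordinate is a constant point.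
* `exists_place_spec_eq_zero` : a non-constant `K`-point specialises to `0` at some place.
* `surjective_one_add_frob` **(Surj)** : `P₀ ↦ P₀ + φ P₀` is onto `W(k)` (`φ` a `q`-power Frobenius).
* `eq_zero_of_const` : if `ψK` commutes with specialisation and `ψK (generic point)` is `0` or has
  constant `x`-coordinate, then `ψK (generic point) = 0` and `ψk = 0` on `W(k)`.
-/

set_option autoImplicit false

open WeierstrassCurve WeierstrassCurve.Affine Polynomial

namespace Fermat.Agent.Lib.EC.FrobeniusGeom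

open Fermat.Agent.Lib.EC Fermat.Agent.Lib.EC.LocalOrder Fermat.Agent.Lib.EC.KernelCount

variable {R : Type*} [CommRing R] {W : Affine R}
  {k K : Type*} [Field k] [Field K] [Algebra R k] [Algebra R K] [Algebra k K]
  [IsScalarTower R k K] [DecidableEq k] [DecidableEq K] [IsAlgClosed k]

omit [DecidableEq k] [DecidableEq K] in
/-- The `y`-coordinate of a point of the constant curve with constant `x`-coordinate is constant. -/
theorem y_mem_range_of_x_const {x y : K} (h : (W⁄K).Equation x y) {c : k}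
    (hc : x = algebraMap k K c) : y ∈ (algebraMap k K).range := by
  apply Places.mem_range_of_isIntegral
  refine ⟨X ^ 2 + C ((W⁄k).a₁ * c + (W⁄k).a₃) * X -
    C (c ^ 3 + (W⁄k).a₂ * c ^ 2 + (W⁄k).a₄ * c + (W⁄k).a₆), ?_, ?_⟩
  · have h1 : (C ((W⁄k).a₁ * c + (W⁄k).a₃) * X -
        C (c ^ 3 + (W⁄k).a₂ * c ^ 2 + (W⁄k).a₄ * c + (W⁄k).a₆) : k[X]).degree
        < ((X : k[X]) ^ 2).degree := by
      rw [degree_X_pow]
      refine lt_of_le_of_lt (degree_sub_le _ _) (max_lt ?_ ?_)
      · exact lt_of_le_of_lt (degree_C_mul_X_le _) (by norm_num)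
      · exact lt_of_le_of_lt degree_C_le (by norm_num)
    have h2 : (X ^ 2 + C ((W⁄k).a₁ * c + (W⁄k).a₃) * X -
        C (c ^ 3 + (W⁄k).a₂ * c ^ 2 + (W⁄k).a₄ * c + (W⁄k).a₆) : k[X]) =
        X ^ 2 + (C ((W⁄k).a₁ * c + (W⁄k).a₃) * X -
        C (c ^ 3 + (W⁄k).a₂ * c ^ 2 + (W⁄k).a₄ * c + (W⁄k).a₆)) := by ring
    rw [h2]
    exact (monic_X_pow 2).add_of_left h1
  · have hW : (W⁄K) = (W⁄k).map (algebraMap k K) :=
      (W.map_baseChange (IsScalarTower.toAlgHom R k K)).symm
    rw [hW, equation_iff] at h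
    simp only [map_a₁, map_a₂, map_a₃, map_a₄, map_a₆] at h
    simp only [eval₂_sub, eval₂_add, eval₂_mul, eval₂_pow, eval₂_X, eval₂_C, map_add, map_mul,
      map_pow]
    rw [hc] at h
    linear_combination h

/-- A point of `W` over `K` with constant `x`-coordinate is a constant point. -/
theorem exists_const_of_x_const {x y : K} (h : (W⁄K).Nonsingular x y) {c : k}
    (hc : x = algebraMap k K c) :
    ∃ P₀ : (W⁄k).Point, Point.some x y h = const W P₀ := by
  obtain ⟨d, hd⟩ := y_mem_range_of_x_const h.1 hc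
  have key : ∀ (x' y' : K) (h' : (W⁄K).Nonsingular x' y'), x' = x → y' = y →
      Point.some x' y' h' = Point.some x y h := by
    rintro x' y' h' rfl rfl; rfl
  have h0 : (W⁄K).Nonsingular (IsScalarTower.toAlgHom R k K c) (IsScalarTower.toAlgHom R k K d) := by
    rw [IsScalarTower.coe_toAlgHom', ← hc, hd]
    exact h
  have h0' : (W⁄k).Nonsingular c d :=
    (W.baseChange_nonsingular (IsScalarTower.toAlgHom R k K).injective c d).mp h0
  refine ⟨Point.some c d h0', ?_⟩
  rw [const, Point.map_some]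
  refine (key _ _ _ ?_ ?_).symm
  · rw [IsScalarTower.coe_toAlgHom', hc]
  · rw [IsScalarTower.coe_toAlgHom', hd]

variable [(W⁄k).IsElliptic] (H : Places.IsOneVar k K)

/-- **Pole lemma for points**: a non-constant point of `W` over `K` specialises to `0` at some
place. -/
theorem exists_place_spec_eq_zero {Q : (W⁄K).Point} (hQ : Q ∉ Set.range (const W (k := k) (K := K))) :
    ∃ (A : ValuationSubring K) (hk : ∀ c : k, algebraMap k K c ∈ A) (hA : A ≠ ⊤),
      spec W H A hk hA Q = 0 := by
  rcases Q with _ | ⟨x, y, h⟩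
  · exact absurd ⟨0, map_zero _⟩ hQ
  · have hx : x ∉ (algebraMap k K).range := by
      rintro ⟨c, hc⟩
      obtain ⟨P₀, hP₀⟩ := exists_const_of_x_const h hc.symm
      exact hQ ⟨P₀, hP₀.symm⟩
    obtain ⟨A, hk, hxA⟩ := Places.exists_valuationSubring_notMem hx
    have hA : A ≠ ⊤ := by
      rintro rfl
      exact hxA (ValuationSubring.mem_top x)
    exact ⟨A, hk, hA, (spec_eq_zero_iff W H A hk hA _).mpr ((kerRed_some A h).mpr hxA)⟩

section generic

variable (e : RatFunc k →ₐ[k] K) {y : K} (hxy : (W⁄K).Nonsingular (e RatFunc.X) y)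

include H in
/-- A place "at infinity": the generic point specialises to `0`. -/
theorem exists_place_infinity :
    ∃ (A : ValuationSubring K) (hk : ∀ c : k, algebraMap k K c ∈ A) (hA : A ≠ ⊤),
      e RatFunc.X ∉ A ∧ spec W H A hk hA (Point.some (e RatFunc.X) y hxy) = 0 := by
  obtain ⟨A, hk, hxA⟩ := Places.exists_valuationSubring_notMem (x_notMem_range (k := k) e)
  have hA : A ≠ ⊤ := by
    rintro rfl
    exact hxA (ValuationSubring.mem_top _)
  exact ⟨A, hk, hA, hxA, (spec_eq_zero_iff W H A hk hA _).mpr ((kerRed_some A hxy).mpr hxA)⟩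

/-- The image of the generic point under `m + ψ` (`ψ` inseparable, `(m : k) ≠ 0`) is not a constant
point. -/
theorem generic_notMem_range_const {ψK : (W⁄K).Point →+ (W⁄K).Point}
    {ψk : (W⁄k).Point →+ (W⁄k).Point} (hψ : IsInsep W H ψK ψk) {m : ℤ} (hm : (m : k) ≠ 0) :
    m • Point.some (e RatFunc.X) y hxy + ψK (Point.some (e RatFunc.X) y hxy) ∉
      Set.range (const W (k := k) (K := K)) := by
  rintro ⟨P₂, hP₂⟩
  obtain ⟨A, hk, hxA⟩ := Places.exists_valuationSubring_notMem (x_notMem_range (k := k) e)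
  obtain ⟨h1, h2⟩ := infinite_place hψ A hk hm hxy hxA
  rw [← hP₂] at h1 h2
  rcases P₂ with _ | ⟨c, d, h₀⟩
  · exact h1 (map_zero _)
  · rw [const, Point.map_some] at h2
    have hv : 1 < A.valuation (e RatFunc.X) := by
      rw [← not_le, A.valuation_le_one_iff]; exact hxA
    have hc : A.valuation (IsScalarTower.toAlgHom R k K c) ≤ 1 := by
      rw [A.valuation_le_one_iff, IsScalarTower.coe_toAlgHom']
      exact hk c
    have : xCoord (W⁄K) (Point.some (IsScalarTower.toAlgHom R k K c)
        (IsScalarTower.toAlgHom R k K d)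
        ((W.baseChange_nonsingular (IsScalarTower.toAlgHom R k K).injective c d).mpr h₀)) =
        IsScalarTower.toAlgHom R k K c := rfl
    rw [this] at h2
    rw [h2] at hc
    exact absurd hv (not_lt.mpr hc)

include H e hxy in
/-- **(Surj)** For a `q`-power Frobenius `φ`, the endomorphism `1 + φ` of `W(k)` is onto. -/
theorem surjective_one_add_frob (fK : K →ₐ[R] K) (fk : k →ₐ[R] k) {q : ℕ}
    (hq : 2 ≤ q) (hfK : ∀ z, fK z = z ^ q) (hfk : ∀ c, fk c = c ^ q) :
    Function.Surjective fun P₀ : (W⁄k).Point => P₀ + Point.map (W' := W) fk P₀ := by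
  intro R₀
  set Pg : (W⁄K).Point := Point.some (e RatFunc.X) y hxy with hPg
  have hψ := isInsep_zsmul_frob W H fK fk hq hfK hfk 1
  have hnc : Pg + Point.map (W' := W) fK Pg - const W R₀ ∉
      Set.range (const W (k := k) (K := K)) := by
    rintro ⟨P₁, hP₁⟩
    apply generic_notMem_range_const H e hxy hψ (m := 1) (by simp)
    refine ⟨P₁ + R₀, ?_⟩
    rw [map_add, hP₁, one_zsmul, one_zsmul]
    abel
  obtain ⟨A, hk, hA, hs⟩ := exists_place_spec_eq_zero H hnc
  refine ⟨spec W H A hk hA Pg, ?_⟩
  have hq0 : q ≠ 0 := by omega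
  rw [map_sub, map_add, spec_map_pow W H A hk hA fK fk hq0 hfK hfk, spec_map_const] at hs
  exact sub_eq_zero.mp hs

include H in
/-- If `ψK` commutes with specialisation and the image of the generic point is `0` or has a
constant `x`-coordinate, then it is `0`, and `ψk` vanishes on every centre of the generic point. -/
theorem eq_zero_of_const {ψK : (W⁄K).Point →+ (W⁄K).Point} {ψk : (W⁄k).Point →+ (W⁄k).Point}
    (hspec : ∀ (A : ValuationSubring K) (hk : ∀ c : k, algebraMap k K c ∈ A) (hA : A ≠ ⊤)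
      (P : (W⁄K).Point), spec W H A hk hA (ψK P) = ψk (spec W H A hk hA P))
    (hconst : ψK (Point.some (e RatFunc.X) y hxy) = 0 ∨
      ∃ c : k, xCoord _ (ψK (Point.some (e RatFunc.X) y hxy)) = algebraMap k K c) :
    ψK (Point.some (e RatFunc.X) y hxy) = 0 := by
  rcases hconst with h0 | ⟨c, hc⟩
  · exact h0
  · obtain ⟨A, hk, hA, -, hs⟩ := exists_place_infinity H e hxy
    have h1 : spec W H A hk hA (ψK (Point.some (e RatFunc.X) y hxy)) = 0 := by
      rw [hspec, hs, map_zero]
    rw [spec_eq_zero_iff] at h1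
    generalize ψK (Point.some (e RatFunc.X) y hxy) = γ at h1 hc ⊢
    rcases γ with _ | ⟨x', y', h'⟩
    · rfl
    · exfalso
      rw [kerRed_some] at h1
      apply h1
      have : xCoord (W⁄K) (Point.some x' y' h') = x' := rfl
      rw [this] at hc
      rw [hc]
      exact hk c

include H in
/-- If `ψK` commutes with specialisation and kills the generic point, then `ψk` kills every
`k`-point which is a centre of the generic point. -/
theorem eq_zero_of_generic_eq_zero {ψK : (W⁄K).Point →+ (W⁄K).Point}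
    {ψk : (W⁄k).Point →+ (W⁄k).Point}
    (hspec : ∀ (A : ValuationSubring K) (hk : ∀ c : k, algebraMap k K c ∈ A) (hA : A ≠ ⊤)
      (P : (W⁄K).Point), spec W H A hk hA (ψK P) = ψk (spec W H A hk hA P))
    (hcentre : ∀ x₀ y₀ : k, (W⁄k).Nonsingular x₀ y₀ → ∃ A : ValuationSubring K,
      (∀ c : k, algebraMap k K c ∈ A) ∧ e RatFunc.X - algebraMap k K x₀ ∈ A.nonunits ∧
        y - algebraMap k K y₀ ∈ A.nonunits)
    (h0 : ψK (Point.some (e RatFunc.X) y hxy) = 0) (P₀ : (W⁄k).Point) : ψk P₀ = 0 := by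
  rcases P₀ with _ | ⟨x₀, y₀, h₀⟩
  · exact map_zero ψk
  · obtain ⟨A, hk, hx₀, hy₀⟩ := hcentre x₀ y₀ h₀
    have hA : A ≠ ⊤ := Places.ne_top_of_mem_nonunits hx₀
      (fun h => x_ne_const (k := k) e x₀ (sub_eq_zero.mp h))
    obtain ⟨hns, hs⟩ := spec_some_of_sub_mem_nonunits W H A hk hA hxy hx₀ hy₀
    have h1 := hspec A hk hA (Point.some (e RatFunc.X) y hxy)
    rw [h0, map_zero, hs] at h1
    exact h1.symm

end generic

end Fermat.Agent.Lib.EC.FrobeniusGeom
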