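import Mathlib
import Fermat.Agent.Lib.EC.ReductionTorsion

/-!
helper51 (P-ELL library).  A light variant of `ReductionTorsion` (WP-EC12): the congruence
`a_ℓ(E) ≡ a_ℓ(E') mod n` for curves with Galois-isomorphic `n`-torsion, from the
**characteristic equation of Frobenius only** (`φ² - a_ℓ φ + ℓ = 0` on the reductions, helper2's
`FrobCharEq`), with no kernel counts and no knowledge of the size of `E[n]`.

* `charEq_frobenius_lift`: a Frobenius lift `σ` at `ℓ` satisfies `σ² - a_ℓ σ + ℓ = 0` on every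
  torsion point of `E(ℚ̄)` of order prime to `ℓ`.
* `apOfModel_congr_of_charEq`: if there is an injective Galois-equivariant additive map
  `E[n] → E'[n]` and `E[n] ≠ 0` (`n` prime), then `n ∣ a_ℓ(E') - a_ℓ(E)` for all good `ℓ ≠ n`.
-/

set_option autoImplicit false

open WeierstrassCurve WeierstrassCurve.Affine IsLocalRing

namespace Fermat.Agent.Lib.EC.ReductionCharEq

open Fermat.Agent.Lib.EC.ReductionTorsion TraceAbstract WeierstrassCurve.Affine.Point

local notation "Qbar" => AlgebraicClosure ℚ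

variable (W : WeierstrassCurve ℤ)

/-- The characteristic equation of the Frobenius on the reduction of `W` modulo `ℓ` over `k`. -/
def FrobeniusCharEq (ℓ : ℕ) (k : Type*) [Field k] [Algebra (ZMod ℓ) k] [DecidableEq k]
    (Fr : k →ₐ[ZMod ℓ] k) : Prop :=
  ∀ P : (curveRes W ℓ k).Point,
    Point.map Fr (Point.map Fr P) - (W.apOfModel ℓ) • Point.map Fr P + (ℓ : ℤ) • P = 0

/-- The characteristic equation for all algebraically closed fields of characteristic `ℓ`
(in `Type`). -/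
def FrobeniusCharEqHyp (ℓ : ℕ) : Prop :=
  ∀ (k : Type) [Field k] [IsAlgClosed k] [Algebra (ZMod ℓ) k] [DecidableEq k]
    (Fr : k →ₐ[ZMod ℓ] k), (∀ x, Fr x = x ^ ℓ) → FrobeniusCharEq W ℓ k Fr

theorem frobeniusCharEqHyp_of_frobeniusHyp {ℓ : ℕ} (h : FrobeniusHyp W ℓ) :
    FrobeniusCharEqHyp W ℓ :=
  fun k _ _ _ _ Fr hFr => (h k Fr hFr).1

/-- `W mod ℓ` is an elliptic curve at a prime of good reduction. -/
theorem isElliptic_reductionMod {ℓ : ℕ} [Fact ℓ.Prime] (hgood : W.IsGoodPrimeFor ℓ) :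
    (W.reductionMod ℓ).IsElliptic := by
  refine ⟨?_⟩
  have h1 : (W.reductionMod ℓ).Δ = ((W.Δ : ℤ) : ZMod ℓ) := by
    show (W.map (Int.castRingHom (ZMod ℓ))).Δ = _
    rw [WeierstrassCurve.map_Δ]
    rfl
  rw [h1, isUnit_iff_ne_zero]
  intro h
  exact hgood ((ZMod.intCast_zmod_eq_zero_iff_dvd _ _).mp h)

/-- `FrobeniusCharEqHyp` from the characteristic equation stated for the standard Frobenius
`FiniteField.frobeniusAlgHom (ZMod ℓ) k` (the shape of helper2's `FrobCharEq`). -/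
theorem frobeniusCharEqHyp_of_frobeniusAlgHom {ℓ : ℕ} [Fact ℓ.Prime]
    (h : ∀ (k : Type) [Field k] [IsAlgClosed k] [Algebra (ZMod ℓ) k] [DecidableEq k]
      (T : ((W.reductionMod ℓ).toAffine⁄k).Point),
      Point.map (W' := (W.reductionMod ℓ).toAffine) (FiniteField.frobeniusAlgHom (ZMod ℓ) k)
          (Point.map (W' := (W.reductionMod ℓ).toAffine)
            (FiniteField.frobeniusAlgHom (ZMod ℓ) k) T) -
        (W.reductionMod ℓ).traceOfFrobenius •
          Point.map (W' := (W.reductionMod ℓ).toAffine)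
            (FiniteField.frobeniusAlgHom (ZMod ℓ) k) T + (ℓ : ℤ) • T = 0) :
    FrobeniusCharEqHyp W ℓ := by
  intro k _ _ _ _ Fr hFr P
  have hFr' : Fr = FiniteField.frobeniusAlgHom (ZMod ℓ) k := by
    apply AlgHom.ext
    intro x
    rw [hFr]
    show x ^ ℓ = x ^ Fintype.card (ZMod ℓ)
    rw [ZMod.card]
  rw [hFr']
  exact h k P

/-- Core statement, for a general residue map `π : A → k`. -/
theorem charEq_frobenius_lift_aux {ℓ n : ℕ} [Fact ℓ.Prime] (hnℓ : ¬ ℓ ∣ n)
    (hgood : W.IsGoodPrimeFor ℓ) {A : ValuationSubring Qbar}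
    {k : Type*} [Field k] [Algebra (ZMod ℓ) k] [CharP k ℓ] [DecidableEq k]
    (π : A →+* k) [IsLocalHom π] {σ : Qbar ≃ₐ[ℚ] Qbar}
    (Fr : k →ₐ[ZMod ℓ] k) (hFr : ∀ x, Fr x = x ^ ℓ)
    (hσ : ∀ x : Qbar, res π (σ x) = (res π x) ^ ℓ) (hσA : ∀ x : Qbar, σ x ∈ A ↔ x ∈ A)
    (hF : FrobeniusCharEq W ℓ k Fr) (P : (curveQbar W).Point) (hP : n • P = 0) :
    σ • σ • P - (W.apOfModel ℓ) • σ • P + (ℓ : ℤ) • P = 0 := by
  have hΔ : (curveRes W ℓ k).Δ ≠ 0 := curveRes_Δ_ne_zero W hgood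
  have hR : IsReduction π (curveQbar W) (curveRes W ℓ k) := isReduction_model W π
  -- `n` is a unit of `A`
  have hnA : A.valuation ((n : ℕ) : Qbar) = 1 := by
    have h1 : π ((n : ℕ) : A) ≠ 0 := by
      rw [map_natCast]
      intro h0
      exact hnℓ ((CharP.cast_eq_zero_iff k ℓ n).mp h0)
    have := (pi_ne_zero_iff π _).mp h1
    simpa using this
  set Z : (curveQbar W).Point := σ • σ • P - (W.apOfModel ℓ) • σ • P + (ℓ : ℤ) • P with hZ
  have hσP : n • (σ • P) = 0 := by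
    rw [← natCast_zsmul, ← algEquiv_smul_zsmul, natCast_zsmul, hP, smul_zero]
  have hσσP : n • (σ • σ • P) = 0 := by
    rw [← natCast_zsmul, ← algEquiv_smul_zsmul, natCast_zsmul, hσP, smul_zero]
  have hnZ : n • Z = 0 := by
    rw [hZ, nsmul_add, nsmul_sub, hσσP, smul_comm, hσP, smul_comm, hP, zsmul_zero, zsmul_zero,
      sub_zero, add_zero]
  have hn0 : n • (0 : (curveQbar W).Point) = 0 := nsmul_zero n
  apply hR.redHom_injOn_torsion hΔ hnA hnZ hn0
  rw [_root_.map_zero, hZ, map_add, map_sub, map_zsmul, map_zsmul]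
  have e1 : hR.redHom hΔ (σ • P) = Point.map Fr (hR.redHom hΔ P) :=
    red_smul W π Fr hFr hσ hσA P
  have e2 : hR.redHom hΔ (σ • σ • P) = Point.map Fr (Point.map Fr (hR.redHom hΔ P)) := by
    rw [← e1]
    exact red_smul W π Fr hFr hσ hσA (σ • P)
  rw [e1, e2]
  exact hF _

/-- **The characteristic equation of a Frobenius lift.** For a prime `ℓ` of good reduction and a
Frobenius lift `σ` at `ℓ`, `σ² - a_ℓ σ + ℓ = 0` on every torsion point of order prime to `ℓ`. -/
theorem charEq_frobenius_lift {ℓ n : ℕ} [Fact ℓ.Prime] (hnℓ : ¬ ℓ ∣ n)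
    (hgood : W.IsGoodPrimeFor ℓ) (A : ValuationSubring Qbar) (hA : A.LiesOverPrime ℓ)
    (σ : Qbar ≃ₐ[ℚ] Qbar) (hσ : A.IsFrobeniusAt σ ℓ) (hF : FrobeniusCharEqHyp W ℓ)
    (P : (curveQbar W).Point) (hP : n • P = 0) :
    σ • σ • P - (W.apOfModel ℓ) • σ • P + (ℓ : ℤ) • P = 0 := by
  have hℓ : ℓ.Prime := Fact.out
  have : CharP (ResidueField A) ℓ := charP_residueField A hℓ hA
  let _ : Algebra (ZMod ℓ) (ResidueField A) := ZMod.algebra _ ℓ
  have : IsAlgClosed (ResidueField A) := isAlgClosed_residueField A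
  let _ : DecidableEq (ResidueField A) := Classical.decEq _
  let Fr : ResidueField A →ₐ[ZMod ℓ] ResidueField A :=
    FiniteField.frobeniusAlgHom (ZMod ℓ) (ResidueField A)
  have hFr : ∀ x, Fr x = x ^ ℓ := by
    intro x
    show x ^ Fintype.card (ZMod ℓ) = x ^ ℓ
    rw [ZMod.card]
  exact charEq_frobenius_lift_aux W hnℓ hgood (residue A) Fr hFr (res_frob A hσ hℓ.ne_zero)
    (fun _ => frob_mem_iff A hσ) (hF _ Fr hFr) P hP

/-- **Congruence of the `a_ℓ` from the characteristic equations.** If there is an injective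
Galois-equivariant additive map `E[n] → E'[n]` and `E[n] ≠ 0`, then `a_ℓ(E) ≡ a_ℓ(E') mod n` for
every prime `ℓ ≠ n` of good reduction for both curves. -/
theorem apOfModel_congr_of_charEq (W' : WeierstrassCurve ℤ) {n : ℕ} [Fact n.Prime]
    (e : tors (curveQbar W).Point n →+ tors (curveQbar W').Point n)
    (hinj : Function.Injective e)
    (he : ∀ (σ : Qbar ≃ₐ[ℚ] Qbar) (P : tors (curveQbar W).Point n), e (σ • P) = σ • e P)
    (hnt : ∃ P : tors (curveQbar W).Point n, P ≠ 0)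
    {ℓ : ℕ} [Fact ℓ.Prime] (hnℓ : n ≠ ℓ) (hgood : W.IsGoodPrimeFor ℓ)
    (hgood' : W'.IsGoodPrimeFor ℓ)
    (hF : FrobeniusCharEqHyp W ℓ) (hF' : FrobeniusCharEqHyp W' ℓ) :
    (n : ℤ) ∣ W'.apOfModel ℓ - W.apOfModel ℓ := by
  have hℓ : ℓ.Prime := Fact.out
  have hn : n.Prime := Fact.out
  have hℓn : ¬ ℓ ∣ n := fun h => hnℓ ((Nat.prime_dvd_prime_iff_eq hℓ hn).mp h).symm
  obtain ⟨A, σ, hA, hσ⟩ := Fermat.Agent.Lib.exists_isFrobeniusAt ℓ hℓ
  obtain ⟨P, hP0⟩ := hnt
  -- the characteristic equation of `σ` on `P`, transported by `e`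
  have hPn : n • (P : (curveQbar W).Point) = 0 := by
    have := mem_tors.mp P.2
    rwa [natCast_zsmul] at this
  have h1 := charEq_frobenius_lift W hℓn hgood A hA σ hσ hF (P : (curveQbar W).Point) hPn
  have h1' : σ • σ • P - (W.apOfModel ℓ) • σ • P + (ℓ : ℤ) • P = 0 := Subtype.ext h1
  have h2 : σ • σ • e P - (W.apOfModel ℓ) • σ • e P + (ℓ : ℤ) • e P = 0 := by
    have := congrArg e h1'
    rwa [map_add, map_sub, map_zsmul, map_zsmul, he, he, _root_.map_zero] at this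
  -- the characteristic equation of `σ` on `e P`
  have hQn : n • ((e P : tors (curveQbar W').Point n) : (curveQbar W').Point) = 0 := by
    have := mem_tors.mp (e P).2
    rwa [natCast_zsmul] at this
  have h3 := charEq_frobenius_lift W' hℓn hgood' A hA σ hσ hF'
    ((e P : tors (curveQbar W').Point n) : (curveQbar W').Point) hQn
  have h3' : σ • σ • e P - (W'.apOfModel ℓ) • σ • e P + (ℓ : ℤ) • e P = 0 := Subtype.ext h3
  -- subtract
  have h4 : (W'.apOfModel ℓ - W.apOfModel ℓ) • σ • e P = 0 := by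
    have : (W'.apOfModel ℓ - W.apOfModel ℓ) • σ • e P =
        (σ • σ • e P - (W.apOfModel ℓ) • σ • e P + (ℓ : ℤ) • e P) -
          (σ • σ • e P - (W'.apOfModel ℓ) • σ • e P + (ℓ : ℤ) • e P) := by
      rw [sub_smul]
      abel
    rw [this, h2, h3', sub_zero]
  have h5 : (W'.apOfModel ℓ - W.apOfModel ℓ) • e P = 0 := by
    have := congrArg (fun x => σ⁻¹ • x) h4
    simpa [smul_comm σ⁻¹ (W'.apOfModel ℓ - W.apOfModel ℓ)] using this
  have h6 : (W'.apOfModel ℓ - W.apOfModel ℓ) • P = 0 := by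
    apply hinj
    rw [map_zsmul, h5, _root_.map_zero]
  -- `P` has order exactly `n`
  by_contra hdvd
  have hcop : IsCoprime (n : ℤ) (W'.apOfModel ℓ - W.apOfModel ℓ) :=
    (Nat.prime_iff_prime_int.mp hn).irreducible.coprime_iff_not_dvd.mpr hdvd
  obtain ⟨u, v, huv⟩ := hcop
  have hnP : (n : ℤ) • P = 0 := by
    apply Subtype.ext
    exact mem_tors.mp P.2
  apply hP0
  calc P = (1 : ℤ) • P := (one_zsmul P).symm
    _ = (u * (n : ℤ) + v * (W'.apOfModel ℓ - W.apOfModel ℓ)) • P := by rw [huv]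
    _ = 0 := by rw [add_smul, mul_smul, mul_smul, hnP, h6, smul_zero, smul_zero, add_zero]

end Fermat.Agent.Lib.EC.ReductionCharEq
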