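import Mathlib
import Fermat.Agent.Lib.EC.ReductionCharEq
import Fermat.Agent.Lib.EC.FrobCharEq.Main

/-!
helper51 (P-ELL library).  Unconditional form of `ReductionCharEq`: helper2's characteristic
equation of Frobenius (`FrobCharEq.frob_charEq`) discharges `FrobeniusCharEqHyp`.

* `frobeniusCharEqHyp`: the characteristic equation on the reduction at every good prime.
* `charEq_frobeniusLift`: a Frobenius lift `σ` at a good prime `ℓ` satisfies
  `σ² - a_ℓ σ + ℓ = 0` on the prime-to-`ℓ` torsion of `E(ℚ̄)`.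
* `apOfModel_congr`: `n ∣ a_ℓ(E') - a_ℓ(E)` whenever `E[n] ≠ 0` embeds Galois-equivariantly
  into `E'[n]` (`n` prime, `ℓ ≠ n` good for both).
-/

set_option autoImplicit false

open WeierstrassCurve WeierstrassCurve.Affine IsLocalRing

namespace Fermat.Agent.Lib.EC.ReductionCharEq

open Fermat.Agent.Lib.EC.ReductionTorsion TraceAbstract WeierstrassCurve.Affine.Point

local notation "Qbar" => AlgebraicClosure ℚ

variable (W : WeierstrassCurve ℤ)

/-- The characteristic equation of Frobenius holds on the reduction at every good prime. -/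
theorem frobeniusCharEqHyp {ℓ : ℕ} [Fact ℓ.Prime] (hgood : W.IsGoodPrimeFor ℓ) :
    FrobeniusCharEqHyp W ℓ := by
  have : (W.reductionMod ℓ).IsElliptic := isElliptic_reductionMod W hgood
  exact frobeniusCharEqHyp_of_frobeniusAlgHom W
    (fun k _ _ _ _ T => FrobCharEq.frob_charEq (W.reductionMod ℓ) k T)

/-- **The characteristic equation of a Frobenius lift** (unconditional). -/
theorem charEq_frobeniusLift {ℓ n : ℕ} [Fact ℓ.Prime] (hnℓ : ¬ ℓ ∣ n)
    (hgood : W.IsGoodPrimeFor ℓ) (A : ValuationSubring Qbar) (hA : A.LiesOverPrime ℓ)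
    (σ : Qbar ≃ₐ[ℚ] Qbar) (hσ : A.IsFrobeniusAt σ ℓ)
    (P : (curveQbar W).Point) (hP : n • P = 0) :
    σ • σ • P - (W.apOfModel ℓ) • σ • P + (ℓ : ℤ) • P = 0 :=
  charEq_frobenius_lift W hnℓ hgood A hA σ hσ (frobeniusCharEqHyp W hgood) P hP

/-- **Congruence of the `a_ℓ`** (unconditional): if `E[n] ≠ 0` embeds Galois-equivariantly into
`E'[n]`, then `a_ℓ(E) ≡ a_ℓ(E') mod n` at every prime `ℓ ≠ n` of good reduction for both. -/
theorem apOfModel_congr (W' : WeierstrassCurve ℤ) {n : ℕ} [Fact n.Prime]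
    (e : tors (curveQbar W).Point n →+ tors (curveQbar W').Point n)
    (hinj : Function.Injective e)
    (he : ∀ (σ : Qbar ≃ₐ[ℚ] Qbar) (P : tors (curveQbar W).Point n), e (σ • P) = σ • e P)
    (hnt : ∃ P : tors (curveQbar W).Point n, P ≠ 0)
    {ℓ : ℕ} [Fact ℓ.Prime] (hnℓ : n ≠ ℓ) (hgood : W.IsGoodPrimeFor ℓ)
    (hgood' : W'.IsGoodPrimeFor ℓ) :
    (n : ℤ) ∣ W'.apOfModel ℓ - W.apOfModel ℓ :=
  apOfModel_congr_of_charEq W W' e hinj he hnt hnℓ hgood hgood'
    (frobeniusCharEqHyp W hgood) (frobeniusCharEqHyp W' hgood')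

end Fermat.Agent.Lib.EC.ReductionCharEq
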