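import Fermat.Agent.Lib.EC.KernelCount
import Fermat.Agent.Lib.EC.FunctionField.Height

/-!
# P-ELL: the number of `m`-torsion points of an elliptic curve over an algebraically closed field

`#E[m](k) = m²` for `(m : k) ≠ 0`, `k` algebraically closed (any characteristic), from the kernel
count `card_ker_zsmul_eq_ratHeight` (WP-EC9) and the quadratic form `height` (WP-EC8 bridge).
-/

set_option autoImplicit false

open WeierstrassCurve

namespace Fermat.Agent.Lib.EC.TorsionCard

open Fermat.Agent.Lib.EC Fermat.Agent.Lib.EC.FunctionField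

variable {F : Type*} [Field F] (W : WeierstrassCurve F) (k : Type*) [Field k] [Algebra F k]
  [IsAlgClosed k] [DecidableEq k] [(W⁄k).IsElliptic]

/-- **`#E[m](k) = m²`** for `m` invertible in the algebraically closed field `k`. -/
theorem card_torsion_int {m : ℤ} (hm : (m : k) ≠ 0) :
    (Nat.card {P₀ : (W⁄k).toAffine.Point // m • P₀ = 0} : ℤ) = m ^ 2 := by
  classical
  rw [KernelCount.card_ker_zsmul_eq_ratHeight W k hm]
  exact height_zsmul_genericPoint W k m

theorem card_torsion {n : ℕ} (hn : (n : k) ≠ 0) :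
    Nat.card {P₀ : (W⁄k).toAffine.Point // n • P₀ = 0} = n ^ 2 := by
  have h := card_torsion_int W k (m := (n : ℤ)) (by exact_mod_cast hn)
  have e : {P₀ : (W⁄k).toAffine.Point // ((n : ℕ) : ℤ) • P₀ = 0} =
      {P₀ : (W⁄k).toAffine.Point // n • P₀ = 0} := by
    simp only [natCast_zsmul]
  rw [e] at h
  exact_mod_cast h

/-- The `n`-torsion subgroup has `n²` elements. -/
theorem card_torsionBy {n : ℕ} (hn : (n : k) ≠ 0) :
    Nat.card (Submodule.torsionBy ℤ (W⁄k).toAffine.Point (n : ℤ)) = n ^ 2 := by
  rw [← card_torsion W k hn]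
  refine Nat.card_congr (Equiv.subtypeEquivRight fun P => ?_)
  rw [Submodule.mem_torsionBy_iff, natCast_zsmul]

end Fermat.Agent.Lib.EC.TorsionCard
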